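import Mathlib
import Fermat.Statements.S51

set_option autoImplicit false

namespace Fermat.Agent.S51.Three

open WeierstrassCurve WeierstrassCurve.Affine Polynomial

variable {F : Type*} [Field F] (W : WeierstrassCurve.Affine F)

/-- The 3-division polynomial evaluated at `x`. -/
def psi3 (x : F) : F :=
  3 * x ^ 4 + W.b₂ * x ^ 3 + 3 * W.b₄ * x ^ 2 + 3 * W.b₆ * x + W.b₈

/-- The square of the 2-division polynomial, as a polynomial in `x`. -/
def psi2sq (x : F) : F :=
  4 * x ^ 3 + W.b₂ * x ^ 2 + 2 * W.b₄ * x + W.b₆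

/-- The 3-division polynomial as a polynomial. -/
noncomputable def psi3Poly : F[X] :=
  C 3 * X ^ 4 + C W.b₂ * X ^ 3 + C (3 * W.b₄) * X ^ 2 + C (3 * W.b₆) * X + C W.b₈

theorem eval_psi3Poly (x : F) : (psi3Poly W).eval x = psi3 W x := by
  simp [psi3Poly, psi3]

theorem natDegree_psi3Poly [CharZero F] : (psi3Poly W).natDegree = 4 := by
  have h3 : (3 : F) ≠ 0 := by norm_num
  rw [psi3Poly]
  compute_degree!

theorem psi3Poly_ne_zero [CharZero F] : psi3Poly W ≠ 0 := by
  intro h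
  have := natDegree_psi3Poly W
  rw [h, natDegree_zero] at this
  omega

/-- the quadratic in `y` cutting out the points above `x`. -/
noncomputable def yPoly (x : F) : F[X] :=
  X ^ 2 + C (W.a₁ * x + W.a₃) * X - C (x ^ 3 + W.a₂ * x ^ 2 + W.a₄ * x + W.a₆)

theorem eval_yPoly (x y : F) : (yPoly W x).eval y =
    y ^ 2 + W.a₁ * x * y + W.a₃ * y - (x ^ 3 + W.a₂ * x ^ 2 + W.a₄ * x + W.a₆) := by
  simp [yPoly]; ring

theorem natDegree_yPoly (x : F) : (yPoly W x).natDegree = 2 := by
  rw [yPoly]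
  compute_degree!

theorem yPoly_ne_zero (x : F) : yPoly W x ≠ 0 := by
  intro h
  have := natDegree_yPoly W x
  rw [h, natDegree_zero] at this
  omega

theorem equation_iff_yPoly (x y : F) : W.Equation x y ↔ (yPoly W x).IsRoot y := by
  rw [equation_iff, IsRoot, eval_yPoly, sub_eq_zero]

theorem exists_equation_of_isAlgClosed [IsAlgClosed F] (x : F) : ∃ y, W.Equation x y := by
  obtain ⟨y, hy⟩ := IsAlgClosed.exists_root (yPoly W x) (by
    rw [degree_eq_natDegree (yPoly_ne_zero W x), natDegree_yPoly]; norm_num)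
  exact ⟨y, (equation_iff_yPoly W x y).mpr hy⟩

theorem exists_psi3_root [IsAlgClosed F] [CharZero F] : ∃ x, psi3 W x = 0 := by
  obtain ⟨x, hx⟩ := IsAlgClosed.exists_root (psi3Poly W) (by
    rw [degree_eq_natDegree (psi3Poly_ne_zero W), natDegree_psi3Poly]; norm_num)
  exact ⟨x, by rw [← eval_psi3Poly]; exact hx⟩


variable {W}

theorem three_zsmul_eq {A : Type*} [AddCommGroup A] (a : A) : (3 : ℤ) • a = a + a + a := by
  rw [show (3 : ℤ) = 1 + 1 + 1 by norm_num, add_zsmul, add_zsmul, one_zsmul]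


theorem psi2sq_eq {x y : F} (h : W.Equation x y) :
    (y - W.negY x y) ^ 2 = psi2sq W x := by
  rw [equation_iff] at h
  simp only [negY, psi2sq, WeierstrassCurve.b₂, WeierstrassCurve.b₄, WeierstrassCurve.b₆]
  linear_combination 4 * h

theorem addX_sub_mul [DecidableEq F] {x y : F} (h : W.Equation x y) (hy : y ≠ W.negY x y) :
    (W.addX x x (W.slope x x y y) - x) * (y - W.negY x y) ^ 2 = -psi3 W x := by
  have hD : y - W.negY x y ≠ 0 := sub_ne_zero.mpr hy
  rw [slope_of_Y_ne rfl hy]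
  rw [equation_iff] at h
  simp only [addX, psi3, WeierstrassCurve.b₂, WeierstrassCurve.b₄, WeierstrassCurve.b₆,
    WeierstrassCurve.b₈]
  field_simp
  simp only [negY]
  linear_combination (-W.a₁ ^ 2 - 4 * W.a₂ - 12 * x) * h

theorem Δ_eq_zero_of_psi3_of_psi2sq [CharZero F] {x : F} (h3 : psi3 W x = 0)
    (h2 : psi2sq W x = 0) : W.Δ = 0 := by
  have hrel := W.b_relation
  simp only [psi3] at h3
  simp only [psi2sq] at h2
  have hd2 : (12 * x ^ 2 + 2 * W.b₂ * x + 2 * W.b₄) ^ 2 = 0 := by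
    linear_combination (2 * (24 * x + 2 * W.b₂)) * h2 - 16 * h3 + 4 * hrel
  have hd : 12 * x ^ 2 + 2 * W.b₂ * x + 2 * W.b₄ = 0 := by
    exact pow_eq_zero_iff (two_ne_zero) |>.mp hd2
  have h8 : (8 : F) * W.Δ = 0 := by
    rw [WeierstrassCurve.Δ]
    linear_combination
      (-(2 * W.b₂ ^ 3 + 12 * W.b₂ ^ 2 * x - 60 * W.b₂ * W.b₄ - 288 * W.b₄ * x + 216 * W.b₆)) * h2
      - (-W.b₂ ^ 3 * x - W.b₂ ^ 2 * W.b₄ - 4 * W.b₂ ^ 2 * x ^ 2 + 28 * W.b₂ * W.b₄ * x
          - 6 * W.b₂ * W.b₆ + 32 * W.b₄ ^ 2 + 96 * W.b₄ * x ^ 2 - 72 * W.b₆ * x) * hd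
      + (-2 * W.b₂ ^ 2) * hrel
  rcases mul_eq_zero.mp h8 with h | h
  · norm_num at h
  · exact h

/-- A point with `ψ₃(x) = 0` on a curve with `Δ ≠ 0` is a nonzero 3-torsion point. -/
theorem three_nsmul_eq_zero_of_psi3 [DecidableEq F] [CharZero F] (hΔ : W.Δ ≠ 0) {x y : F}
    (h : W.Nonsingular x y) (h3 : psi3 W x = 0) : (3 : ℤ) • Point.some x y h = 0 := by
  have hy : y ≠ W.negY x y := by
    intro hy
    apply hΔ
    apply Δ_eq_zero_of_psi3_of_psi2sq h3
    rw [← psi2sq_eq h.1, sub_eq_zero.mpr hy]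
    ring
  have hD : (y - W.negY x y) ^ 2 ≠ 0 := pow_ne_zero 2 (sub_ne_zero.mpr hy)
  have hX : W.addX x x (W.slope x x y y) = x := by
    have := addX_sub_mul h.1 hy
    rw [h3, neg_zero] at this
    rcases mul_eq_zero.mp this with h' | h'
    · exact sub_eq_zero.mp h'
    · exact absurd h' hD
  have hdbl := Point.add_self_of_Y_ne (h₁ := h) hy
  have hcases := (Point.X_eq_iff (h₁ := nonsingular_add h h fun hxy => hy hxy.right) (h₂ := h)).mp hX
  rw [← hdbl] at hcases
  rcases hcases with h' | h'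
  · exfalso
    have : Point.some x y h = 0 := by
      have := congrArg (fun P => P - Point.some x y h) h'
      simp at this
    exact Point.some_ne_zero h this
  · have : (3 : ℤ) • Point.some x y h = (Point.some x y h + Point.some x y h) + Point.some x y h := by
      simp only [show (3 : ℤ) = 1 + 1 + 1 by norm_num, add_smul, one_smul]
    rw [this, h', neg_add_cancel]


/-- Conversely a nonzero 3-torsion point has `ψ₃(x) = 0`. -/
theorem psi3_of_three_nsmul [DecidableEq F] {x y : F} (h : W.Nonsingular x y)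
    (h3 : (3 : ℤ) • Point.some x y h = 0) : psi3 W x = 0 := by
  have h3' : (Point.some x y h + Point.some x y h) = -Point.some x y h := by
    have : (3 : ℤ) • Point.some x y h = (Point.some x y h + Point.some x y h) + Point.some x y h := by
      simp only [show (3 : ℤ) = 1 + 1 + 1 by norm_num, add_smul, one_smul]
    rw [this] at h3
    exact eq_neg_of_add_eq_zero_left h3
  by_cases hy : y = W.negY x y
  · exfalso
    rw [Point.add_self_of_Y_eq hy] at h3'
    have : Point.some x y h = 0 := by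
      have := congrArg (fun P => -P) h3'
      simpa using this.symm
    exact Point.some_ne_zero h this
  · rw [Point.add_self_of_Y_ne hy, Point.neg_some, Point.some.injEq] at h3'
    have := addX_sub_mul h.1 hy
    rw [h3'.1, sub_self, zero_mul] at this
    exact neg_eq_zero.mp this.symm

/-- Coordinates of a point, as an option. -/
def coords : W.Point → Option (F × F)
  | .zero => none
  | .some x y _ => some (x, y)

theorem coords_injective : Function.Injective (coords (W := W)) := by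
  rintro (_ | ⟨x₁, y₁, h₁⟩) (_ | ⟨x₂, y₂, h₂⟩) h <;>
    simp only [coords, Option.some.injEq, Prod.mk.injEq, reduceCtorEq] at h
  · rfl
  · obtain ⟨rfl, rfl⟩ := h; rfl

/-- The finite set of candidate coordinates of nonzero 3-torsion points. -/
noncomputable def cand3 (W : WeierstrassCurve.Affine F) [DecidableEq F] : Finset (F × F) :=
  (psi3Poly W).roots.toFinset.biUnion fun x => (yPoly W x).roots.toFinset.image (Prod.mk x)

theorem card_cand3_le [DecidableEq F] [CharZero F] : (cand3 W).card ≤ 8 := by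
  calc (cand3 W).card ≤ ∑ x ∈ (psi3Poly W).roots.toFinset,
        ((yPoly W x).roots.toFinset.image (Prod.mk x)).card := Finset.card_biUnion_le
    _ ≤ ∑ _x ∈ (psi3Poly W).roots.toFinset, 2 := by
        refine Finset.sum_le_sum fun x _ => ?_
        calc _ ≤ (yPoly W x).roots.toFinset.card := Finset.card_image_le
          _ ≤ Multiset.card (yPoly W x).roots := Multiset.toFinset_card_le _
          _ ≤ (yPoly W x).natDegree := Polynomial.card_roots' _
          _ = 2 := natDegree_yPoly W x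
    _ = (psi3Poly W).roots.toFinset.card * 2 := by rw [Finset.sum_const, smul_eq_mul]
    _ ≤ 4 * 2 := by
        refine Nat.mul_le_mul_right 2 ?_
        calc _ ≤ Multiset.card (psi3Poly W).roots := Multiset.toFinset_card_le _
          _ ≤ (psi3Poly W).natDegree := Polynomial.card_roots' _
          _ = 4 := natDegree_psi3Poly W
    _ = 8 := by norm_num

theorem coords_mem_of_three_nsmul [DecidableEq F] [CharZero F] (P : W.Point)
    (hP : (3 : ℤ) • P = 0) : coords P ∈ insert none ((cand3 W).image some) := by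
  rcases P with _ | ⟨x, y, h⟩
  · simp [coords]
  · have h3 := psi3_of_three_nsmul h hP
    simp only [coords, Finset.mem_insert, reduceCtorEq, Finset.mem_image, Option.some.injEq,
      exists_eq_right, false_or, cand3, Finset.mem_biUnion, Multiset.mem_toFinset]
    refine ⟨x, ?_, y, ?_, rfl⟩
    · rw [mem_roots (psi3Poly_ne_zero W), IsRoot, eval_psi3Poly]
      exact h3
    · rw [mem_roots (yPoly_ne_zero W x)]
      exact (equation_iff_yPoly W x y).mp h.1

theorem finite_torsion_three [DecidableEq F] [CharZero F] :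
    Finite (Submodule.torsionBy ℤ W.Point (3 : ℤ)) := by
  classical
  let g : Submodule.torsionBy ℤ W.Point (3 : ℤ) → ↥(insert none ((cand3 W).image some)) :=
    fun P => ⟨coords P.1, coords_mem_of_three_nsmul P.1 ((Submodule.mem_torsionBy_iff _ _).mp P.2)⟩
  have hg : Function.Injective g := by
    intro P Q h
    apply Subtype.ext
    apply coords_injective
    exact congrArg Subtype.val h
  exact Finite.of_injective g hg

theorem card_torsion_three_le [DecidableEq F] [CharZero F] :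
    Nat.card (Submodule.torsionBy ℤ W.Point (3 : ℤ)) ≤ 9 := by
  classical
  let g : Submodule.torsionBy ℤ W.Point (3 : ℤ) → ↥(insert none ((cand3 W).image some)) :=
    fun P => ⟨coords P.1, coords_mem_of_three_nsmul P.1 ((Submodule.mem_torsionBy_iff _ _).mp P.2)⟩
  have hg : Function.Injective g := by
    intro P Q h
    apply Subtype.ext
    apply coords_injective
    exact congrArg Subtype.val h
  calc Nat.card (Submodule.torsionBy ℤ W.Point (3 : ℤ))
      ≤ Nat.card ↥(insert none ((cand3 W).image some)) := Nat.card_le_card_of_injective g hg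
    _ = (insert none ((cand3 W).image some)).card := Nat.card_eq_finsetCard _
    _ ≤ ((cand3 W).image some).card + 1 := Finset.card_insert_le _ _
    _ ≤ (cand3 W).card + 1 := Nat.add_le_add_right Finset.card_image_le 1
    _ ≤ 8 + 1 := Nat.add_le_add_right card_cand3_le 1


section Concrete

local notation "Qb" => AlgebraicClosure ℚ

theorem isGalois_qbar : IsGalois ℚ Qb :=
  have : IsAlgClosure ℚ Qb := AlgebraicClosure.instIsAlgClosure ℚ
  inferInstance

theorem exists_rat_of_fixed (x : Qb) (h : ∀ σ : Qb ≃ₐ[ℚ] Qb, σ x = x) :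
    ∃ q : ℚ, algebraMap ℚ Qb q = x := by
  have := isGalois_qbar
  have hx : x ∈ (⊥ : IntermediateField ℚ Qb) := (InfiniteGalois.mem_bot_iff_fixed x).mpr h
  exact IntermediateField.mem_bot.mp hx

theorem coords_smul (E : Affine ℚ) (σ : Qb ≃ₐ[ℚ] Qb) (P : (E⁄Qb).Point) :
    coords (σ • P) = (coords P).map (Prod.map σ σ) := by
  rcases P with _ | ⟨x, y, h⟩
  · rfl
  · rfl

variable (E : Affine ℚ)

theorem Δ_baseChange_ne_zero (hΔ : E.Δ ≠ 0) : (E⁄Qb).Δ ≠ 0 := by
  show (E.map (algebraMap ℚ Qb)).Δ ≠ 0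
  rw [WeierstrassCurve.map_Δ]
  exact (_root_.map_ne_zero _).mpr hΔ

theorem psi3_baseChange (x : ℚ) :
    psi3 (E⁄Qb) (algebraMap ℚ Qb x) = algebraMap ℚ Qb (psi3 E x) := by
  show psi3 (E.map (algebraMap ℚ Qb)).toAffine (algebraMap ℚ Qb x) = _
  simp only [psi3, WeierstrassCurve.map_b₂, WeierstrassCurve.map_b₄, WeierstrassCurve.map_b₆,
    WeierstrassCurve.map_b₈, map_add, map_mul, map_pow, map_ofNat]

/-- `E[3]` is nontrivial. -/
theorem nontrivial_torsion_three (hΔ : E.Δ ≠ 0) :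
    Nontrivial (Submodule.torsionBy ℤ (E⁄Qb).Point ((3 : ℕ) : ℤ)) := by
  have hΔ' := Δ_baseChange_ne_zero E hΔ
  obtain ⟨x, hx⟩ := exists_psi3_root (E⁄Qb)
  obtain ⟨y, hy⟩ := exists_equation_of_isAlgClosed (E⁄Qb) x
  have hns : (E⁄Qb).Nonsingular x y := (equation_iff_nonsingular_of_Δ_ne_zero hΔ').mp hy
  have h3 := three_nsmul_eq_zero_of_psi3 hΔ' hns hx
  refine ⟨⟨⟨Point.some x y hns, (Submodule.mem_torsionBy_iff _ _).mpr h3⟩, 0, ?_⟩⟩
  intro h
  exact Point.some_ne_zero hns (congrArg Subtype.val h)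

open WeierstrassCurve.Affine.Point in
/-- A Galois-stable proper nonzero submodule of `E[3]` produces a rational root of `ψ₃`. -/
theorem exists_rat_psi3_root_of_stable
    (N : Submodule (ZMod 3) (Submodule.torsionBy ℤ (E⁄Qb).Point ((3 : ℕ) : ℤ)))
    (hN : IsGaloisStable ℚ N) (hbot : N ≠ ⊥) (htop : N ≠ ⊤) : ∃ x3 : ℚ, psi3 E x3 = 0 := by
  classical
  have hfin : Finite (Submodule.torsionBy ℤ (E⁄Qb).Point ((3 : ℕ) : ℤ)) :=
    finite_torsion_three (W := (E⁄Qb))
  have hcard : Nat.card (Submodule.torsionBy ℤ (E⁄Qb).Point ((3 : ℕ) : ℤ)) ≤ 9 :=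
    card_torsion_three_le (W := (E⁄Qb))
  have hmf : Module.Finite (ZMod 3) (Submodule.torsionBy ℤ (E⁄Qb).Point ((3 : ℕ) : ℤ)) :=
    Module.Finite.of_finite
  -- finrank T ≤ 2
  have hrankT : Module.finrank (ZMod 3) (Submodule.torsionBy ℤ (E⁄Qb).Point ((3 : ℕ) : ℤ)) ≤ 2 := by
    have h := Module.natCard_eq_pow_finrank (K := ZMod 3)
      (V := Submodule.torsionBy ℤ (E⁄Qb).Point ((3 : ℕ) : ℤ))
    rw [Nat.card_zmod] at h
    rw [h] at hcard
    have : 3 ^ Module.finrank (ZMod 3) (Submodule.torsionBy ℤ (E⁄Qb).Point ((3 : ℕ) : ℤ)) ≤ 3 ^ 2 := by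
      simpa using hcard
    exact (Nat.pow_le_pow_iff_right (by norm_num)).mp this
  have hlt : Module.finrank (ZMod 3) N <
      Module.finrank (ZMod 3) (Submodule.torsionBy ℤ (E⁄Qb).Point ((3 : ℕ) : ℤ)) :=
    Submodule.finrank_lt htop
  obtain ⟨P, hPN, hP0⟩ := Submodule.exists_mem_ne_zero_of_ne_bot hbot
  have hpos : 0 < Module.finrank (ZMod 3) N :=
    Module.finrank_pos_iff_exists_ne_zero.mpr ⟨⟨P, hPN⟩, fun h => hP0 (congrArg Subtype.val h)⟩
  have hone : Module.finrank (ZMod 3) N = 1 := by omega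
  have hgen := (finrank_eq_one_iff_of_nonzero' (⟨P, hPN⟩ : N)
    (fun h => hP0 (congrArg Subtype.val h))).mp hone
  -- coordinates of P
  have h3P : (3 : ℤ) • (P : (E⁄Qb).Point) = 0 := (Submodule.mem_torsionBy_iff _ _).mp P.2
  rcases hPc : (P : (E⁄Qb).Point) with _ | ⟨x, y, hxy⟩
  · exfalso
    apply hP0
    apply Subtype.ext
    rw [hPc]
    rfl
  have h3x : psi3 (E⁄Qb) x = 0 := by
    rw [hPc] at h3P
    exact psi3_of_three_nsmul hxy h3P
  -- x is Galois-fixed
  have h3c : ∀ c : ZMod 3, c = 0 ∨ c = 1 ∨ c = 2 := by decide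
  have hPP : (P : (E⁄Qb).Point) + (P : (E⁄Qb).Point) = -(P : (E⁄Qb).Point) := by
    rw [three_zsmul_eq] at h3P
    exact eq_neg_of_add_eq_zero_left h3P
  have hfix : ∀ σ : Qb ≃ₐ[ℚ] Qb, σ x = x := by
    intro σ
    have hσP : σ • P ∈ N := hN σ P hPN
    obtain ⟨c, hc⟩ := hgen ⟨σ • P, hσP⟩
    have hc' : c • P = σ • P := congrArg Subtype.val hc
    have hc'' : ((c • P : Submodule.torsionBy ℤ (E⁄Qb).Point ((3 : ℕ) : ℤ)) : (E⁄Qb).Point) =
        σ • (P : (E⁄Qb).Point) := congrArg Subtype.val hc'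
    have hσcoords : coords (σ • (P : (E⁄Qb).Point)) = Option.some (σ x, σ y) := by
      rw [coords_smul, hPc]
      rfl
    rcases h3c c with rfl | rfl | rfl
    · rw [zero_smul] at hc''
      rw [← hc''] at hσcoords
      simp [coords] at hσcoords
    · rw [one_smul] at hc''
      rw [← hc'', hPc] at hσcoords
      simp only [coords, Option.some.injEq, Prod.mk.injEq] at hσcoords
      exact hσcoords.1.symm
    · have h2 : ((2 : ZMod 3) • P : Submodule.torsionBy ℤ (E⁄Qb).Point ((3 : ℕ) : ℤ)) = P + P := by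
        have : ((2 : ℕ) : ZMod 3) • P = (2 : ℕ) • P := Nat.cast_smul_eq_nsmul (ZMod 3) 2 P
        rw [two_nsmul] at this
        exact_mod_cast this
      rw [h2] at hc''
      have hc3 : -(P : (E⁄Qb).Point) = σ • (P : (E⁄Qb).Point) := by
        rw [← hPP]
        exact hc''
      rw [← hc3, hPc, Point.neg_some] at hσcoords
      simp only [coords, Option.some.injEq, Prod.mk.injEq] at hσcoords
      exact hσcoords.1.symm
  obtain ⟨x3, hx3⟩ := exists_rat_of_fixed x hfix
  refine ⟨x3, ?_⟩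
  have := psi3_baseChange E x3
  rw [hx3, h3x] at this
  exact (_root_.map_eq_zero _).mp this.symm


/-- From a rational root of `ψ₃` one gets a rational parameter `t` on `X₀(3)` with
`j · t = (t + 27)(t + 3)³` (written without denominators, `j = c₄³ / Δ`). -/
theorem exists_param_of_psi3_root (hΔ : E.Δ ≠ 0) {x : ℚ} (hx : psi3 E x = 0) :
    ∃ t : ℚ, t ≠ 0 ∧ E.c₄ ^ 3 * t = E.Δ * ((t + 27) * (t + 3) ^ 3) := by
  have hrel := E.b_relation
  have hf : psi2sq E x ≠ 0 := fun h => hΔ (Δ_eq_zero_of_psi3_of_psi2sq hx h)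
  set B2 : ℚ := E.b₂ + 12 * x with hB2
  set B4 : ℚ := E.b₄ + x * E.b₂ + 6 * x ^ 2 with hB4
  set B6 : ℚ := psi2sq E x with hB6
  have h1 : B2 * B6 = B4 ^ 2 := by
    simp only [psi3] at hx
    simp only [hB2, hB4, hB6, psi2sq]
    linear_combination 4 * hx - hrel
  have h2 : E.Δ = B4 ^ 3 - 27 * B6 ^ 2 := by
    have h2' : E.Δ = -B2 ^ 2 * 0 - 8 * B4 ^ 3 - 27 * B6 ^ 2 + 9 * B2 * B4 * B6 := by
      simp only [psi3] at hx
      simp only [hB2, hB4, hB6, psi2sq, WeierstrassCurve.Δ]
      linear_combination (-(E.b₂ + 12 * x) ^ 2) * hx + (6 * E.b₂ * x + 36 * x ^ 2) * hrel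
    rw [h2']
    linear_combination (9 * B4) * h1
  have h3 : E.c₄ = B2 ^ 2 - 24 * B4 := by
    simp only [hB2, hB4, WeierstrassCurve.c₄]
    ring
  have hB2' : B2 = B4 ^ 2 / B6 := by
    field_simp
    exact h1
  refine ⟨E.Δ / B6 ^ 2, div_ne_zero hΔ (pow_ne_zero 2 hf), ?_⟩
  rw [h3, hB2', h2]
  field_simp
  ring

end Concrete

/-- Main export of the 3-torsion analysis: if the mod-3 representation is not irreducible, then
`ψ₃` has a rational root. -/
theorem exists_rat_psi3_root_of_not_irreducible (W : WeierstrassCurve ℤ) (hΔ : W.Δ ≠ 0)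
    (h : ¬ W.ModRepIsIrreducible 3) :
    ∃ x3 : ℚ, psi3 (W.map (Int.castRingHom ℚ)).toAffine x3 = 0 := by
  have hΔ' : (W.map (Int.castRingHom ℚ)).toAffine.Δ ≠ 0 := by
    show (W.map (Int.castRingHom ℚ)).Δ ≠ 0
    rw [WeierstrassCurve.map_Δ, eq_intCast]
    exact_mod_cast hΔ
  have hnt := nontrivial_torsion_three (W.map (Int.castRingHom ℚ)).toAffine hΔ'
  unfold WeierstrassCurve.ModRepIsIrreducible
    WeierstrassCurve.Affine.Point.GaloisRepIsIrreducible at h
  push Not at h
  obtain ⟨N, hN, hbot, htop⟩ := h hnt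
  exact exists_rat_psi3_root_of_stable _ N hN hbot htop

/-- The `X₀(3)`-parameter attached to a curve whose mod-3 representation is not irreducible. -/
theorem exists_param_three (W : WeierstrassCurve ℤ) (hΔ : W.Δ ≠ 0)
    (h : ¬ W.ModRepIsIrreducible 3) :
    ∃ t : ℚ, t ≠ 0 ∧ (W.c₄ : ℚ) ^ 3 * t = (W.Δ : ℚ) * ((t + 27) * (t + 3) ^ 3) := by
  obtain ⟨x3, hx3⟩ := exists_rat_psi3_root_of_not_irreducible W hΔ h
  have hΔ' : (W.map (Int.castRingHom ℚ)).toAffine.Δ ≠ 0 := by
    show (W.map (Int.castRingHom ℚ)).Δ ≠ 0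
    rw [WeierstrassCurve.map_Δ, eq_intCast]
    exact_mod_cast hΔ
  obtain ⟨t, ht0, ht⟩ := exists_param_of_psi3_root _ hΔ' hx3
  refine ⟨t, ht0, ?_⟩
  have hc4 : (W.map (Int.castRingHom ℚ)).toAffine.c₄ = (W.c₄ : ℚ) := by
    show (W.map (Int.castRingHom ℚ)).c₄ = _
    rw [WeierstrassCurve.map_c₄]; rfl
  have hD : (W.map (Int.castRingHom ℚ)).toAffine.Δ = (W.Δ : ℚ) := by
    show (W.map (Int.castRingHom ℚ)).Δ = _
    rw [WeierstrassCurve.map_Δ]; rfl
  rw [hc4, hD] at ht
  exact ht

end Fermat.Agent.S51.Three
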