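import Fermat.Agent.S51.Defs

/-!
Algebraic core of S51: from a rational root `x3` of the 3-division polynomial and a rational
kernel polynomial `X^2 - s1 X + s2` of a 5-isogeny, produce the two invariants `l` (a modular unit
of degree two on `X_0(15)`) and `T` (the `X_0(3)` parameter), together with the two relations
between `l`, `T` and the `j`-invariant.
-/

set_option autoImplicit false

namespace Fermat.Agent.S51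

theorem core_point (W : WeierstrassCurve ℚ) (hΔ : W.Δ ≠ 0) (hc4 : W.c₄ ≠ 0) (x3 s1 s2 : ℚ)
    (h3 : psi3 W x3 = 0) (h1 : r1 W s1 s2 = 0) (h2 : r2 W s1 s2 = 0)
    (hd : s1 ^ 2 - 4 * s2 ≠ 0) (hne : x3 ^ 2 - s1 * x3 + s2 ≠ 0) :
    ∃ l T : ℚ, l ≠ 0 ∧ T ≠ 0 ∧ W.c₄ ^ 3 * T = W.Δ * (T + 27) * (T + 3) ^ 3 ∧
      T ^ 2 * l ^ 5 * (l - 1) - 5 * T * l ^ 3 - (9 * l + 1) = 0 := by
  have hrel := W.b_relation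
  simp only [psi3] at h3
  simp only [r1] at h1
  simp only [r2] at h2
  -- translated invariants (x3 moved to 0)
  obtain ⟨B2, hB2⟩ : ∃ B2 : ℚ, B2 = W.b₂ + 12 * x3 := ⟨_, rfl⟩
  obtain ⟨B4, hB4⟩ : ∃ B4 : ℚ, B4 = W.b₄ + W.b₂ * x3 + 6 * x3 ^ 2 := ⟨_, rfl⟩
  obtain ⟨B6, hB6⟩ : ∃ B6 : ℚ, B6 = W.b₆ + 2 * W.b₄ * x3 + W.b₂ * x3 ^ 2 + 4 * x3 ^ 3 := ⟨_, rfl⟩
  obtain ⟨S1, hS1⟩ : ∃ S1 : ℚ, S1 = s1 - 2 * x3 := ⟨_, rfl⟩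
  obtain ⟨S2, hS2⟩ : ∃ S2 : ℚ, S2 = x3 ^ 2 - s1 * x3 + s2 := ⟨_, rfl⟩
  have ha : B2 * B6 = B4 ^ 2 := by
    rw [hB2, hB4, hB6]; linear_combination 4 * h3 - hrel
  have hc4' : W.c₄ = B2 ^ 2 - 24 * B4 := by
    rw [hB2, hB4, WeierstrassCurve.c₄]; ring
  have hΔ' : W.Δ = B4 ^ 3 - 27 * B6 ^ 2 := by
    rw [hB4, hB6, WeierstrassCurve.Δ]
    linear_combination (-3 * W.b₂ * x3 - 9 * W.b₄ - 18 * x3 ^ 2) * hrel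
      + (-W.b₂ ^ 2 + 12 * W.b₂ * x3 + 36 * W.b₄ + 72 * x3 ^ 2) * h3
  have hR1 : -S1 ^ 3 + 6 * S1 * S2 + B2 * S2 + B4 * S1 + B6 = 0 := by
    rw [hB2, hB4, hB6, hS1, hS2]; linear_combination h1
  have hR2 : -S1 ^ 4 + 8 * S1 ^ 2 * S2 - 10 * S2 ^ 2 + B2 * S1 * S2 + B4 * S1 ^ 2 + 2 * B4 * S2
      + 3 * B6 * S1 = 0 := by
    rw [hB2, hB4, hB6, hS1, hS2]; linear_combination h2 - 2 * h3
  have hD : S1 ^ 2 - 4 * S2 ≠ 0 := by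
    have : S1 ^ 2 - 4 * S2 = s1 ^ 2 - 4 * s2 := by rw [hS1, hS2]; ring
    rw [this]; exact hd
  have hS2ne : S2 ≠ 0 := by rw [hS2]; exact hne
  have hB4ne : B4 ≠ 0 := by
    intro h0
    rw [h0] at ha
    have h' : B2 * B6 = 0 := by rw [ha]; ring
    rcases mul_eq_zero.mp h' with h | h
    · apply hc4; rw [hc4', h, h0]; ring
    · apply hΔ; rw [hΔ', h, h0]; ring
  have hQ1 : B2 * (S1 ^ 3 - 6 * S1 * S2 - B2 * S2 - B4 * S1) - B4 ^ 2 = 0 := by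
    linear_combination ha - B2 * hR1
  have hQ2 : S1 ^ 4 - 5 * S1 ^ 2 * S2 - 5 * S2 ^ 2 - B2 * S1 * S2 - B4 * S1 ^ 2 + B4 * S2 = 0 := by
    linear_combination (1 / 2) * hR2 - (3 / 2) * S1 * hR1
  -- the main identity, cleared of denominators
  have hG : (B2 ^ 2 - 27 * B4) ^ 2 * S2 ^ 5 * (5 * S2 - S1 ^ 2)
      - 5 * (B2 ^ 2 - 27 * B4) * B4 * S2 ^ 3 * (S1 ^ 2 - 4 * S2) ^ 3
      - 9 * B4 ^ 2 * S2 * (S1 ^ 2 - 4 * S2) ^ 5 - B4 ^ 2 * (S1 ^ 2 - 4 * S2) ^ 6 = 0 := by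
    linear_combination
      (B2^2*S1^2*S2^4 - 5*B2^2*S2^5 - B2*B4*S1^3*S2^3 + 5*B2*B4*S1*S2^4 + B2*S1^5*S2^3
        - 11*B2*S1^3*S2^4 + 30*B2*S1*S2^5 + B4^2*S1^8 - 9*B4^2*S1^6*S2 + 24*B4^2*S1^4*S2^2
        - 21*B4^2*S1^2*S2^3 + 5*B4^2*S2^4 + B4*S1^8*S2 - 13*B4*S1^6*S2^2 + 32*B4*S1^4*S2^3
        + 66*B4*S1^2*S2^4 - 50*B4*S2^5 + S1^10*S2 - 17*S1^8*S2^2 + 91*S1^6*S2^3
        - 120*S1^4*S2^4 - 180*S1^2*S2^5) * hQ1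
      + (-B2*B4^2*S1^7 + 9*B2*B4^2*S1^5*S2 - 23*B2*B4^2*S1^3*S2^2 + 15*B2*B4^2*S1*S2^3
        - B2*B4*S1^7*S2 + 16*B2*B4*S1^5*S2^2 - 70*B2*B4*S1^3*S2^3 + 60*B2*B4*S1*S2^4
        - B2*S1^9*S2 + 18*B2*S1^7*S2^2 - 108*B2*S1^5*S2^3 + 216*B2*S1^3*S2^4 - B4^3*S1^6
        + 8*B4^3*S1^4*S2 - 16*B4^3*S1^2*S2^2 + 5*B4^3*S2^3 - B4^2*S1^8 + 11*B4^2*S1^6*S2
        - 27*B4^2*S1^4*S2^2 - 14*B4^2*S1^2*S2^3 - 25*B4^2*S2^4) * hQ2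
  refine ⟨S2 / (S1 ^ 2 - 4 * S2), (B2 ^ 2 - 27 * B4) / B4, div_ne_zero hS2ne hD, ?_, ?_, ?_⟩
  · -- T ≠ 0, from the j-relation proved below
    intro hT
    have hT' : B2 ^ 2 - 27 * B4 = 0 := by
      rcases div_eq_zero_iff.mp hT with h | h
      · exact h
      · exact absurd h hB4ne
    -- then B2^2 = 27 B4, B2 B6 = B4^2: Δ = B4^3 - 27 B6^2 = 0
    apply hΔ
    rw [hΔ']
    have hB2ne : B2 ≠ 0 := by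
      intro h; apply hB4ne
      have : 27 * B4 = 0 := by rw [h] at hT'; linarith
      linarith
    have h27 : B2 ^ 2 * (B4 ^ 3 - 27 * B6 ^ 2) = 0 := by
      linear_combination B4 ^ 3 * hT' - 27 * (B2 * B6 + B4 ^ 2) * ha
    rcases mul_eq_zero.mp h27 with h | h
    · exact absurd (pow_eq_zero_iff (n := 2) (by norm_num) |>.mp h) hB2ne
    · exact h
  · rw [hc4', hΔ']
    field_simp
    linear_combination (27 * (B2 ^ 2 - 24 * B4) ^ 3 * (B2 * B6 + B4 ^ 2)) * ha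
  · obtain ⟨D, hDdef⟩ : ∃ D : ℚ, D = S1 ^ 2 - 4 * S2 := ⟨_, rfl⟩
    rw [← hDdef] at hD hG ⊢
    have hmul : (((B2 ^ 2 - 27 * B4) / B4) ^ 2 * (S2 / D) ^ 5 * (S2 / D - 1)
        - 5 * ((B2 ^ 2 - 27 * B4) / B4) * (S2 / D) ^ 3 - (9 * (S2 / D) + 1)) * (B4 ^ 2 * D ^ 6)
        = (B2 ^ 2 - 27 * B4) ^ 2 * S2 ^ 5 * (5 * S2 - S1 ^ 2)
          - 5 * (B2 ^ 2 - 27 * B4) * B4 * S2 ^ 3 * D ^ 3
          - 9 * B4 ^ 2 * S2 * D ^ 5 - B4 ^ 2 * D ^ 6 := by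
      field_simp
      rw [hDdef]
      ring
    rw [hG] at hmul
    rcases mul_eq_zero.mp hmul with h | h
    · exact h
    · exact absurd h (mul_ne_zero (pow_ne_zero 2 hB4ne) (pow_ne_zero 6 hD))

end Fermat.Agent.S51
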