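import Fermat.Statements.S51
import Fermat.Agent.S51.Core

/-!
Final wiring for S51, with the independent pieces (3-torsion, 5-torsion, descent, endgame) taken
as hypotheses.  `Fermat/Agent/S51.lean` instantiates them.
-/

set_option autoImplicit false

namespace Fermat.Agent.S51

open WeierstrassCurve

theorem result_of_pieces
    (hThree : ∀ W : WeierstrassCurve ℤ, W.Δ ≠ 0 → ¬ W.ModRepIsIrreducible 3 →
      ∃ x3 : ℚ, psi3 (W.map (Int.castRingHom ℚ)) x3 = 0)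
    (hFive : ∀ W : WeierstrassCurve ℤ, W.Δ ≠ 0 → ¬ W.ModRepIsIrreducible 5 →
      ∃ s1 s2 : ℚ, r1 (W.map (Int.castRingHom ℚ)) s1 s2 = 0 ∧
        r2 (W.map (Int.castRingHom ℚ)) s1 s2 = 0 ∧ s1 ^ 2 - 4 * s2 ≠ 0 ∧
        ∀ x : ℚ, psi3 (W.map (Int.castRingHom ℚ)) x = 0 → x ^ 2 - s1 * x + s2 ≠ 0)
    (hdesc : ∀ u v : ℚ, v ^ 2 = u * (u + 9) * (u - 16) →
      u = 0 ∨ u = -9 ∨ u = 16 ∨ u = 36 ∨ u = -4)
    (hcases : ∀ l T : ℚ, l ≠ 0 → T ≠ 0 →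
      T ^ 2 * l ^ 5 * (l - 1) - 5 * T * l ^ 3 - (9 * l + 1) = 0 →
      (∀ u v : ℚ, v ^ 2 = u * (u + 9) * (u - 16) →
        u = 0 ∨ u = -9 ∨ u = 16 ∨ u = 36 ∨ u = -4) →
      T = -729 / 2 ∨ T = -2 ∨ T = -729 / 32 ∨ T = -32)
    (hnot : ∀ W : WeierstrassCurve ℤ, W.Δ ≠ 0 → W.IsSemistableModel → ∀ T : ℚ,
      (T = -729 / 2 ∨ T = -2 ∨ T = -729 / 32 ∨ T = -32) →
      (W.c₄ : ℚ) ^ 3 * T ≠ (W.Δ : ℚ) * (T + 27) * (T + 3) ^ 3)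
    (hc4 : ∀ W : WeierstrassCurve ℤ, W.Δ ≠ 0 → W.IsSemistableModel → W.c₄ ≠ 0)
    (W : WeierstrassCurve ℤ) (hΔ : W.Δ ≠ 0) (hW : W.IsSemistableModel) :
    W.ModRepIsIrreducible 3 ∨ W.ModRepIsIrreducible 5 := by
  by_contra hcon
  rw [not_or] at hcon
  obtain ⟨h3, h5⟩ := hcon
  obtain ⟨x3, hx3⟩ := hThree W hΔ h3
  obtain ⟨s1, s2, hr1, hr2, hd, hne⟩ := hFive W hΔ h5
  have hEΔ : (W.map (Int.castRingHom ℚ)).Δ = (W.Δ : ℚ) := by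
    rw [WeierstrassCurve.map_Δ]; rfl
  have hEc4 : (W.map (Int.castRingHom ℚ)).c₄ = (W.c₄ : ℚ) := by
    rw [WeierstrassCurve.map_c₄]; rfl
  have hΔq : (W.map (Int.castRingHom ℚ)).Δ ≠ 0 := by
    rw [hEΔ]; exact_mod_cast hΔ
  have hc4q : (W.map (Int.castRingHom ℚ)).c₄ ≠ 0 := by
    rw [hEc4]; exact_mod_cast hc4 W hΔ hW
  obtain ⟨l, T, hl, hT, hj, hrel⟩ :=
    core_point (W.map (Int.castRingHom ℚ)) hΔq hc4q x3 s1 s2 hx3 hr1 hr2 hd (hne x3 hx3)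
  have hTcases := hcases l T hl hT hrel hdesc
  rw [hEΔ, hEc4] at hj
  exact hnot W hΔ hW T hTcases hj

end Fermat.Agent.S51
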