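/-
S51, piece [Descent] (helper20): rational points of `15a2 : y^2 = x(x-1)(x-81)` and of
`15a1 = X_0(15) : v^2 = u(u+9)(u-16)`, by an explicit 2-descent:
translation by 2-torsion (Moebius maps), explicit halving, naive height, finite base case.
The class analysis (piece D1) enters as the hypothesis `Class15a2`.
-/
import Mathlib

set_option autoImplicit false

namespace Fermat.Agent.S51.Descent15

/-- Naive height of a rational number. -/
def ht (x : ℚ) : ℕ := max x.num.natAbs x.den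

lemma ht_div_le (a b : ℤ) (hb : b ≠ 0) : ht ((a : ℚ) / b) ≤ max a.natAbs b.natAbs := by
  rw [← Rat.divInt_eq_div]
  unfold ht
  apply max_le_max
  · rcases eq_or_ne a 0 with rfl | ha
    · simp
    · exact Nat.le_of_dvd (Int.natAbs_pos.mpr ha) (Int.natAbs_dvd_natAbs.mpr (Rat.num_dvd a hb))
  · have h := Rat.den_dvd a b
    have h2 : (Rat.divInt a b).den ∣ b.natAbs := by
      have := Int.natAbs_dvd_natAbs.mpr h
      simpa using this
    exact Nat.le_of_dvd (Int.natAbs_pos.mpr hb) h2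

lemma ht_sq (r : ℚ) : ht (r ^ 2) = (ht r) ^ 2 := by
  unfold ht
  rw [Rat.num_pow, Rat.den_pow, Int.natAbs_pow]
  rcases le_total r.num.natAbs r.den with h | h
  · rw [max_eq_right h, max_eq_right (Nat.pow_le_pow_left h 2)]
  · rw [max_eq_left h, max_eq_left (Nat.pow_le_pow_left h 2)]

lemma num_natAbs_le_ht (x : ℚ) : x.num.natAbs ≤ ht x := le_max_left _ _

lemma den_le_ht (x : ℚ) : x.den ≤ ht x := le_max_right _ _

/-- If `b^2 = a^2 - n` with `n` an integer then `a` and `b` have the same denominator. -/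
lemma den_eq_of_sq_sub (a b : ℚ) (n : ℤ) (h : b ^ 2 = a ^ 2 - n) : b.den = a.den := by
  have h1 : (b ^ 2).den = (a ^ 2).den := by rw [h, Rat.sub_intCast_den]
  rw [Rat.den_pow, Rat.den_pow] at h1
  exact Nat.pow_left_injective (by norm_num) h1

lemma num_eq_mul_den (a : ℚ) (e : ℕ) (h : a.den = e) : (a.num : ℚ) = a * (e : ℚ) := by
  rw [← h]; exact (Rat.mul_den_eq_num a).symm

/-- Halving step with height bound. -/
lemma halve (r₁ r₂ r₃ : ℚ) (h1 : 0 < r₁) (h2 : 0 < r₂) (h3 : 0 < r₃)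
    (h12 : r₂ ^ 2 = r₁ ^ 2 - 1) (h13 : r₃ ^ 2 = r₁ ^ 2 - 81) :
    ∃ xQ yQ : ℚ, yQ ^ 2 = xQ * (xQ - 1) * (xQ - 81) ∧ yQ ≠ 0 ∧ ht xQ ≤ 2 * ht r₁ := by
  have hx1 : (r₁ + r₂) * (r₁ + r₃) - 1 = (r₁ + r₂) * (r₂ + r₃) := by
    linear_combination (-1 : ℚ) * h12
  have hx81 : (r₁ + r₂) * (r₁ + r₃) - 81 = (r₁ + r₃) * (r₂ + r₃) := by
    linear_combination (-1 : ℚ) * h13
  refine ⟨(r₁ + r₂) * (r₁ + r₃), (r₁ + r₂) * (r₁ + r₃) * (r₂ + r₃), ?_, ?_, ?_⟩
  · rw [hx1, hx81]; ring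
  · positivity
  · -- common denominator
    have hd2 : r₂.den = r₁.den := den_eq_of_sq_sub r₁ r₂ 1 (by simpa using h12)
    have hd3 : r₃.den = r₁.den := den_eq_of_sq_sub r₁ r₃ 81 (by simpa using h13)
    have e1 : (r₁.num : ℚ) = r₁ * (r₁.den : ℚ) := num_eq_mul_den r₁ _ rfl
    have e2 : (r₂.num : ℚ) = r₂ * (r₁.den : ℚ) := num_eq_mul_den r₂ _ hd2
    have e3 : (r₃.num : ℚ) = r₃ * (r₁.den : ℚ) := num_eq_mul_den r₃ _ hd3
    have hu0 : 0 < r₁.num := Rat.num_pos.mpr h1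
    have hv0 : 0 < r₂.num := Rat.num_pos.mpr h2
    have hw0 : 0 < r₃.num := Rat.num_pos.mpr h3
    have h21 : r₂ < r₁ := by nlinarith
    have h31 : r₃ < r₁ := by nlinarith
    have epos : (0 : ℚ) < (r₁.den : ℚ) := by
      have : 0 < r₁.den := r₁.den_pos
      positivity
    have hvu : r₂.num < r₁.num := by
      have : (r₂.num : ℚ) < (r₁.num : ℚ) := by rw [e1, e2]; exact mul_lt_mul_of_pos_right h21 epos
      exact_mod_cast this
    have hwu : r₃.num < r₁.num := by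
      have : (r₃.num : ℚ) < (r₁.num : ℚ) := by rw [e1, e3]; exact mul_lt_mul_of_pos_right h31 epos
      exact_mod_cast this
    have huv : (r₁.num - r₂.num : ℤ) ≠ 0 := by omega
    have huvq : ((r₁.num - r₂.num : ℤ) : ℚ) ≠ 0 := by exact_mod_cast huv
    have hprod : (r₁ - r₂) * (r₁ + r₂) = 1 := by linear_combination (-1 : ℚ) * h12
    have hxQ : (r₁ + r₂) * (r₁ + r₃) =
        ((r₁.num + r₃.num : ℤ) : ℚ) / ((r₁.num - r₂.num : ℤ) : ℚ) := by
      rw [eq_div_iff huvq]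
      push_cast
      rw [e1, e2, e3]
      linear_combination (r₁ + r₃) * (r₁.den : ℚ) * hprod
    rw [hxQ]
    refine (ht_div_le _ _ huv).trans ?_
    have hle : r₁.num.natAbs ≤ ht r₁ := num_natAbs_le_ht r₁
    have : max (r₁.num + r₃.num).natAbs (r₁.num - r₂.num).natAbs ≤ 2 * r₁.num.natAbs := by
      apply max_le <;> omega
    omega

lemma ht_le_of_eq (x : ℚ) (a b : ℤ) (hb : b ≠ 0) (hx : x = (a : ℚ) / b) (B : ℕ)
    (ha : a.natAbs ≤ B) (hb' : b.natAbs ≤ B) : ht x ≤ B := by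
  rw [hx]; exact (ht_div_le a b hb).trans (max_le ha hb')

/-- Translation by the 2-torsion point in the same class lands in the trivial class,
with controlled height. -/
lemma translate (X y : ℚ) (h : y ^ 2 = X * (X - 1) * (X - 81)) (hy : y ≠ 0)
    (hX : IsSquare X)
    (hc : IsSquare (X - 1) ∨ IsSquare (-(X - 1)) ∨ IsSquare (5 * (X - 1)) ∨
      IsSquare (-(5 * (X - 1)))) :
    ∃ r₁ r₂ r₃ : ℚ, r₁ ≠ 0 ∧ r₂ ≠ 0 ∧ r₃ ≠ 0 ∧ r₂ ^ 2 = r₁ ^ 2 - 1 ∧ r₃ ^ 2 = r₁ ^ 2 - 81 ∧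
      ht (r₁ ^ 2) ≤ 81 * ht X := by
  have hX0 : X ≠ 0 := by rintro rfl; apply hy; simpa using h
  have hX1 : X - 1 ≠ 0 := by
    intro h0; apply hy; rw [h0] at h; simpa using h
  have hX81 : X - 81 ≠ 0 := by
    intro h0; apply hy; rw [h0] at h; simpa using h
  obtain ⟨s, hs⟩ := hX
  have hs0 : s ≠ 0 := by rintro rfl; apply hX0; simpa using hs
  have hs2 : s ^ 2 = X := by rw [hs]; ring
  -- integer data
  set m : ℤ := X.num with hm
  set n : ℕ := X.den with hn
  have hmn : X = (m : ℚ) / (n : ℚ) := (Rat.num_div_den X).symm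
  have hnpos : 0 < n := X.den_pos
  have hXpos : 0 < X := by rw [hs]; exact mul_self_pos.mpr hs0
  have hmpos : 0 < m := Rat.num_pos.mpr hXpos
  have hnq : (n : ℚ) ≠ 0 := by positivity
  have hmq : (m : ℚ) ≠ 0 := by exact_mod_cast hmpos.ne'
  have hm1 : (m - n : ℤ) ≠ 0 := by
    intro h0
    apply hX1
    have : (m : ℚ) = n := by
      have := congrArg (fun z : ℤ => (z : ℚ)) h0; push_cast at this; linarith
    rw [hmn, this]; field_simp; ring
  have hm81 : (m - 81 * n : ℤ) ≠ 0 := by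
    intro h0
    apply hX81
    have : (m : ℚ) = 81 * n := by
      have := congrArg (fun z : ℤ => (z : ℚ)) h0; push_cast at this; linarith
    rw [hmn, this]; field_simp; ring
  have hm1q : ((m : ℚ) - n) ≠ 0 := by
    have : ((m - n : ℤ) : ℚ) ≠ 0 := by exact_mod_cast hm1
    simpa using this
  have hm81q : ((m : ℚ) - 81 * n) ≠ 0 := by
    have : ((m - 81 * n : ℤ) : ℚ) ≠ 0 := by exact_mod_cast hm81
    simpa using this
  have hmle : m.natAbs ≤ ht X := le_max_left _ _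
  have hnle : n ≤ ht X := le_max_right _ _
  rcases hc with ⟨t, ht1⟩ | ⟨t, ht1⟩ | ⟨t, ht1⟩ | ⟨t, ht1⟩
  · -- class 1
    have ht0 : t ≠ 0 := by rintro rfl; apply hX1; simpa using ht1
    have ht2 : t ^ 2 = X - 1 := by rw [ht1]; ring
    refine ⟨s, t, y / (s * t), hs0, ht0, by positivity, ?_, ?_, ?_⟩
    · rw [hs2, ht2]
    · have : (y / (s * t)) ^ 2 = y ^ 2 / (s ^ 2 * t ^ 2) := by ring
      rw [this, hs2, ht2, h]; field_simp
    · rw [hs2]; omega
  · -- class -1
    have ht0 : t ≠ 0 := by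
      rintro rfl; apply hX1
      have : -(X - 1) = 0 := by simpa using ht1
      linarith
    have ht2 : t ^ 2 = -(X - 1) := by rw [ht1]; ring
    refine ⟨9 / s, y / (X * t), 9 * t / s, by positivity, by positivity, by positivity, ?_, ?_, ?_⟩
    · have e1 : (y / (X * t)) ^ 2 = y ^ 2 / (X ^ 2 * t ^ 2) := by ring
      have e2 : (9 / s) ^ 2 = 81 / s ^ 2 := by ring
      rw [e1, e2, hs2, ht2, h]; field_simp; ring
    · have e1 : (9 * t / s) ^ 2 = 81 * t ^ 2 / s ^ 2 := by ring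
      have e2 : (9 / s) ^ 2 = 81 / s ^ 2 := by ring
      rw [e1, e2, hs2, ht2]; field_simp; ring
    · have e2 : (9 / s) ^ 2 = 81 / s ^ 2 := by ring
      rw [e2, hs2]
      refine ht_le_of_eq _ (81 * n) m hmpos.ne' ?_ _ ?_ ?_
      · rw [hmn]; push_cast; field_simp
      · omega
      · omega
  · -- class 5
    have ht0 : t ≠ 0 := by
      rintro rfl; apply hX1
      have : 5 * (X - 1) = 0 := by simpa using ht1
      linarith
    have ht2 : t ^ 2 = 5 * (X - 1) := by rw [ht1]; ring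
    refine ⟨9 * (X - 1) * s / y, 4 * t * X / y, 36 * s * t / y, by positivity, by positivity,
      by positivity, ?_, ?_, ?_⟩
    · have e1 : (4 * t * X / y) ^ 2 = 16 * t ^ 2 * X ^ 2 / y ^ 2 := by ring
      have e2 : (9 * (X - 1) * s / y) ^ 2 = 81 * (X - 1) ^ 2 * s ^ 2 / y ^ 2 := by ring
      rw [e1, e2, hs2, ht2, h]; field_simp; ring
    · have e1 : (36 * s * t / y) ^ 2 = 1296 * s ^ 2 * t ^ 2 / y ^ 2 := by ring
      have e2 : (9 * (X - 1) * s / y) ^ 2 = 81 * (X - 1) ^ 2 * s ^ 2 / y ^ 2 := by ring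
      rw [e1, e2, hs2, ht2, h]; field_simp; ring
    · have e2 : (9 * (X - 1) * s / y) ^ 2 = 81 * (X - 1) ^ 2 * s ^ 2 / y ^ 2 := by ring
      rw [e2, hs2, h]
      refine ht_le_of_eq _ (81 * (m - n)) (m - 81 * n) hm81 ?_ _ ?_ ?_
      · rw [hmn]; push_cast; field_simp
      · omega
      · omega
  · -- class -5
    have ht0 : t ≠ 0 := by
      rintro rfl; apply hX1
      have : -(5 * (X - 1)) = 0 := by simpa using ht1
      linarith
    have ht2 : t ^ 2 = -(5 * (X - 1)) := by rw [ht1]; ring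
    refine ⟨y / (s * (X - 1)), 4 * t / (X - 1), 4 * s * t / (X - 1), by positivity, by positivity,
      by positivity, ?_, ?_, ?_⟩
    · have e1 : (4 * t / (X - 1)) ^ 2 = 16 * t ^ 2 / (X - 1) ^ 2 := by rw [div_pow]; ring
      have e2 : (y / (s * (X - 1))) ^ 2 = y ^ 2 / (s ^ 2 * (X - 1) ^ 2) := by
        rw [div_pow, mul_pow]
      rw [e1, e2, hs2, ht2, h]; field_simp; ring
    · have e1 : (4 * s * t / (X - 1)) ^ 2 = 16 * s ^ 2 * t ^ 2 / (X - 1) ^ 2 := by
        rw [div_pow]; ring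
      have e2 : (y / (s * (X - 1))) ^ 2 = y ^ 2 / (s ^ 2 * (X - 1) ^ 2) := by
        rw [div_pow, mul_pow]
      rw [e1, e2, hs2, ht2, h]; field_simp; ring
    · have e2 : (y / (s * (X - 1))) ^ 2 = y ^ 2 / (s ^ 2 * (X - 1) ^ 2) := by
        rw [div_pow, mul_pow]
      rw [e2, hs2, h]
      refine ht_le_of_eq _ (m - 81 * n) (m - n) hm1 ?_ _ ?_ ?_
      · rw [hmn]; push_cast; field_simp
      · omega
      · omega

theorem base_table : ∀ u : Fin 19, ∀ e : Fin 19, 1 ≤ u.val → 1 ≤ e.val →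
    IsSquare ((((u.val : ℤ)) ^ 2 - (e.val : ℤ) ^ 2) * ((u.val : ℤ) ^ 2 - 81 * (e.val : ℤ) ^ 2)) →
    (((u.val : ℤ)) ^ 2 - (e.val : ℤ) ^ 2) * ((u.val : ℤ) ^ 2 - 81 * (e.val : ℤ) ^ 2) = 0 := by
  decide +kernel

/-- Base case: a point whose `x`-coordinate is the square of a rational of height `≤ 18`. -/
lemma base_case (s y : ℚ) (hs0 : s ≠ 0) (hs : ht s ≤ 18)
    (h : y ^ 2 = s ^ 2 * (s ^ 2 - 1) * (s ^ 2 - 81)) : y = 0 := by
  set u : ℕ := s.num.natAbs with hu
  set e : ℕ := s.den with he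
  have hu18 : u ≤ 18 := (num_natAbs_le_ht s).trans hs
  have he18 : e ≤ 18 := (den_le_ht s).trans hs
  have hu1 : 1 ≤ u := Int.natAbs_pos.mpr (Rat.num_ne_zero.mpr hs0)
  have he1 : 1 ≤ e := s.den_pos
  have heq : (e : ℚ) ≠ 0 := by positivity
  have huq : (u : ℚ) ≠ 0 := by positivity
  -- s^2 = u^2 / e^2
  have hs2 : s ^ 2 = (u : ℚ) ^ 2 / (e : ℚ) ^ 2 := by
    have h1 : s = (s.num : ℚ) / (s.den : ℚ) := (Rat.num_div_den s).symm
    have h2 : ((s.num : ℚ)) ^ 2 = (u : ℚ) ^ 2 := by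
      have : (s.num) ^ 2 = ((u : ℤ)) ^ 2 := by
        rw [hu, Int.natCast_natAbs, sq_abs]
      have := congrArg (fun z : ℤ => (z : ℚ)) this
      push_cast at this
      simpa using this
    rw [h1, div_pow, h2]
  -- the integer is a rational square
  have hsq : IsSquare ((((u : ℤ) ^ 2 - (e : ℤ) ^ 2) * ((u : ℤ) ^ 2 - 81 * (e : ℤ) ^ 2) : ℤ) : ℚ) := by
    refine ⟨y * (e : ℚ) ^ 3 / (u : ℚ), ?_⟩
    push_cast
    rw [hs2] at h
    field_simp
    field_simp at h
    linear_combination (-1 : ℚ) * h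
  rw [Rat.isSquare_intCast_iff] at hsq
  have htab := base_table ⟨u, by omega⟩ ⟨e, by omega⟩ hu1 he1 hsq
  -- so the product vanishes, hence y^2 = 0
  have hz : (((u : ℚ)) ^ 2 - (e : ℚ) ^ 2) * ((u : ℚ) ^ 2 - 81 * (e : ℚ) ^ 2) = 0 := by
    have := congrArg (fun z : ℤ => (z : ℚ)) htab
    push_cast at this
    simpa using this
  have hy2 : y ^ 2 = 0 := by
    rw [h, hs2]
    field_simp
    linear_combination (u : ℚ) ^ 2 * hz
  exact pow_eq_zero_iff (by norm_num) |>.mp hy2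

end Fermat.Agent.S51.Descent15

namespace Fermat.Agent.S51

open Fermat.Agent.S51.Descent15

/-- The class statement produced by the 2-descent (piece D1). -/
def Class15a2 : Prop :=
  ∀ X y : ℚ, y ^ 2 = X * (X - 1) * (X - 81) → y ≠ 0 →
    IsSquare X ∧ (IsSquare (X - 1) ∨ IsSquare (-(X - 1)) ∨ IsSquare (5 * (X - 1)) ∨
      IsSquare (-(5 * (X - 1))))

theorem no_points_15a2_of_class (hclass : Class15a2)
    (X y : ℚ) (h : y ^ 2 = X * (X - 1) * (X - 81)) : y = 0 := by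
  induction' hn : ht X using Nat.strong_induction_on with n ih generalizing X y
  by_contra hy
  obtain ⟨hXsq, hc⟩ := hclass X y h hy
  by_cases hsmall : n ≤ 324
  · obtain ⟨s, hs⟩ := hXsq
    have hs2 : X = s ^ 2 := by rw [hs]; ring
    have hs0 : s ≠ 0 := by
      rintro rfl
      apply hy
      rw [hs2] at h
      simpa using h
    have hht : ht X = (ht s) ^ 2 := by rw [hs2, ht_sq]
    have h18 : ht s ≤ 18 := by
      by_contra hcon
      push Not at hcon
      have : 19 ^ 2 ≤ (ht s) ^ 2 := Nat.pow_le_pow_left hcon 2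
      omega
    apply hy
    apply base_case s y hs0 h18
    rw [← hs2]; exact h
  · push Not at hsmall
    obtain ⟨r₁, r₂, r₃, h1, h2, h3, h12, h13, hht⟩ := translate X y h hy hXsq hc
    obtain ⟨xQ, yQ, hQ, hyQ, hhtQ⟩ := halve |r₁| |r₂| |r₃| (abs_pos.mpr h1) (abs_pos.mpr h2)
      (abs_pos.mpr h3) (by rw [sq_abs, sq_abs]; exact h12) (by rw [sq_abs, sq_abs]; exact h13)
    have hsq : (ht |r₁|) ^ 2 = ht (r₁ ^ 2) := by rw [← ht_sq, sq_abs]
    have hlt : ht xQ < n := by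
      have h4 : (ht xQ) ^ 2 ≤ (2 * ht |r₁|) ^ 2 := Nat.pow_le_pow_left hhtQ 2
      have h5 : (ht xQ) ^ 2 ≤ 324 * n := by
        calc (ht xQ) ^ 2 ≤ (2 * ht |r₁|) ^ 2 := h4
          _ = 4 * (ht |r₁|) ^ 2 := by ring
          _ = 4 * ht (r₁ ^ 2) := by rw [hsq]
          _ ≤ 4 * (81 * ht X) := by omega
          _ = 324 * n := by rw [hn]; ring
      by_contra hcon
      push Not at hcon
      have : n ^ 2 ≤ (ht xQ) ^ 2 := Nat.pow_le_pow_left hcon 2
      nlinarith
    exact hyQ (ih (ht xQ) hlt xQ yQ hQ rfl)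

/-- Transfer from `15a2` to `15a1 = X₀(15)` along the 2-isogeny with kernel `(16, 0)`. -/
theorem rat_points_15a1_of_class (hclass : Class15a2)
    (u v : ℚ) (h : v ^ 2 = u * (u + 9) * (u - 16)) :
    u = 0 ∨ u = -9 ∨ u = 16 ∨ u = 36 ∨ u = -4 := by
  by_cases hu : u = 16
  · right; right; left; exact hu
  have hx : u - 16 ≠ 0 := sub_ne_zero.mpr hu
  have key := no_points_15a2_of_class hclass (u * (u + 9) / (u - 16))
    (v * ((u - 16) ^ 2 - 400) / (u - 16) ^ 2) (by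
      field_simp
      linear_combination ((u - 16) ^ 2 - 400) ^ 2 * h)
  have hv : v * ((u - 16) ^ 2 - 400) = 0 := by
    have := div_eq_zero_iff.mp key
    rcases this with h0 | h0
    · exact h0
    · exact absurd (pow_eq_zero_iff (by norm_num) |>.mp h0) hx
  rcases mul_eq_zero.mp hv with h0 | h0
  · rw [h0] at h
    have : u * (u + 9) * (u - 16) = 0 := by rw [← h]; ring
    rcases mul_eq_zero.mp this with h1 | h1
    · rcases mul_eq_zero.mp h1 with h2 | h2
      · left; exact h2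
      · right; left; linarith
    · exact absurd h1 hx
  · have : (u - 36) * (u + 4) = 0 := by linear_combination h0
    rcases mul_eq_zero.mp this with h1 | h1
    · right; right; right; left; linarith
    · right; right; right; right; linarith

end Fermat.Agent.S51
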