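import Mathlib

set_option autoImplicit false

namespace Fermat.Agent.S51

/-- Coprime factors of a square, the first factor being positive: both are squares. -/
theorem sq_of_coprime_of_pos {a b c : ℤ} (hab : IsCoprime a b) (h : a * b = c ^ 2) (ha : 0 < a) :
    (∃ a0 : ℤ, a = a0 ^ 2) ∧ (∃ b0 : ℤ, b = b0 ^ 2) := by
  constructor
  · obtain ⟨a0, h1 | h1⟩ := Int.sq_of_isCoprime hab h
    · exact ⟨a0, h1⟩
    · exfalso; nlinarith [sq_nonneg a0]
  · have h' : b * a = c ^ 2 := by rw [mul_comm]; exact h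
    obtain ⟨b0, h1 | h1⟩ := Int.sq_of_isCoprime hab.symm h'
    · exact ⟨b0, h1⟩
    · have hb : 0 ≤ b := by
        by_contra hneg
        push Not at hneg
        have : a * b < 0 := mul_neg_of_pos_of_neg ha hneg
        nlinarith [sq_nonneg c]
      have h0 : b0 ^ 2 = 0 := by nlinarith [sq_nonneg b0]
      exact ⟨0, by rw [h1, h0]; ring⟩

/-- An odd power of a prime times something prime to it is never a square. -/
theorem not_prime_pow_odd_mul_eq_sq {p : ℤ} (hp : Prime p) (i : ℕ) :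
    ∀ {T U : ℤ}, p ^ (2 * i + 1) * T = U ^ 2 → ¬ p ∣ T → False := by
  induction i with
  | zero =>
    intro T U h hT
    have hpU : p ∣ U := hp.dvd_of_dvd_pow (n := 2) ⟨T, by rw [← h]; ring⟩
    obtain ⟨U1, rfl⟩ := hpU
    have hT' : T = p * U1 ^ 2 := by
      apply mul_left_cancel₀ hp.ne_zero
      have : p ^ (2 * 0 + 1) * T = p * T := by ring
      rw [← this, h]; ring
    exact hT ⟨U1 ^ 2, hT'⟩
  | succ i ih =>
    intro T U h hT
    have hpU : p ∣ U := hp.dvd_of_dvd_pow (n := 2) ⟨p ^ (2 * (i + 1)) * T, by rw [← h]; ring⟩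
    obtain ⟨U1, rfl⟩ := hpU
    apply ih (T := T) (U := U1) _ hT
    apply mul_left_cancel₀ (pow_ne_zero 2 hp.ne_zero)
    have : p ^ 2 * (p ^ (2 * i + 1) * T) = p ^ (2 * (i + 1) + 1) * T := by ring
    rw [this, h]; ring

/-- Extract the exact power of a prime from a nonzero integer. -/
theorem exists_eq_prime_pow_mul {p : ℤ} (hp : Prime p) {m : ℤ} (hm : m ≠ 0) :
    ∃ (k : ℕ) (m1 : ℤ), m = p ^ k * m1 ∧ ¬ p ∣ m1 := by
  have hfin : FiniteMultiplicity p m :=
    Int.finiteMultiplicity_iff.mpr ⟨fun h => hp.not_isUnit (Int.isUnit_iff_natAbs_eq.mpr h), hm⟩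
  obtain ⟨m1, h1, h2⟩ := hfin.exists_eq_pow_mul_and_not_dvd
  exact ⟨_, m1, h1, h2⟩


theorem zmod3_aux1 : ∀ e f u : ZMod 3, e ≠ 0 → f ≠ 0 →
    (3 * f ^ 2 - e ^ 2) * (f ^ 2 - 27 * e ^ 2) = u ^ 2 → False := by decide

theorem zmod3_aux2 : ∀ e f u : ZMod 3, e ≠ 0 → f ≠ 0 →
    (27 * f ^ 2 - e ^ 2) * (f ^ 2 - 3 * e ^ 2) = u ^ 2 → False := by decide

theorem zmod8_aux : ∀ B e v : ZMod 8, 4 * B ≠ 0 → 4 * e ≠ 0 →
    B * (B - 10 * e ^ 2) = v ^ 2 → False := by decide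

theorem intCast_zmod3_ne_zero {a : ℤ} (h : ¬ (3 : ℤ) ∣ a) : ((a : ℤ) : ZMod 3) ≠ 0 := by
  intro h0
  exact h ((ZMod.intCast_zmod_eq_zero_iff_dvd a 3).mp h0)

/-- Part (a): the numerator is a perfect square. -/
theorem isSquare_num {m n W e : ℤ} (hmn : IsCoprime m n) (hm : 0 < m) (hne : n = e ^ 2)
    (hP : m * ((m - n) * (m - 81 * n)) = W ^ 2) : ∃ F : ℤ, m = F ^ 2 := by
  obtain ⟨k, m1, hk, h3⟩ := exists_eq_prime_pow_mul Int.prime_three hm.ne'
  have h3k : (0 : ℤ) < 3 ^ k := by positivity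
  have hm1 : 0 < m1 := by
    by_contra hcon
    push Not at hcon
    have : 3 ^ k * m1 ≤ 0 := mul_nonpos_of_nonneg_of_nonpos h3k.le hcon
    omega
  have hm1m : m1 ∣ m := ⟨3 ^ k, by rw [hk]; ring⟩
  -- coprimality facts
  have hc3 : IsCoprime m1 3 := ((Int.prime_three).coprime_iff_not_dvd.mpr h3).symm
  have hcn : IsCoprime m1 n := IsCoprime.of_isCoprime_of_dvd_left hmn hm1m
  have hc1 : IsCoprime m1 (m - n) := by
    obtain ⟨u, v, huv⟩ := hcn
    obtain ⟨c, hc⟩ := hm1m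
    exact ⟨u + v * c, -v, by rw [hc]; linear_combination huv⟩
  have hc2 : IsCoprime m1 (m - 81 * n) := by
    have h81 : IsCoprime m1 (81 * n) := by
      have : IsCoprime m1 ((3 : ℤ) ^ 4) := hc3.pow_right
      exact (by norm_num at this; exact this : IsCoprime m1 81).mul_right hcn
    obtain ⟨u, v, huv⟩ := h81
    obtain ⟨c, hc⟩ := hm1m
    exact ⟨u + v * c, -v, by rw [hc]; linear_combination huv⟩
  have hcQ : IsCoprime m1 (3 ^ k * ((m - n) * (m - 81 * n))) :=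
    (hc3.pow_right).mul_right (hc1.mul_right hc2)
  have hQ : m1 * (3 ^ k * ((m - n) * (m - 81 * n))) = W ^ 2 := by
    calc m1 * (3 ^ k * ((m - n) * (m - 81 * n)))
        = (3 ^ k * m1) * ((m - n) * (m - 81 * n)) := by ring
      _ = m * ((m - n) * (m - 81 * n)) := by rw [← hk]
      _ = W ^ 2 := hP
  obtain ⟨⟨f, hf⟩, ⟨U, hU⟩⟩ := sq_of_coprime_of_pos hcQ hQ hm1
  rcases Nat.even_or_odd' k with ⟨j, hj | hj⟩
  · -- even exponent
    exact ⟨3 ^ j * f, by rw [hk, hj, hf]; ring⟩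
  · -- odd exponent: contradiction
    exfalso
    have h3f : ¬ (3 : ℤ) ∣ f := fun h => h3 (by rw [hf]; exact Dvd.dvd.pow h two_ne_zero)
    have h3m : (3 : ℤ) ∣ m := ⟨3 ^ (2 * j) * m1, by rw [hk, hj]; ring⟩
    have h3e : ¬ (3 : ℤ) ∣ e := by
      intro h
      have h3n : (3 : ℤ) ∣ n := by rw [hne]; exact Dvd.dvd.pow h two_ne_zero
      have := hmn.isUnit_of_dvd' h3m h3n
      exact Int.prime_three.not_isUnit this
    have hfz := intCast_zmod3_ne_zero h3f
    have hez := intCast_zmod3_ne_zero h3e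
    match j, hj with
    | 0, hj =>
      -- k = 1
      have hm' : m = 3 * f ^ 2 := by rw [hk, hj, hf]; ring
      have hU' : 9 * ((3 * f ^ 2 - e ^ 2) * (f ^ 2 - 27 * e ^ 2)) = U ^ 2 := by
        rw [← hU, hj, hm', hne]; ring
      have h3U : (3 : ℤ) ∣ U :=
        Int.prime_three.dvd_of_dvd_pow (n := 2) ⟨3 * ((3 * f ^ 2 - e ^ 2) * (f ^ 2 - 27 * e ^ 2)),
          by rw [← hU']; ring⟩
      obtain ⟨U1, rfl⟩ := h3U
      have hU1 : (3 * f ^ 2 - e ^ 2) * (f ^ 2 - 27 * e ^ 2) = U1 ^ 2 := by nlinarith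
      have hz := congrArg (Int.cast : ℤ → ZMod 3) hU1
      push_cast at hz
      exact zmod3_aux1 _ _ _ hez hfz hz
    | 1, hj =>
      -- k = 3
      have hm' : m = 27 * f ^ 2 := by rw [hk, hj, hf]; ring
      have hU' : 27 ^ 2 * ((27 * f ^ 2 - e ^ 2) * (f ^ 2 - 3 * e ^ 2)) = U ^ 2 := by
        rw [← hU, hj, hm', hne]; ring
      have h27U : (27 : ℤ) ∣ U :=
        (Int.pow_dvd_pow_iff two_ne_zero).mp ⟨_, hU'.symm⟩
      obtain ⟨U1, rfl⟩ := h27U
      have hU1 : (27 * f ^ 2 - e ^ 2) * (f ^ 2 - 3 * e ^ 2) = U1 ^ 2 := by nlinarith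
      have hz := congrArg (Int.cast : ℤ → ZMod 3) hU1
      push_cast at hz
      exact zmod3_aux2 _ _ _ hez hfz hz
    | (i + 2), hj =>
      -- k ≥ 5
      have hm' : m = 3 ^ (2 * i + 5) * f ^ 2 := by rw [hk, hj, hf]; ring
      have hU' : (3 : ℤ) ^ (2 * (i + 4) + 1) *
          ((m - n) * (3 ^ (2 * i + 1) * f ^ 2 - e ^ 2)) = U ^ 2 := by
        rw [← hU, hj]
        have : m - 81 * n = 81 * (3 ^ (2 * i + 1) * f ^ 2 - e ^ 2) := by
          rw [hm', hne]; ring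
        rw [this]; ring
      refine not_prime_pow_odd_mul_eq_sq Int.prime_three (i + 4) hU' ?_
      intro hdvd
      rcases Int.prime_three.dvd_or_dvd hdvd with h | h
      · -- 3 ∣ m - n
        have h3n : (3 : ℤ) ∣ n := by
          have := dvd_sub h3m h
          simpa using this
        exact h3e (Int.prime_three.dvd_of_dvd_pow (by rw [← hne]; exact h3n))
      · have h1 : (3 : ℤ) ∣ 3 ^ (2 * i + 1) * f ^ 2 := ⟨3 ^ (2 * i) * f ^ 2, by ring⟩
        have h2 : (3 : ℤ) ∣ e ^ 2 := by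
          have := dvd_sub h1 h
          simpa using this
        exact h3e (Int.prime_three.dvd_of_dvd_pow h2)


theorem int_prime_five : Prime (5 : ℤ) := Int.prime_iff_natAbs_prime.mpr (by norm_num)

theorem not_two_dvd_of_sq_sub {F e : ℤ} (hco : IsCoprime (F ^ 2) (e ^ 2))
    (h2 : (2 : ℤ) ∣ F ^ 2 - e ^ 2) : ¬ (2 : ℤ) ∣ F ∧ ¬ (2 : ℤ) ∣ e := by
  constructor
  · intro hF
    have hF2 : (2 : ℤ) ∣ F ^ 2 := Dvd.dvd.pow hF two_ne_zero
    have he2 : (2 : ℤ) ∣ e ^ 2 := by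
      have := dvd_sub hF2 h2
      simpa using this
    exact Int.prime_two.not_isUnit (hco.isUnit_of_dvd' hF2 he2)
  · intro he
    have he2 : (2 : ℤ) ∣ e ^ 2 := Dvd.dvd.pow he two_ne_zero
    have hF2 : (2 : ℤ) ∣ F ^ 2 := by
      have := dvd_add h2 he2
      simpa using this
    exact Int.prime_two.not_isUnit (hco.isUnit_of_dvd' hF2 he2)

theorem four_mul_intCast_zmod8_ne_zero {a : ℤ} (h : ¬ (2 : ℤ) ∣ a) :
    (4 : ZMod 8) * ((a : ℤ) : ZMod 8) ≠ 0 := by
  intro h0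
  have h1 : (((4 * a : ℤ)) : ZMod 8) = 0 := by push_cast; exact h0
  have h2 : ((8 : ℕ) : ℤ) ∣ 4 * a := (ZMod.intCast_zmod_eq_zero_iff_dvd (4 * a) 8).mp h1
  apply h
  obtain ⟨c, hc⟩ := h2
  exact ⟨c, by push_cast at hc; omega⟩

/-- Part (b): the class of `m - n` modulo squares is `±1` or `±5`. -/
theorem class_sub {m n F e V : ℤ} (hmn : IsCoprime m n) (hm : m = F ^ 2) (hne : n = e ^ 2)
    (hV : (m - n) * (m - 81 * n) = V ^ 2) (hV0 : V ≠ 0) :
    ∃ c : ℤ, m - n = c ^ 2 ∨ m - n = -c ^ 2 ∨ m - n = 5 * c ^ 2 ∨ m - n = -(5 * c ^ 2) := by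
  have hD0 : m - n ≠ 0 := by
    intro h; rw [h, zero_mul] at hV
    exact hV0 (pow_eq_zero_iff two_ne_zero |>.mp hV.symm)
  obtain ⟨a, D1, ha, h2D1⟩ := exists_eq_prime_pow_mul Int.prime_two hD0
  have hD10 : D1 ≠ 0 := by rintro rfl; exact h2D1 (dvd_zero _)
  obtain ⟨b, D2, hb, h5D2⟩ := exists_eq_prime_pow_mul int_prime_five hD10
  have hD20 : D2 ≠ 0 := by rintro rfl; exact h5D2 (dvd_zero _)
  have h2D2 : ¬ (2 : ℤ) ∣ D2 := fun h => h2D1 (by rw [hb]; exact Dvd.dvd.mul_left h _)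
  -- `t = |D2|`, with sign `s`
  obtain ⟨s, t, hs, ht, hst⟩ : ∃ s t : ℤ, (s = 1 ∨ s = -1) ∧ 0 < t ∧ D2 = s * t := by
    rcases lt_or_gt_of_ne hD20 with h | h
    · exact ⟨-1, -D2, Or.inr rfl, by omega, by ring⟩
    · exact ⟨1, D2, Or.inl rfl, h, by ring⟩
  have htD2 : t ∣ D2 := ⟨s, by rw [hst]; ring⟩
  have htD : t ∣ m - n := by
    rw [ha, hb]
    exact Dvd.dvd.mul_left (Dvd.dvd.mul_left htD2 _) _
  have h2t : ¬ (2 : ℤ) ∣ t := fun h => h2D2 (h.trans htD2)
  have h5t : ¬ (5 : ℤ) ∣ t := fun h => h5D2 (h.trans htD2)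
  have hc2 : IsCoprime t 2 := (Int.prime_two.coprime_iff_not_dvd.mpr h2t).symm
  have hc5 : IsCoprime t 5 := (int_prime_five.coprime_iff_not_dvd.mpr h5t).symm
  have hDn : IsCoprime (m - n) n := by
    obtain ⟨u, v, huv⟩ := hmn
    exact ⟨u, u + v, by linear_combination huv⟩
  have hcn : IsCoprime t n := IsCoprime.of_isCoprime_of_dvd_left hDn htD
  have hc80n : IsCoprime t (80 * n) := by
    have h16 : IsCoprime t ((2 : ℤ) ^ 4) := hc2.pow_right
    have h80 : IsCoprime t (2 ^ 4 * 5) := h16.mul_right hc5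
    have : (80 : ℤ) = 2 ^ 4 * 5 := by norm_num
    rw [this]
    exact h80.mul_right hcn
  have hcE : IsCoprime t (m - 81 * n) := by
    obtain ⟨u, v, huv⟩ := hc80n
    obtain ⟨c, hc⟩ := htD
    refine ⟨u + v * c, -v, ?_⟩
    have : m - 81 * n = t * c - 80 * n := by rw [← hc]; ring
    rw [this]; linear_combination huv
  have hcs : IsCoprime t s := by
    rcases hs with rfl | rfl
    · exact isCoprime_one_right
    · exact isCoprime_one_right.neg_right
  have hcR : IsCoprime t (s * 2 ^ a * 5 ^ b * (m - 81 * n)) :=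
    ((hcs.mul_right hc2.pow_right).mul_right hc5.pow_right).mul_right hcE
  have hDeq : m - n = s * 2 ^ a * 5 ^ b * t := by rw [ha, hb, hst]; ring
  have hR : t * (s * 2 ^ a * 5 ^ b * (m - 81 * n)) = V ^ 2 := by
    rw [← hV, hDeq]; ring
  obtain ⟨⟨g, hg⟩, -⟩ := sq_of_coprime_of_pos hcR hR ht
  rcases Nat.even_or_odd' a with ⟨a', ha' | ha'⟩
  · -- even power of two
    rcases Nat.even_or_odd' b with ⟨b', hb' | hb'⟩
    · refine ⟨2 ^ a' * 5 ^ b' * g, ?_⟩
      rcases hs with rfl | rfl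
      · left; rw [hDeq, ha', hb', hg]; ring
      · right; left; rw [hDeq, ha', hb', hg]; ring
    · refine ⟨2 ^ a' * 5 ^ b' * g, ?_⟩
      rcases hs with rfl | rfl
      · right; right; left; rw [hDeq, ha', hb', hg]; ring
      · right; right; right; rw [hDeq, ha', hb', hg]; ring
  · -- odd power of two: contradiction
    exfalso
    have h2D : (2 : ℤ) ∣ m - n := ⟨2 ^ (2 * a') * D1, by rw [ha, ha']; ring⟩
    have hco : IsCoprime (F ^ 2) (e ^ 2) := by rw [← hm, ← hne]; exact hmn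
    obtain ⟨hF2, he2⟩ := not_two_dvd_of_sq_sub hco (by rw [← hm, ← hne]; exact h2D)
    have h2n : ¬ (2 : ℤ) ∣ n := fun h => he2 (Int.prime_two.dvd_of_dvd_pow (by rw [← hne]; exact h))
    -- `8 ∣ m - n`
    have h8 : (8 : ℤ) ∣ m - n := by
      rw [hm, hne]
      have hF8 : F ^ 2 % 8 = 1 := by
        have : F % 8 = 1 ∨ F % 8 = 3 ∨ F % 8 = 5 ∨ F % 8 = 7 := by
          have : ¬ F % 2 = 0 := fun h => hF2 (Int.dvd_of_emod_eq_zero h)
          omega
        rcases this with h | h | h | h <;> simp [pow_two, Int.mul_emod, h]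
      have he8 : e ^ 2 % 8 = 1 := by
        have : e % 8 = 1 ∨ e % 8 = 3 ∨ e % 8 = 5 ∨ e % 8 = 7 := by
          have : ¬ e % 2 = 0 := fun h => he2 (Int.dvd_of_emod_eq_zero h)
          omega
        rcases this with h | h | h | h <;> simp [pow_two, Int.mul_emod, h]
      omega
    match a', ha' with
    | 0, ha' =>
      -- a = 1: impossible since 8 ∣ 2 * D1
      rw [ha, ha'] at h8
      obtain ⟨c, hc⟩ := h8
      apply h2D1
      exact ⟨2 * c, by simp at hc; omega⟩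
    | 1, ha' =>
      -- a = 3
      have hD : m - n = 8 * D1 := by rw [ha, ha']; ring
      have hE : m - 81 * n = 8 * (D1 - 10 * n) := by
        have : m - 81 * n = (m - n) - 80 * n := by ring
        rw [this, hD]; ring
      have hV' : 8 ^ 2 * (D1 * (D1 - 10 * n)) = V ^ 2 := by
        rw [← hV, hD, hE]; ring
      have h8V : (8 : ℤ) ∣ V := (Int.pow_dvd_pow_iff two_ne_zero).mp ⟨_, hV'.symm⟩
      obtain ⟨V2, rfl⟩ := h8V
      have hV2 : D1 * (D1 - 10 * e ^ 2) = V2 ^ 2 := by rw [← hne]; nlinarith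
      have hz := congrArg (Int.cast : ℤ → ZMod 8) hV2
      push_cast at hz
      exact zmod8_aux _ _ _ (four_mul_intCast_zmod8_ne_zero h2D1)
        (four_mul_intCast_zmod8_ne_zero he2) hz
    | (i + 2), ha' =>
      -- a ≥ 5
      have hD : m - n = 2 ^ (2 * i + 5) * D1 := by rw [ha, ha']; ring
      have hE : m - 81 * n = 16 * (2 ^ (2 * i + 1) * D1 - 5 * n) := by
        have : m - 81 * n = (m - n) - 80 * n := by ring
        rw [this, hD]; ring
      have hV' : (2 : ℤ) ^ (2 * (i + 4) + 1) * (D1 * (2 ^ (2 * i + 1) * D1 - 5 * n)) = V ^ 2 := by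
        rw [← hV, hD, hE]; ring
      refine not_prime_pow_odd_mul_eq_sq Int.prime_two (i + 4) hV' ?_
      intro hdvd
      rcases Int.prime_two.dvd_or_dvd hdvd with h | h
      · exact h2D1 h
      · have h1 : (2 : ℤ) ∣ 2 ^ (2 * i + 1) * D1 := ⟨2 ^ (2 * i) * D1, by ring⟩
        have h5n : (2 : ℤ) ∣ 5 * n := by
          have := dvd_sub h1 h
          simpa using this
        rcases Int.prime_two.dvd_or_dvd h5n with h' | h'
        · omega
        · exact h2n h'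


/-- Integer form of the class analysis. -/
theorem class_15a2_int {m n Z : ℤ} (hn : 0 < n) (hmn : IsCoprime m n) (hZ0 : Z ≠ 0)
    (hZ : m * n * (m - n) * (m - 81 * n) = Z ^ 2) :
    ∃ F e c : ℤ, m = F ^ 2 ∧ n = e ^ 2 ∧
      (m - n = c ^ 2 ∨ m - n = -c ^ 2 ∨ m - n = 5 * c ^ 2 ∨ m - n = -(5 * c ^ 2)) := by
  -- `n` is prime to the other three factors
  have hnm : IsCoprime n m := hmn.symm
  have hn1 : IsCoprime n (m - n) := by
    obtain ⟨u, v, huv⟩ := hnm
    exact ⟨u + v, v, by linear_combination huv⟩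
  have hn2 : IsCoprime n (m - 81 * n) := by
    obtain ⟨u, v, huv⟩ := hnm
    exact ⟨u + 81 * v, v, by linear_combination huv⟩
  have hnP : IsCoprime n (m * ((m - n) * (m - 81 * n))) := hnm.mul_right (hn1.mul_right hn2)
  have hZ' : n * (m * ((m - n) * (m - 81 * n))) = Z ^ 2 := by rw [← hZ]; ring
  obtain ⟨⟨e, he⟩, ⟨W, hW⟩⟩ := sq_of_coprime_of_pos hnP hZ' hn
  have hW0 : W ≠ 0 := by
    rintro rfl
    rw [hW] at hZ'
    apply hZ0
    have : Z ^ 2 = 0 := by rw [← hZ']; ring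
    exact pow_eq_zero_iff two_ne_zero |>.mp this
  have hm0 : m ≠ 0 := by
    rintro rfl
    apply hW0
    have : W ^ 2 = 0 := by rw [← hW]; ring
    exact pow_eq_zero_iff two_ne_zero |>.mp this
  -- sign: `m > 0`
  have hmpos : 0 < m := by
    rcases lt_or_gt_of_ne hm0 with h | h
    · exfalso
      have h1 : m - n < 0 := by omega
      have h2 : m - 81 * n < 0 := by omega
      have h3 : 0 < (m - n) * (m - 81 * n) := mul_pos_of_neg_of_neg h1 h2
      have h4 : m * ((m - n) * (m - 81 * n)) < 0 := mul_neg_of_neg_of_pos h h3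
      nlinarith [sq_nonneg W]
    · exact h
  obtain ⟨F, hF⟩ := isSquare_num hmn hmpos he hW
  have hF0 : F ≠ 0 := by rintro rfl; exact hm0 (by rw [hF]; ring)
  -- divide by `F ^ 2`
  have hFW : F ∣ W := (Int.pow_dvd_pow_iff two_ne_zero).mp
    ⟨(m - n) * (m - 81 * n), by rw [← hW, hF]⟩
  obtain ⟨V, rfl⟩ := hFW
  have hV : (m - n) * (m - 81 * n) = V ^ 2 := by
    apply mul_left_cancel₀ (pow_ne_zero 2 hF0)
    linear_combination hW - ((m - n) * (m - 81 * n)) * hF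
  have hV0 : V ≠ 0 := by rintro rfl; exact hW0 (by ring)
  obtain ⟨c, hc⟩ := class_sub hmn hF he hV hV0
  exact ⟨F, e, c, hF, he, hc⟩

/-- **Class analysis on the curve `y² = X (X - 1) (X - 81)`**: for a rational point with `y ≠ 0`,
`X` is a square and `X - 1` is `±1` or `±5` times a square. -/
theorem class_15a2 (X y : ℚ) (h : y ^ 2 = X * (X - 1) * (X - 81)) (hy : y ≠ 0) :
    IsSquare X ∧ (IsSquare (X - 1) ∨ IsSquare (-(X - 1)) ∨ IsSquare (5 * (X - 1)) ∨
      IsSquare (-(5 * (X - 1)))) := by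
  have hn : (0 : ℤ) < (X.den : ℤ) := by exact_mod_cast X.den_pos
  have hnq : ((X.den : ℤ) : ℚ) ≠ 0 := by exact_mod_cast X.den_pos.ne'
  have hX : X = (X.num : ℚ) / ((X.den : ℤ) : ℚ) := by
    rw [Int.cast_natCast]; exact (Rat.num_div_den X).symm
  set m : ℤ := X.num with hm
  set n : ℤ := (X.den : ℤ) with hn'
  have hmn : IsCoprime m n := Rat.isCoprime_num_den X
  -- the integer equation
  have hsq : IsSquare (((m * n * (m - n) * (m - 81 * n) : ℤ)) : ℚ) := by
    refine ⟨y * (n : ℚ) ^ 2, ?_⟩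
    have : (y * (n : ℚ) ^ 2) * (y * (n : ℚ) ^ 2) = y ^ 2 * (n : ℚ) ^ 4 := by ring
    rw [this, h, hX]
    push_cast
    field_simp
  obtain ⟨Z, hZ⟩ := Rat.isSquare_intCast_iff.mp hsq
  have hZ' : m * n * (m - n) * (m - 81 * n) = Z ^ 2 := by rw [hZ]; ring
  have hZ0 : Z ≠ 0 := by
    rintro rfl
    have h0 : m * n * (m - n) * (m - 81 * n) = 0 := by rw [hZ']; ring
    have h0q : (m : ℚ) * n * (m - n) * (m - 81 * n) = 0 := by exact_mod_cast h0
    have hy2 : y ^ 2 * (n : ℚ) ^ 4 = 0 := by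
      rw [h, hX]
      field_simp
      linear_combination h0q
    have : y ^ 2 = 0 := by
      rcases mul_eq_zero.mp hy2 with h' | h'
      · exact h'
      · exact absurd (pow_eq_zero_iff (by norm_num) |>.mp h') hnq
    exact hy (pow_eq_zero_iff two_ne_zero |>.mp this)
  obtain ⟨F, e, c, hF, he, hc⟩ := class_15a2_int hn hmn hZ0 hZ'
  have heq : (e : ℚ) ≠ 0 := by
    intro h0
    apply hnq
    rw [he]; push_cast; rw [h0]; ring
  have hXF : X = ((F : ℚ) / e) * ((F : ℚ) / e) := by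
    rw [hX, hF, he]; push_cast; field_simp
  have hX1 : X - 1 = ((m - n : ℤ) : ℚ) / (e : ℚ) ^ 2 := by
    rw [hX, he]; push_cast; field_simp
  refine ⟨⟨_, hXF⟩, ?_⟩
  rcases hc with hc | hc | hc | hc
  · left
    refine ⟨(c : ℚ) / e, ?_⟩
    rw [hX1, hc]; push_cast; field_simp
  · right; left
    refine ⟨(c : ℚ) / e, ?_⟩
    rw [hX1, hc]; push_cast; field_simp
  · right; right; left
    refine ⟨5 * (c : ℚ) / e, ?_⟩
    rw [hX1, hc]; push_cast; field_simp
  · right; right; right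
    refine ⟨5 * (c : ℚ) / e, ?_⟩
    rw [hX1, hc]; push_cast; field_simp

end Fermat.Agent.S51
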