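/-
S51, piece [Descent], final gluing (helper20): unconditional rational points of
`15a2 : y^2 = x(x-1)(x-81)` and `15a1 = X_0(15) : v^2 = u(u+9)(u-16)`,
from `Descent15` (descent, helper20) and `Descent15a2Class` (class analysis, helper27).
-/
import Fermat.Agent.S51.Descent15
import Fermat.Agent.S51.Descent15a2Class

set_option autoImplicit false

namespace Fermat.Agent.S51

theorem class15a2_holds : Class15a2 := fun X y h hy => class_15a2 X y h hy

/-- `15a2` has only the 2-torsion points as rational points. -/
theorem rat_points_15a2 (X y : ℚ) (h : y ^ 2 = X * (X - 1) * (X - 81)) : y = 0 :=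
  no_points_15a2_of_class class15a2_holds X y h

/-- The affine rational points of `X_0(15) = 15a1`. -/
theorem rat_points_15a1 (u v : ℚ) (h : v ^ 2 = u * (u + 9) * (u - 16)) :
    u = 0 ∨ u = -9 ∨ u = 16 ∨ u = 36 ∨ u = -4 :=
  rat_points_15a1_of_class class15a2_holds u v h

end Fermat.Agent.S51
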