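/-
S51, piece [Endgame] (helper21).  Pure ℚ/ℤ arithmetic.

* `lambda_T_cases`: the rational points of `v^2 = u(u+9)(u-16)` determine `(l, T)` on the
  `X_0(15)` relation `T^2 l^5 (l-1) - 5 T l^3 - (9l+1) = 0`.
* `not_semistable_of_T`: the four resulting `j`-invariants have `5`-adic valuation `1` or `2`
  in the numerator, impossible for a semistable integral model.
* `c4_ne_zero_of_semistable`: `j = 0` is impossible for a semistable integral model.
-/
import Mathlib
import Fermat.Prelude.Def_FLTPrelim_Modularity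

namespace Fermat.Agent.S51

theorem lambda_T_cases (l T : ℚ) (hl : l ≠ 0) (hT : T ≠ 0)
    (hrel : T^2*l^5*(l-1) - 5*T*l^3 - (9*l+1) = 0)
    (hdesc : ∀ u v : ℚ, v^2 = u*(u+9)*(u-16) → u = 0 ∨ u = -9 ∨ u = 16 ∨ u = 36 ∨ u = -4) :
    T = -729/2 ∨ T = -2 ∨ T = -729/32 ∨ T = -32 := by
  have hpt : (36*(2*(l-1)*T*l^3 - 5*l))^2 = (36*l)*((36*l)+9)*((36*l)-16) := by
    linear_combination (5184 * (l - 1) * l) * hrel
  rcases hdesc _ _ hpt with h | h | h | h | h
  · -- u = 0
    exfalso; apply hl; linarith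
  · -- u = -9, l = -1/4
    have hl' : l = -1/4 := by linarith
    subst hl'
    have h0 : (T + 32)^2 = 0 := by linear_combination (4096/5) * hrel
    have := pow_eq_zero_iff (two_ne_zero) |>.mp h0
    right; right; right; linarith
  · -- u = 16, l = 4/9
    have hl' : l = 4/9 := by linarith
    subst hl'
    have h0 : (32*T + 729)^2 = 0 := by linear_combination (-531441/5) * hrel
    have := pow_eq_zero_iff (two_ne_zero) |>.mp h0
    right; right; left; linarith
  · -- u = 36, l = 1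
    have hl' : l = 1 := by linarith
    subst hl'
    right; left; linarith
  · -- u = -4, l = -1/9
    have hl' : l = -1/9 := by linarith
    subst hl'
    have h0 : T * (2*T + 729) = 0 := by linear_combination (531441/5) * hrel
    rcases mul_eq_zero.mp h0 with h1 | h1
    · exact absurd h1 hT
    · left; linarith

/-- Auxiliary: an integer relation `D * c^3 = N * Δ` with `5 ∤ D`, `N = 5 * N'` or `25 * N'`
with `5 ∤ N'` is incompatible with semistability at `5`. We only need the shape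
`5 ∣ D * c^3`-type consequences, so we phrase it directly. -/
theorem endgame_five_aux (c Δ D N' : ℤ) (hD : ¬ (5 : ℤ) ∣ D)
    (h : D * c^3 = 25 * N' * Δ ∨ D * c^3 = 5 * N' * Δ) (hN' : ¬ (5 : ℤ) ∣ N') :
    (5 : ℤ) ∣ c ∧ (5 : ℤ) ∣ Δ := by
  have hp : Prime (5 : ℤ) := Int.prime_iff_natAbs_prime.mpr (by norm_num)
  have h5 : (5 : ℤ) ∣ D * c^3 := by
    rcases h with h | h
    · exact ⟨5 * N' * Δ, by rw [h]; ring⟩
    · exact ⟨N' * Δ, by rw [h]; ring⟩
  have hc : (5 : ℤ) ∣ c := by
    rcases hp.dvd_or_dvd h5 with h1 | h1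
    · exact absurd h1 hD
    · exact hp.dvd_of_dvd_pow h1
  refine ⟨hc, ?_⟩
  obtain ⟨k, rfl⟩ := hc
  rcases h with h | h
  · -- D * 125 k^3 = 25 N' Δ  =>  5 D k^3 = N' Δ
    have h' : N' * Δ = 5 * (D * k^3) := by
      have : 25 * (N' * Δ) = 25 * (5 * (D * k^3)) := by linear_combination -h
      linarith
    have : (5 : ℤ) ∣ N' * Δ := ⟨D * k^3, h'⟩
    rcases hp.dvd_or_dvd this with h1 | h1
    · exact absurd h1 hN'
    · exact h1
  · have h' : N' * Δ = 5 * (5 * (D * k^3)) := by
      have : 5 * (N' * Δ) = 5 * (5 * (5 * (D * k^3))) := by linear_combination -h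
      linarith
    have : (5 : ℤ) ∣ N' * Δ := ⟨5 * (D * k^3), h'⟩
    rcases hp.dvd_or_dvd this with h1 | h1
    · exact absurd h1 hN'
    · exact h1

set_option linter.unusedVariables false in
theorem not_semistable_of_T (W : WeierstrassCurve ℤ) (hΔ : W.Δ ≠ 0) (hW : W.IsSemistableModel)
    (T : ℚ) (hT : T = -729/2 ∨ T = -2 ∨ T = -729/32 ∨ T = -32) :
    (W.c₄ : ℚ)^3 * T ≠ (W.Δ : ℚ) * (T+27) * (T+3)^3 := by
  intro h
  have key : (5 : ℤ) ∣ W.c₄ ∧ (5 : ℤ) ∣ W.Δ := by
    rcases hT with rfl | rfl | rfl | rfl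
    · -- T = -729/2 :  -8 c4^3 = 25 * 241^3 * Δ
      have hZ : (-8 : ℤ) * W.c₄^3 = 25 * (241^3) * W.Δ := by
        have : ((-8 : ℤ) * W.c₄^3 : ℚ) = ((25 * (241^3) * W.Δ : ℤ) : ℚ) := by
          push_cast; linear_combination (16/729) * h
        exact_mod_cast this
      exact endgame_five_aux W.c₄ W.Δ (-8) (241^3) (by norm_num) (Or.inl hZ) (by norm_num)
    · -- T = -2 :  -2 c4^3 = 25 Δ
      have hZ : (-2 : ℤ) * W.c₄^3 = 25 * 1 * W.Δ := by
        have : ((-2 : ℤ) * W.c₄^3 : ℚ) = ((25 * 1 * W.Δ : ℤ) : ℚ) := by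
          push_cast; linear_combination h
        exact_mod_cast this
      exact endgame_five_aux W.c₄ W.Δ (-2) 1 (by norm_num) (Or.inl hZ) (by norm_num)
    · -- T = -729/32 :  32768 c4^3 = 5 * 211^3 Δ
      have hZ : (32768 : ℤ) * W.c₄^3 = 5 * (211^3) * W.Δ := by
        have : ((32768 : ℤ) * W.c₄^3 : ℚ) = ((5 * (211^3) * W.Δ : ℤ) : ℚ) := by
          push_cast; linear_combination (-1048576/729) * h
        exact_mod_cast this
      exact endgame_five_aux W.c₄ W.Δ 32768 (211^3) (by norm_num) (Or.inr hZ) (by norm_num)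
    · -- T = -32 :  -32 c4^3 = 5 * 29^3 Δ
      have hZ : (-32 : ℤ) * W.c₄^3 = 5 * (29^3) * W.Δ := by
        have : ((-32 : ℤ) * W.c₄^3 : ℚ) = ((5 * (29^3) * W.Δ : ℤ) : ℚ) := by
          push_cast; linear_combination h
        exact_mod_cast this
      exact endgame_five_aux W.c₄ W.Δ (-32) (29^3) (by norm_num) (Or.inr hZ) (by norm_num)
  exact hW 5 (by norm_num) (by exact_mod_cast key.2) (by exact_mod_cast key.1)

set_option linter.unusedVariables false in
theorem c4_ne_zero_of_semistable (W : WeierstrassCurve ℤ) (hΔ : W.Δ ≠ 0)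
    (hW : W.IsSemistableModel) : W.c₄ ≠ 0 := by
  intro hc
  -- no prime divides Δ
  have hunit : W.Δ.natAbs = 1 := by
    by_contra hne
    obtain ⟨p, hp, hpd⟩ := Nat.exists_prime_and_dvd hne
    have hpΔ : (p : ℤ) ∣ W.Δ := Int.natCast_dvd.mpr hpd
    exact hW p hp hpΔ (by rw [hc]; exact dvd_zero _)
  have hrel := W.c_relation
  rw [hc] at hrel
  have hsq : W.c₆^2 = -1728 * W.Δ := by linear_combination hrel
  rcases Int.natAbs_eq W.Δ with h | h
  · rw [hunit] at h
    rw [h] at hsq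
    have : (0 : ℤ) ≤ W.c₆^2 := sq_nonneg _
    norm_num at hsq
    omega
  · rw [hunit] at h
    rw [h] at hsq
    norm_num at hsq
    -- c6^2 = 1728 is impossible: 41^2 < 1728 < 42^2
    have h1 : W.c₆.natAbs ^ 2 = 1728 := by
      have := congrArg Int.natAbs hsq
      rw [Int.natAbs_pow] at this
      simpa using this
    have hlt : W.c₆.natAbs < 42 := by
      by_contra hge
      have hge' : 42 ≤ W.c₆.natAbs := not_lt.mp hge
      have : 42^2 ≤ W.c₆.natAbs^2 := Nat.pow_le_pow_left hge' 2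
      omega
    have hgt : 41 < W.c₆.natAbs := by
      by_contra hle
      have hle' : W.c₆.natAbs ≤ 41 := not_lt.mp hle
      have : W.c₆.natAbs^2 ≤ 41^2 := Nat.pow_le_pow_left hle' 2
      omega
    omega

end Fermat.Agent.S51
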