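import Mathlib
import Fermat.Prelude.Def_FLTPrelim_ModularRep

/-!
Shared infrastructure for S51: the duplication map on `x`-coordinates of a Weierstrass curve
(general `b`-invariant form and shifted short form), Galois action on coordinates of points of
`E(ℚ̄)`, descent of Galois-fixed elements of `ℚ̄` to `ℚ`, and counting helpers.
-/

set_option autoImplicit false
open WeierstrassCurve WeierstrassCurve.Affine WeierstrassCurve.Affine.Point
open scoped WeierstrassCurve.Affine

namespace Fermat.Agent.S51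

section Generic

variable {F : Type*} [Field F] (W : WeierstrassCurve.Affine F)

/-- Numerator of the duplication map on `x`-coordinates. -/
def dupNum (x : F) : F := x ^ 4 - W.b₄ * x ^ 2 - 2 * W.b₆ * x - W.b₈

/-- Denominator of the duplication map on `x`-coordinates. -/
def dupDen (x : F) : F := 4 * x ^ 3 + W.b₂ * x ^ 2 + 2 * W.b₄ * x + W.b₆

lemma dupDen_eq_sq {x y : F} (h : W.Equation x y) : dupDen W x = (y - W.negY x y) ^ 2 := by
  rw [Affine.equation_iff] at h
  simp only [dupDen, Affine.negY, WeierstrassCurve.b₂, WeierstrassCurve.b₄, WeierstrassCurve.b₆]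
  linear_combination (-4 : F) * h

lemma dupDen_eq_zero_iff {x y : F} (h : W.Equation x y) : dupDen W x = 0 ↔ y = W.negY x y := by
  rw [dupDen_eq_sq W h, sq_eq_zero_iff, sub_eq_zero]

/-- The `x`-coordinate of a point (junk value `0` at the origin). -/
def xCoord : W.Point → F
  | .zero => 0
  | .some x _ _ => x

@[simp] lemma xCoord_some {x y : F} (h : W.Nonsingular x y) : xCoord W (Point.some x y h) = x := rfl

lemma xCoord_neg (P : W.Point) : xCoord W (-P) = xCoord W P := by
  cases P <;> rfl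

lemma eq_or_eq_neg_of_xCoord_eq {P Q : W.Point} (hP : P ≠ 0) (hQ : Q ≠ 0)
    (h : xCoord W P = xCoord W Q) : Q = P ∨ Q = -P := by
  rcases P with _ | ⟨x, y, hxy⟩
  · exact absurd rfl hP
  rcases Q with _ | ⟨x', y', hxy'⟩
  · exact absurd rfl hQ
  simp only [xCoord_some] at h
  subst h
  exact Point.X_eq_iff.mp rfl

variable [DecidableEq F]

lemma addX_self_mul_dupDen {x y : F} (h : W.Equation x y) (hy : y ≠ W.negY x y) :
    W.addX x x (W.slope x x y y) * dupDen W x = dupNum W x := by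
  have hne : y - W.negY x y ≠ 0 := sub_ne_zero.mpr hy
  rw [dupDen_eq_sq W h, Affine.slope_of_Y_ne rfl hy]
  rw [Affine.equation_iff] at h
  set d := y - W.negY x y with hd
  have hd' : d = 2 * y + W.a₁ * x + W.a₃ := by rw [hd, Affine.negY]; ring
  simp only [Affine.addX, dupNum, WeierstrassCurve.b₄, WeierstrassCurve.b₆, WeierstrassCurve.b₈]
  field_simp
  rw [hd']
  linear_combination (-(W.a₁ ^ 2 + 4 * W.a₂ + 8 * x)) * h

/-- Doubling a point kills it iff the duplication denominator vanishes. -/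
lemma some_add_self_eq_zero_iff {x y : F} (h : W.Nonsingular x y) :
    Point.some x y h + Point.some x y h = 0 ↔ dupDen W x = 0 := by
  rw [dupDen_eq_zero_iff W h.1]
  constructor
  · intro h0
    by_contra hy
    rw [Point.add_self_of_Y_ne hy] at h0
    exact Point.some_ne_zero _ h0
  · intro hy
    exact Point.add_self_of_Y_eq hy

/-- The `x`-coordinate of the double of a point. -/
lemma some_add_self {x y : F} (h : W.Nonsingular x y) (hd : dupDen W x ≠ 0) :
    ∃ (y' : F) (h' : W.Nonsingular (dupNum W x / dupDen W x) y'),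
      Point.some x y h + Point.some x y h = Point.some (dupNum W x / dupDen W x) y' h' := by
  have hy : y ≠ W.negY x y := fun hy => hd ((dupDen_eq_zero_iff W h.1).mpr hy)
  have hx : W.addX x x (W.slope x x y y) = dupNum W x / dupDen W x := by
    rw [eq_div_iff hd]; exact addX_self_mul_dupDen W h.1 hy
  have key := Point.add_self_of_Y_ne (h₁ := h) hy
  revert key
  generalize_proofs pf
  revert pf
  rw [hx]
  intro pf key
  exact ⟨_, pf, key⟩

/-- Doubling in terms of `xCoord`: if `P ≠ 0` and `P + P ≠ 0` then the `x`-coordinate of `P + P`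
is `dupNum / dupDen` of that of `P`, and `dupDen ≠ 0`. -/
lemma xCoord_add_self {P : W.Point} (hP : P ≠ 0) (h2 : P + P ≠ 0) :
    dupDen W (xCoord W P) ≠ 0 ∧
      xCoord W (P + P) = dupNum W (xCoord W P) / dupDen W (xCoord W P) := by
  rcases P with _ | ⟨x, y, hxy⟩
  · exact absurd rfl hP
  have hd : dupDen W x ≠ 0 := fun hd => h2 ((some_add_self_eq_zero_iff W hxy).mpr hd)
  obtain ⟨y', h', e⟩ := some_add_self W hxy hd
  refine ⟨hd, ?_⟩
  rw [e]; rfl

lemma add_self_eq_zero_iff_dupDen {P : W.Point} (hP : P ≠ 0) :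
    P + P = 0 ↔ dupDen W (xCoord W P) = 0 := by
  rcases P with _ | ⟨x, y, hxy⟩
  · exact absurd rfl hP
  exact some_add_self_eq_zero_iff W hxy

end Generic

section Short

variable {F : Type*} [Field F] [CharZero F] (W : WeierstrassCurve.Affine F)

/-- short Weierstrass coefficient `A = -c₄/48`. -/
def sA : F := -W.c₄ / 48
/-- short Weierstrass coefficient `B = -c₆/864`. -/
def sB : F := -W.c₆ / 864
/-- shifted `x`-coordinate `X = x + b₂/12`. -/
def sX (x : F) : F := x + W.b₂ / 12

/-- The cubic `X³ + A X + B`. -/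
def sF (A B X : F) : F := X ^ 3 + A * X + B
/-- The short duplication numerator `X⁴ - 2 A X² - 8 B X + A²`. -/
def sN (A B X : F) : F := X ^ 4 - 2 * A * X ^ 2 - 8 * B * X + A ^ 2
/-- The short `3`-division polynomial `3X⁴ + 6AX² + 12BX - A²`. -/
def sPsi3 (A B X : F) : F := 3 * X ^ 4 + 6 * A * X ^ 2 + 12 * B * X - A ^ 2

lemma dupDen_eq_short (x : F) : dupDen W x = 4 * sF (sA W) (sB W) (sX W x) := by
  simp only [dupDen, sF, sA, sB, sX, WeierstrassCurve.c₄, WeierstrassCurve.c₆,
    WeierstrassCurve.b₂, WeierstrassCurve.b₄, WeierstrassCurve.b₆]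
  ring

lemma dupNum_eq_short (x : F) :
    dupNum W x + W.b₂ / 12 * dupDen W x = sN (sA W) (sB W) (sX W x) := by
  simp only [dupNum, dupDen, sN, sA, sB, sX, WeierstrassCurve.c₄, WeierstrassCurve.c₆,
    WeierstrassCurve.b₂, WeierstrassCurve.b₄, WeierstrassCurve.b₆, WeierstrassCurve.b₈]
  ring

lemma Δ_eq_short : W.Δ = -16 * (4 * sA W ^ 3 + 27 * sB W ^ 2) := by
  simp only [WeierstrassCurve.Δ, sA, sB, WeierstrassCurve.c₄, WeierstrassCurve.c₆,
    WeierstrassCurve.b₂, WeierstrassCurve.b₄, WeierstrassCurve.b₆, WeierstrassCurve.b₈]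
  ring

lemma c₄_eq_short : W.c₄ = -48 * sA W := by
  simp only [sA]; ring

lemma c₆_eq_short : W.c₆ = -864 * sB W := by
  simp only [sB]; ring

/-- The short discriminant `4A³ + 27B²` is nonzero when `Δ ≠ 0`. -/
lemma short_disc_ne_zero (hΔ : W.Δ ≠ 0) : 4 * sA W ^ 3 + 27 * sB W ^ 2 ≠ 0 := by
  intro h
  apply hΔ
  rw [Δ_eq_short, h, mul_zero]

lemma sF_ne_zero_iff (x : F) : sF (sA W) (sB W) (sX W x) ≠ 0 ↔ dupDen W x ≠ 0 := by
  rw [dupDen_eq_short]
  constructor
  · intro h; exact mul_ne_zero (by norm_num) h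
  · intro h h0; exact h (by rw [h0, mul_zero])

/-- The duplication map in shifted coordinates. -/
lemma sX_dup (x : F) (hd : dupDen W x ≠ 0) :
    sX W (dupNum W x / dupDen W x) =
      sN (sA W) (sB W) (sX W x) / (4 * sF (sA W) (sB W) (sX W x)) := by
  rw [← dupNum_eq_short, ← dupDen_eq_short, sX]
  field_simp

omit [CharZero F] in
lemma sX_injective : Function.Injective (sX W) := fun a b h => by
  simpa [sX] using h

end Short

section AlgClosed

variable {F : Type*} [Field F] [IsAlgClosed F] (W : WeierstrassCurve.Affine F)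

/-- Over an algebraically closed field of characteristic `≠ 2`, every `x` is the `x`-coordinate of
an affine solution of the Weierstrass equation. -/
lemma exists_equation (h2 : (2 : F) ≠ 0) (x : F) : ∃ y, W.Equation x y := by
  obtain ⟨z, hz⟩ := IsAlgClosed.exists_pow_nat_eq (dupDen W x) (n := 2) (by norm_num)
  refine ⟨(z - (W.a₁ * x + W.a₃)) / 2, ?_⟩
  rw [Affine.equation_iff]
  simp only [dupDen, WeierstrassCurve.b₂, WeierstrassCurve.b₄, WeierstrassCurve.b₆] at hz
  field_simp
  linear_combination hz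

end AlgClosed

section Counting

/-- A map that is at most two-to-one (fibres contained in `{a, neg a}`) with values in a finite
set has finite domain of cardinality at most twice that of the set. -/
lemma finite_and_card_le_of_two_to_one {α β : Type*} (f : α → β) (neg : α → α) (S : Finset β)
    (hS : ∀ a, f a ∈ S) (h : ∀ a b, f a = f b → b = a ∨ b = neg a) :
    Finite α ∧ Nat.card α ≤ 2 * S.card := by
  classical
  let rep : ∀ b : β, (∃ a, f a = b) → α := fun b hb => hb.choose
  have hrep : ∀ b hb, f (rep b hb) = b := fun b hb => hb.choose_spec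
  let g : α → S × Bool := fun a => (⟨f a, hS a⟩, decide (a = rep (f a) ⟨a, rfl⟩))
  have hg : Function.Injective g := by
    intro a a' haa
    have h1 : f a = f a' := congrArg (fun z => (z.1 : β)) haa
    have h2 : decide (a = rep (f a) ⟨a, rfl⟩) = decide (a' = rep (f a') ⟨a', rfl⟩) :=
      congrArg Prod.snd haa
    have hrr : rep (f a) ⟨a, rfl⟩ = rep (f a') ⟨a', rfl⟩ := by
      have : ∀ (b b' : β) (hb : ∃ x, f x = b) (hb' : ∃ x, f x = b'), b = b' →
          rep b hb = rep b' hb' := by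
        intro b b' hb hb' e; subst e; rfl
      exact this _ _ _ _ h1
    set r := rep (f a) ⟨a, rfl⟩ with hr
    have hfr : f r = f a := hrep _ _
    by_cases hc : a = r
    · have : a' = rep (f a') ⟨a', rfl⟩ := by
        have := h2
        rw [decide_eq_true hc] at this
        exact of_decide_eq_true this.symm
      rw [hc, this, ← hrr]
    · have hc' : ¬ a' = rep (f a') ⟨a', rfl⟩ := by
        intro hh
        have := h2
        rw [decide_eq_true hh, decide_eq_false hc] at this
        exact Bool.false_ne_true this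
      rw [← hrr] at hc'
      have ha : a = r ∨ a = neg r := h r a hfr
      have ha' : a' = r ∨ a' = neg r := h r a' (hfr.trans h1)
      rcases ha with ha | ha
      · exact absurd ha hc
      rcases ha' with ha' | ha'
      · exact absurd ha' hc'
      rw [ha, ha']
  have hfin : Finite α := Finite.of_injective g hg
  refine ⟨hfin, ?_⟩
  calc Nat.card α ≤ Nat.card (S × Bool) := Nat.card_le_card_of_injective g hg
    _ = 2 * S.card := by
      rw [Nat.card_prod, Nat.card_eq_fintype_card, Nat.card_eq_fintype_card, Fintype.card_coe,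
        Fintype.card_bool, mul_comm]

end Counting

section ZModLine

/-- In a `ZMod p`-module with fewer than `p ^ 3` elements, a submodule that is neither `⊥` nor `⊤`
is the line through any of its nonzero elements. -/
lemma exists_smul_eq_of_mem_of_card_lt {p : ℕ} [Fact p.Prime] {V : Type*} [AddCommGroup V]
    [Module (ZMod p) V] [Finite V] (hcard : Nat.card V < p ^ 3) (N : Submodule (ZMod p) V)
    (h0 : N ≠ ⊥) (h1 : N ≠ ⊤) {P : V} (hP : P ∈ N) (hP0 : P ≠ 0) :
    ∀ Q ∈ N, ∃ c : ZMod p, Q = c • P := by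
  have : Module.Finite (ZMod p) V := Module.Finite.of_finite
  have hp : p.Prime := Fact.out
  have hV : Module.finrank (ZMod p) V < 3 := by
    have h := Module.natCard_eq_pow_finrank (K := ZMod p) (V := V)
    rw [Nat.card_zmod] at h
    rw [h] at hcard
    exact (Nat.pow_lt_pow_iff_right hp.one_lt).mp hcard
  have hN1 : Module.finrank (ZMod p) N < Module.finrank (ZMod p) V :=
    Submodule.finrank_lt h1
  have hN0 : Module.finrank (ZMod p) N ≠ 0 := by
    intro h
    exact h0 (Submodule.finrank_eq_zero.mp h)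
  have hN : Module.finrank (ZMod p) N = 1 := by omega
  have key := (finrank_eq_one_iff_of_nonzero' (⟨P, hP⟩ : N)
    (fun h => hP0 (congrArg Subtype.val h))).mp hN
  intro Q hQ
  obtain ⟨c, hc⟩ := key ⟨Q, hQ⟩
  exact ⟨c, (congrArg Subtype.val hc).symm⟩

end ZModLine

section Galois

theorem ratAlg_eq :
    (DivisionRing.toRatAlgebra : Algebra ℚ (AlgebraicClosure ℚ)) = AlgebraicClosure.instAlgebra ℚ :=
  Subsingleton.elim _ _

/-- An element of `ℚ̄` fixed by the whole absolute Galois group is rational. -/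
theorem mem_range_of_fixed (x : AlgebraicClosure ℚ)
    (hx : ∀ σ : AlgebraicClosure ℚ ≃ₐ[ℚ] AlgebraicClosure ℚ, σ x = x) :
    ∃ q : ℚ, algebraMap ℚ (AlgebraicClosure ℚ) q = x := by
  have key : ∀ (a : Algebra ℚ (AlgebraicClosure ℚ)), a = AlgebraicClosure.instAlgebra ℚ →
      ∀ x : AlgebraicClosure ℚ,
        (∀ σ : @AlgEquiv ℚ (AlgebraicClosure ℚ) (AlgebraicClosure ℚ) _ _ _ a a, σ x = x) →
      ∃ q : ℚ, @algebraMap ℚ (AlgebraicClosure ℚ) _ _ a q = x := by
    intro a ha x hx
    subst ha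
    exact (@InfiniteGalois.mem_range_algebraMap_iff_fixed ℚ (AlgebraicClosure ℚ) _ _
      (AlgebraicClosure.instAlgebra ℚ) inferInstance x).mpr hx
  exact key _ ratAlg_eq x hx

variable (E : WeierstrassCurve ℚ)

lemma smul_some (σ : AlgebraicClosure ℚ ≃ₐ[ℚ] AlgebraicClosure ℚ) {x y : AlgebraicClosure ℚ}
    (h : (E⁄(AlgebraicClosure ℚ)).Nonsingular x y) :
    ∃ h' : (E⁄(AlgebraicClosure ℚ)).Nonsingular (σ x) (σ y),
      σ • (Point.some x y h : (E⁄(AlgebraicClosure ℚ)).Point) = Point.some (σ x) (σ y) h' :=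
  ⟨_, rfl⟩

lemma smul_point_zero (σ : AlgebraicClosure ℚ ≃ₐ[ℚ] AlgebraicClosure ℚ) :
    σ • (0 : (E⁄(AlgebraicClosure ℚ)).Point) = 0 := rfl

lemma smul_point_eq_zero_iff (σ : AlgebraicClosure ℚ ≃ₐ[ℚ] AlgebraicClosure ℚ)
    (P : (E⁄(AlgebraicClosure ℚ)).Point) : σ • P = 0 ↔ P = 0 := by
  cases P with
  | zero => exact ⟨fun _ => rfl, fun _ => rfl⟩
  | some x y h =>
    constructor
    · intro h0
      obtain ⟨h', e⟩ := smul_some E σ h
      rw [e] at h0
      exact absurd h0 (Point.some_ne_zero _)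
    · intro h0
      exact absurd h0 (Point.some_ne_zero _)

lemma xCoord_smul (σ : AlgebraicClosure ℚ ≃ₐ[ℚ] AlgebraicClosure ℚ)
    (P : (E⁄(AlgebraicClosure ℚ)).Point) (hP : P ≠ 0) :
    xCoord (E⁄(AlgebraicClosure ℚ)) (σ • P) = σ (xCoord (E⁄(AlgebraicClosure ℚ)) P) := by
  cases P with
  | zero => exact absurd rfl hP
  | some x y h => rfl

lemma coe_smul_torsion (n : ℕ) (σ : AlgebraicClosure ℚ ≃ₐ[ℚ] AlgebraicClosure ℚ)
    (P : Submodule.torsionBy ℤ (E⁄(AlgebraicClosure ℚ)).Point n) :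
    ((σ • P : Submodule.torsionBy ℤ (E⁄(AlgebraicClosure ℚ)).Point n) :
      (E⁄(AlgebraicClosure ℚ)).Point) = σ • (P : (E⁄(AlgebraicClosure ℚ)).Point) := rfl

lemma baseChange_b₂ :
    (E⁄(AlgebraicClosure ℚ)).b₂ = algebraMap ℚ (AlgebraicClosure ℚ) E.b₂ := WeierstrassCurve.map_b₂ E _
lemma baseChange_b₄ :
    (E⁄(AlgebraicClosure ℚ)).b₄ = algebraMap ℚ (AlgebraicClosure ℚ) E.b₄ := WeierstrassCurve.map_b₄ E _
lemma baseChange_b₆ :
    (E⁄(AlgebraicClosure ℚ)).b₆ = algebraMap ℚ (AlgebraicClosure ℚ) E.b₆ := WeierstrassCurve.map_b₆ E _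
lemma baseChange_b₈ :
    (E⁄(AlgebraicClosure ℚ)).b₈ = algebraMap ℚ (AlgebraicClosure ℚ) E.b₈ := WeierstrassCurve.map_b₈ E _
lemma baseChange_c₄ :
    (E⁄(AlgebraicClosure ℚ)).c₄ = algebraMap ℚ (AlgebraicClosure ℚ) E.c₄ := WeierstrassCurve.map_c₄ E _
lemma baseChange_c₆ :
    (E⁄(AlgebraicClosure ℚ)).c₆ = algebraMap ℚ (AlgebraicClosure ℚ) E.c₆ := WeierstrassCurve.map_c₆ E _
lemma baseChange_Δ :
    (E⁄(AlgebraicClosure ℚ)).Δ = algebraMap ℚ (AlgebraicClosure ℚ) E.Δ := WeierstrassCurve.map_Δ E _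

lemma baseChange_Δ_ne_zero (hΔ : E.Δ ≠ 0) : (E⁄(AlgebraicClosure ℚ)).Δ ≠ 0 := by
  rw [baseChange_Δ]
  exact (map_ne_zero_iff _ (algebraMap ℚ (AlgebraicClosure ℚ)).injective).mpr hΔ

/-- When `Δ ≠ 0`, every affine solution of the equation over `ℚ̄` is a nonsingular point. -/
lemma nonsingular_of_equation (hΔ : E.Δ ≠ 0) {x y : AlgebraicClosure ℚ}
    (h : (E⁄(AlgebraicClosure ℚ)).Equation x y) : (E⁄(AlgebraicClosure ℚ)).Nonsingular x y :=
  (Affine.equation_iff_nonsingular_of_Δ_ne_zero (baseChange_Δ_ne_zero E hΔ)).mp h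

/-- When `Δ ≠ 0`, every `x ∈ ℚ̄` is the `x`-coordinate of a point of `E(ℚ̄)`. -/
lemma exists_point_of_x (hΔ : E.Δ ≠ 0) (x : AlgebraicClosure ℚ) :
    ∃ y : AlgebraicClosure ℚ, (E⁄(AlgebraicClosure ℚ)).Nonsingular x y := by
  obtain ⟨y, hy⟩ := exists_equation (E⁄(AlgebraicClosure ℚ)) (by norm_num) x
  exact ⟨y, nonsingular_of_equation E hΔ hy⟩

end Galois

end Fermat.Agent.S51
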