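import Fermat.Agent.S51.Defs

/-!
Bridge from a 2-cycle of the x-coordinate duplication map over an extension field `K` of `ℚ`
(with rational elementary symmetric functions) to the rational kernel-polynomial data consumed by
`Fermat.Agent.S51.core_point`.
-/

set_option autoImplicit false

namespace Fermat.Agent.S51

section

variable {K : Type*} [Field K] [Algebra ℚ K]

lemma psi3_map (E : WeierstrassCurve ℚ) (x : ℚ) :
    psi3 (E.map (algebraMap ℚ K)) (algebraMap ℚ K x) = algebraMap ℚ K (psi3 E x) := by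
  simp only [psi3, WeierstrassCurve.map_b₂, WeierstrassCurve.map_b₄, WeierstrassCurve.map_b₆,
    WeierstrassCurve.map_b₈, map_add, map_mul, map_pow, map_ofNat]

lemma r1_map (E : WeierstrassCurve ℚ) (s1 s2 : ℚ) :
    r1 (E.map (algebraMap ℚ K)) (algebraMap ℚ K s1) (algebraMap ℚ K s2)
      = algebraMap ℚ K (r1 E s1 s2) := by
  simp only [r1, WeierstrassCurve.map_b₂, WeierstrassCurve.map_b₄, WeierstrassCurve.map_b₆,
    map_add, map_mul, map_pow, map_neg, map_ofNat]

lemma r2_map (E : WeierstrassCurve ℚ) (s1 s2 : ℚ) :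
    r2 (E.map (algebraMap ℚ K)) (algebraMap ℚ K s1) (algebraMap ℚ K s2)
      = algebraMap ℚ K (r2 E s1 s2) := by
  simp only [r2, WeierstrassCurve.map_b₂, WeierstrassCurve.map_b₄, WeierstrassCurve.map_b₆,
    WeierstrassCurve.map_b₈, map_add, map_sub, map_mul, map_pow, map_neg, map_ofNat]

/-- From a genuine 2-cycle `x1 ↦ x2 ↦ x1` of the duplication map over `K` whose elementary
symmetric functions are rational, extract the rational kernel-polynomial data. -/
theorem kernel_poly_of_cycle (E : WeierstrassCurve ℚ) (x1 x2 : K) (hne : x1 ≠ x2)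
    (h1 : x2 * Psi2 (E.map (algebraMap ℚ K)) x1 = Phi2 (E.map (algebraMap ℚ K)) x1)
    (h2 : x1 * Psi2 (E.map (algebraMap ℚ K)) x2 = Phi2 (E.map (algebraMap ℚ K)) x2)
    (hP1 : Psi2 (E.map (algebraMap ℚ K)) x1 ≠ 0) (hP2 : Psi2 (E.map (algebraMap ℚ K)) x2 ≠ 0)
    (s1 s2 : ℚ) (hs1 : algebraMap ℚ K s1 = x1 + x2) (hs2 : algebraMap ℚ K s2 = x1 * x2) :
    r1 E s1 s2 = 0 ∧ r2 E s1 s2 = 0 ∧ s1 ^ 2 - 4 * s2 ≠ 0 ∧
      ∀ x : ℚ, psi3 E x = 0 → x ^ 2 - s1 * x + s2 ≠ 0 := by
  have hinj : Function.Injective (algebraMap ℚ K) := (algebraMap ℚ K).injective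
  obtain ⟨hr1, hr2⟩ := r1_r2_of_cycle (E.map (algebraMap ℚ K)) hne h1 h2
  rw [← hs1, ← hs2, r1_map] at hr1
  rw [← hs1, ← hs2, r2_map] at hr2
  refine ⟨hinj (by rw [hr1, map_zero]), hinj (by rw [hr2, map_zero]), ?_, ?_⟩
  · intro h0
    have : algebraMap ℚ K (s1 ^ 2 - 4 * s2) = 0 := by rw [h0, map_zero]
    rw [map_sub, map_pow, map_mul, map_ofNat, hs1, hs2] at this
    have h' : (x1 - x2) ^ 2 = 0 := by linear_combination this
    exact hne (sub_eq_zero.mp (pow_eq_zero_iff (n := 2) (by norm_num) |>.mp h'))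
  · intro x hx h0
    have hx' : psi3 (E.map (algebraMap ℚ K)) (algebraMap ℚ K x) = 0 := by
      rw [psi3_map, hx, map_zero]
    have h0' : algebraMap ℚ K (x ^ 2 - s1 * x + s2) = 0 := by rw [h0, map_zero]
    rw [map_add, map_sub, map_pow, map_mul, hs1, hs2] at h0'
    have hprod : (algebraMap ℚ K x - x1) * (algebraMap ℚ K x - x2) = 0 := by
      linear_combination h0'
    rcases mul_eq_zero.mp hprod with h | h
    · have hxe : algebraMap ℚ K x = x1 := sub_eq_zero.mp h
      rw [hxe, psi3_eq] at hx'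
      have : (x1 - x2) * Psi2 (E.map (algebraMap ℚ K)) x1 = 0 := by
        linear_combination hx' - h1
      rcases mul_eq_zero.mp this with h | h
      · exact hne (sub_eq_zero.mp h)
      · exact hP1 h
    · have hxe : algebraMap ℚ K x = x2 := sub_eq_zero.mp h
      rw [hxe, psi3_eq] at hx'
      have : (x2 - x1) * Psi2 (E.map (algebraMap ℚ K)) x2 = 0 := by
        linear_combination hx' - h2
      rcases mul_eq_zero.mp this with h | h
      · exact hne (sub_eq_zero.mp h).symm
      · exact hP2 h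

end

end Fermat.Agent.S51
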