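import Fermat.Agent.S51.Defs
import Mathlib.AlgebraicGeometry.EllipticCurve.DivisionPolynomial.Degree
import Mathlib.FieldTheory.IsAlgClosed.Basic

/-!
Pure algebra for the existence of 3- and 5-torsion x-coordinates over an algebraically closed
field: nonvanishing statements (Bezout certificates against the discriminant) and the existence
of a genuine 2-cycle of the x-coordinate duplication map.
-/

set_option autoImplicit false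

namespace Fermat.Agent.S51

open Polynomial

variable {K : Type*} [Field K]

/-- The polynomial `preΨ₄` evaluated at `x`. -/
def pre4 (W : WeierstrassCurve K) (x : K) : K :=
  2 * x ^ 6 + W.b₂ * x ^ 5 + 5 * W.b₄ * x ^ 4 + 10 * W.b₆ * x ^ 3 + 10 * W.b₈ * x ^ 2
    + (W.b₂ * W.b₈ - W.b₄ * W.b₆) * x + (W.b₄ * W.b₈ - W.b₆ ^ 2)

/-- A common root of `Psi2` and `psi3` forces `Δ = 0`. -/
lemma Delta_eq_zero_of_Psi2_psi3 (W : WeierstrassCurve K) {x : K}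
    (h2 : Psi2 W x = 0) (h3 : psi3 W x = 0) : W.Δ = 0 := by
  have hrel := W.b_relation
  simp only [Psi2] at h2
  simp only [psi3] at h3
  rw [WeierstrassCurve.Δ]
  linear_combination
    (W.b₂^2*x + W.b₂*W.b₄ - 9*W.b₂*x^2 - 42*W.b₄*x - 27*W.b₆ - 36*x^3) * h2
    + (-W.b₂^2 + 8*W.b₂*x + 32*W.b₄ + 48*x^2) * h3
    + (-2*W.b₂*x - 8*W.b₄ - 12*x^2) * hrel

lemma Psi2_ne_zero_of_psi3 (W : WeierstrassCurve K) (hΔ : W.Δ ≠ 0) {x : K}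
    (h3 : psi3 W x = 0) : Psi2 W x ≠ 0 :=
  fun h2 => hΔ (Delta_eq_zero_of_Psi2_psi3 W h2 h3)

/-- A common root of `pre4` and `psi3` forces `Δ = 0`. -/
lemma Delta_eq_zero_of_pre4_psi3 (W : WeierstrassCurve K) {x : K}
    (h4 : pre4 W x = 0) (h3 : psi3 W x = 0) : W.Δ = 0 := by
  have hrel := W.b_relation
  simp only [pre4] at h4
  simp only [psi3] at h3
  have hsq : W.Δ ^ 2 = 0 := by
    rw [WeierstrassCurve.Δ]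
    linear_combination
      (-W.b₂^4*x^2 - 2*W.b₂^3*W.b₄*x - 3*W.b₂^3*W.b₆ + 6*W.b₂^3*x^3 + 2*W.b₂^2*W.b₄^2
        + 66*W.b₂^2*W.b₄*x^2 + 16*W.b₂^2*W.b₆*x - 53*W.b₂^2*x^4 + 86*W.b₂*W.b₄^2*x
        + 142*W.b₂*W.b₄*W.b₆ - 356*W.b₂*W.b₄*x^3 - 218*W.b₂*W.b₆*x^2 + 468*W.b₂*x^5
        - 88*W.b₄^3 - 1000*W.b₄^2*x^2 - 1212*W.b₄*W.b₆*x + 1452*W.b₄*x^4 - 729*W.b₆^2
        + 1476*W.b₆*x^3 - 28*W.b₈*x^2 + 2124*x^6) * h4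
      + (W.b₂^4*W.b₈ + W.b₂^4*x^4 - W.b₂^3*W.b₄*W.b₆ + 4*W.b₂^3*W.b₄*x^3 + 10*W.b₂^3*W.b₆*x^2
        - 7*W.b₂^3*x^5 - 4*W.b₂^2*W.b₄^2*x^2 + 2*W.b₂^2*W.b₄*W.b₆*x - 56*W.b₂^2*W.b₄*W.b₈
        - 83*W.b₂^2*W.b₄*x^4 + 6*W.b₂^2*W.b₆^2 - 79*W.b₂^2*W.b₆*x^3 + 62*W.b₂^2*x^6
        + 2*W.b₂*W.b₄^3*x + 52*W.b₂*W.b₄^2*W.b₆ - 159*W.b₂*W.b₄^2*x^3 - 455*W.b₂*W.b₄*W.b₆*x^2
        + 552*W.b₂*W.b₄*x^5 + 6*W.b₂*W.b₆^2*x + 137*W.b₂*W.b₆*W.b₈ + 767*W.b₂*W.b₆*x^4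
        - 548*W.b₂*x^7 - 6*W.b₄^4 + 129*W.b₄^3*x^2 - 169*W.b₄^2*W.b₆*x + 655*W.b₄^2*W.b₈
        + 1429*W.b₄^2*x^4 - 647*W.b₄*W.b₆^2 + 3956*W.b₄*W.b₆*x^3 + 1088*W.b₄*W.b₈*x^2
        - 3092*W.b₄*x^6 + 2922*W.b₆^2*x^2 + 1132*W.b₆*W.b₈*x - 6648*W.b₆*x^5 + 28*W.b₈^2
        - 6228*W.b₈*x^4 - 1416*x^8) * h3
      + (W.b₂^3*W.b₆*x^2 + 2*W.b₂^2*W.b₄*W.b₆*x + 14*W.b₂^2*W.b₄*W.b₈ + 3*W.b₂^2*W.b₆^2
        - 80*W.b₂*W.b₄^2*W.b₆ - 58*W.b₂*W.b₄*W.b₆*x^2 + 2*W.b₂*W.b₆^2*x - 36*W.b₂*W.b₆*W.b₈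
        + 64*W.b₄^4 + 18*W.b₄^3*x^2 - 70*W.b₄^2*W.b₆*x - 162*W.b₄^2*W.b₈ + 71*W.b₄^2*x^4
        + 344*W.b₄*W.b₆^2 - 286*W.b₄*W.b₈*x^2 + 502*W.b₄*x^6 + 236*W.b₆^2*x^2
        - 304*W.b₆*W.b₈*x + 1864*W.b₆*x^5 - 7*W.b₈^2 + 1606*W.b₈*x^4 - 271*x^8) * hrel
  exact pow_eq_zero_iff (n := 2) (by norm_num) |>.mp hsq

/-- `Psi2 (D x) * Psi2 x ^ 3 = pre4 x ^ 2`, with `D x = Phi2 x / Psi2 x` cleared of denominators. -/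
lemma Psi2_dup (W : WeierstrassCurve K) (x : K) :
    4 * Phi2 W x ^ 3 + W.b₂ * Phi2 W x ^ 2 * Psi2 W x + 2 * W.b₄ * Phi2 W x * Psi2 W x ^ 2
      + W.b₆ * Psi2 W x ^ 3 = pre4 W x ^ 2 := by
  have hrel := W.b_relation
  simp only [Psi2, Phi2, pre4]
  linear_combination
    (-W.b₂^2*x^6 - 6*W.b₂*W.b₄*x^5 - 7*W.b₂*W.b₆*x^4 - 4*W.b₂*W.b₈*x^3 - 8*W.b₂*x^7
      - 8*W.b₄^2*x^4 - 16*W.b₄*W.b₆*x^3 - 8*W.b₄*W.b₈*x^2 - 28*W.b₄*x^6 - 7*W.b₆^2*x^2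
      - 6*W.b₆*W.b₈*x - 38*W.b₆*x^5 - W.b₈^2 - 22*W.b₈*x^4 - 13*x^8) * hrel

/-- `Phi2 (D x) - x * Psi2 (D x)`, cleared of denominators, is `-psi5 x * psi3 x`. -/
lemma Phi2_dup (W : WeierstrassCurve K) (x : K) :
    Phi2 W x ^ 4 - W.b₄ * Phi2 W x ^ 2 * Psi2 W x ^ 2 - 2 * W.b₆ * Phi2 W x * Psi2 W x ^ 3
      - W.b₈ * Psi2 W x ^ 4 - x * pre4 W x ^ 2 * Psi2 W x
      = -(pre4 W x * Psi2 W x ^ 2 - psi3 W x ^ 3) * psi3 W x := by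
  have hrel := W.b_relation
  simp only [Psi2, Phi2, pre4, psi3]
  linear_combination
    (-W.b₂^2*W.b₄*x^8 - 3*W.b₂^2*W.b₆*x^7 - 3*W.b₂^2*W.b₈*x^6 - W.b₂^2*x^10 - 4*W.b₂*W.b₄^2*x^7
      - 14*W.b₂*W.b₄*W.b₆*x^6 - 12*W.b₂*W.b₄*W.b₈*x^5 - 16*W.b₂*W.b₄*x^9 - 7*W.b₂*W.b₆^2*x^5
      - 8*W.b₂*W.b₆*W.b₈*x^4 - 36*W.b₂*W.b₆*x^8 - W.b₂*W.b₈^2*x^3 - 30*W.b₂*W.b₈*x^7
      - 5*W.b₂*x^11 - 4*W.b₄^3*x^6 - 16*W.b₄^2*W.b₆*x^5 - 12*W.b₄^2*W.b₈*x^4 - 28*W.b₄^2*x^8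
      - 15*W.b₄*W.b₆^2*x^4 - 16*W.b₄*W.b₆*W.b₈*x^3 - 84*W.b₄*W.b₆*x^7 - 2*W.b₄*W.b₈^2*x^2
      - 60*W.b₄*W.b₈*x^6 - 42*W.b₄*x^10 - 4*W.b₆^3*x^3 - 5*W.b₆^2*W.b₈*x^2 - 39*W.b₆^2*x^6
      - W.b₆*W.b₈^2*x - 38*W.b₆*W.b₈*x^5 - 93*W.b₆*x^9 - 4*W.b₈^2*x^4 - 72*W.b₈*x^8
      - 4*x^12) * hrel


lemma eval_Ψ₃_eq (W : WeierstrassCurve K) (x : K) : W.Ψ₃.eval x = psi3 W x := by
  simp [WeierstrassCurve.Ψ₃, psi3]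

lemma eval_Ψ₂Sq_eq (W : WeierstrassCurve K) (x : K) : W.Ψ₂Sq.eval x = Psi2 W x := by
  simp [WeierstrassCurve.Ψ₂Sq, Psi2]

lemma eval_preΨ₄_eq (W : WeierstrassCurve K) (x : K) : W.preΨ₄.eval x = pre4 W x := by
  simp [WeierstrassCurve.preΨ₄, pre4]

lemma preΨ'_five (W : WeierstrassCurve K) :
    W.preΨ' 5 = W.preΨ₄ * W.Ψ₂Sq ^ 2 - W.Ψ₃ ^ 3 := by
  have h := W.preΨ'_odd 0
  simpa using h

/-- Over an algebraically closed field of characteristic `≠ 3`, the 3-division polynomial has a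
root, which is automatically not a 2-torsion abscissa. -/
theorem exists_root_psi3_alg [IsAlgClosed K] (W : WeierstrassCurve K) (hΔ : W.Δ ≠ 0)
    (h3 : (3 : K) ≠ 0) : ∃ x : K, psi3 W x = 0 ∧ Psi2 W x ≠ 0 := by
  have hdeg : W.Ψ₃.degree ≠ 0 := by
    rw [Polynomial.degree_eq_natDegree (W.Ψ₃_ne_zero h3), W.natDegree_Ψ₃ h3]
    norm_num
  obtain ⟨x, hx⟩ := IsAlgClosed.exists_root W.Ψ₃ hdeg
  have hx' : psi3 W x = 0 := by rw [← eval_Ψ₃_eq]; exact hx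
  exact ⟨x, hx', Psi2_ne_zero_of_psi3 W hΔ hx'⟩

/-- Over an algebraically closed field of characteristic `≠ 5`, the x-coordinate duplication map
of an elliptic curve has a genuine 2-cycle `x1 ↦ x2 ↦ x1`, `x1 ≠ x2`, avoiding 2-torsion abscissae. -/
theorem exists_two_cycle [IsAlgClosed K] (W : WeierstrassCurve K) (hΔ : W.Δ ≠ 0)
    (h5 : (5 : K) ≠ 0) :
    ∃ x1 x2 : K, x1 ≠ x2 ∧ x2 * Psi2 W x1 = Phi2 W x1 ∧ x1 * Psi2 W x2 = Phi2 W x2 ∧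
      Psi2 W x1 ≠ 0 ∧ Psi2 W x2 ≠ 0 := by
  have h5' : ((5 : ℕ) : K) ≠ 0 := by exact_mod_cast h5
  have hne : W.preΨ' 5 ≠ 0 := W.preΨ'_ne_zero h5'
  have hdeg : (W.preΨ' 5).degree ≠ 0 := by
    rw [Polynomial.degree_eq_natDegree hne, W.natDegree_preΨ' h5']
    norm_num
  obtain ⟨x1, hx1⟩ := IsAlgClosed.exists_root (W.preΨ' 5) hdeg
  have hroot : pre4 W x1 * Psi2 W x1 ^ 2 - psi3 W x1 ^ 3 = 0 := by
    have := hx1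
    rw [Polynomial.IsRoot.def, preΨ'_five] at this
    simpa [eval_Ψ₃_eq, eval_Ψ₂Sq_eq, eval_preΨ₄_eq] using this
  -- nonvanishing of Psi2, psi3, pre4 at x1
  have hpsi3 : psi3 W x1 ≠ 0 := by
    intro h0
    rw [h0] at hroot
    have : pre4 W x1 * Psi2 W x1 ^ 2 = 0 := by linear_combination hroot
    rcases mul_eq_zero.mp this with h | h
    · exact hΔ (Delta_eq_zero_of_pre4_psi3 W h h0)
    · exact hΔ (Delta_eq_zero_of_Psi2_psi3 W (pow_eq_zero_iff (n := 2) (by norm_num) |>.mp h) h0)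
  have hPsi2 : Psi2 W x1 ≠ 0 := by
    intro h0
    rw [h0] at hroot
    have : psi3 W x1 ^ 3 = 0 := by linear_combination -hroot
    exact hpsi3 (pow_eq_zero_iff (n := 3) (by norm_num) |>.mp this)
  have hpre4 : pre4 W x1 ≠ 0 := by
    intro h0
    rw [h0] at hroot
    have : psi3 W x1 ^ 3 = 0 := by linear_combination -hroot
    exact hpsi3 (pow_eq_zero_iff (n := 3) (by norm_num) |>.mp this)
  refine ⟨x1, Phi2 W x1 / Psi2 W x1, ?_, ?_, ?_, hPsi2, ?_⟩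
  · -- x1 ≠ x2 since psi3 x1 = x1 * Psi2 x1 - Phi2 x1 ≠ 0
    intro h
    apply hpsi3
    rw [psi3_eq]
    have : x1 * Psi2 W x1 = Phi2 W x1 := (eq_div_iff hPsi2).mp h
    linear_combination this
  · field_simp
  · -- x1 * Psi2 x2 = Phi2 x2
    have hI1 := Psi2_dup W x1
    have hI2 := Phi2_dup W x1
    have key : (x1 * Psi2 W (Phi2 W x1 / Psi2 W x1) - Phi2 W (Phi2 W x1 / Psi2 W x1))
        * Psi2 W x1 ^ 4 = 0 := by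
      have e1 : Psi2 W (Phi2 W x1 / Psi2 W x1) * Psi2 W x1 ^ 3
          = 4 * Phi2 W x1 ^ 3 + W.b₂ * Phi2 W x1 ^ 2 * Psi2 W x1
            + 2 * W.b₄ * Phi2 W x1 * Psi2 W x1 ^ 2 + W.b₆ * Psi2 W x1 ^ 3 := by
        conv_lhs => rw [Psi2]
        field_simp
      have e2 : Phi2 W (Phi2 W x1 / Psi2 W x1) * Psi2 W x1 ^ 4
          = Phi2 W x1 ^ 4 - W.b₄ * Phi2 W x1 ^ 2 * Psi2 W x1 ^ 2
            - 2 * W.b₆ * Phi2 W x1 * Psi2 W x1 ^ 3 - W.b₈ * Psi2 W x1 ^ 4 := by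
        conv_lhs => rw [Phi2]
        field_simp
      linear_combination (x1 * Psi2 W x1) * e1 - e2 + (x1 * Psi2 W x1) * hI1 - hI2
        + psi3 W x1 * hroot
    rcases mul_eq_zero.mp key with h | h
    · linear_combination h
    · exact absurd (pow_eq_zero_iff (n := 4) (by norm_num) |>.mp h) hPsi2
  · -- Psi2 x2 ≠ 0
    intro h0
    have hI1 := Psi2_dup W x1
    have e1 : Psi2 W (Phi2 W x1 / Psi2 W x1) * Psi2 W x1 ^ 3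
        = 4 * Phi2 W x1 ^ 3 + W.b₂ * Phi2 W x1 ^ 2 * Psi2 W x1
          + 2 * W.b₄ * Phi2 W x1 * Psi2 W x1 ^ 2 + W.b₆ * Psi2 W x1 ^ 3 := by
      conv_lhs => rw [Psi2]
      field_simp
    rw [h0, zero_mul] at e1
    have : pre4 W x1 ^ 2 = 0 := by rw [← hI1]; exact e1.symm
    exact hpre4 (pow_eq_zero_iff (n := 2) (by norm_num) |>.mp this)

end Fermat.Agent.S51
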