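import Mathlib
import Fermat.Statements.S51
import Fermat.Agent.S51.Basic
import Fermat.Agent.S51.FiveAlg
import Fermat.Agent.S51.Three

/-!
Finiteness and a cardinality bound for the `5`-torsion of an elliptic curve: the `x`-coordinate of
a nonzero `5`-torsion point is a root of the nonzero polynomial `Ψ₃ * preΨ' 5` of degree `16`.
-/

set_option autoImplicit false

namespace Fermat.Agent.S51.FiveCard

open WeierstrassCurve WeierstrassCurve.Affine Polynomial
open Fermat.Agent.S51.Three (coords coords_injective yPoly natDegree_yPoly yPoly_ne_zero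
  equation_iff_yPoly)

section Generic

variable {F : Type*} [Field F] [DecidableEq F] (W : Affine F)

/-- Candidate coordinates of points whose `x`-coordinate is a root of `Q`. -/
noncomputable def cand (Q : F[X]) : Finset (F × F) :=
  Q.roots.toFinset.biUnion fun x => (yPoly W x).roots.toFinset.image (Prod.mk x)

theorem card_cand_le (Q : F[X]) : (cand W Q).card ≤ Q.natDegree * 2 := by
  calc (cand W Q).card ≤ ∑ x ∈ Q.roots.toFinset,
        ((yPoly W x).roots.toFinset.image (Prod.mk x)).card := Finset.card_biUnion_le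
    _ ≤ ∑ _x ∈ Q.roots.toFinset, 2 := by
        refine Finset.sum_le_sum fun x _ => ?_
        calc _ ≤ (yPoly W x).roots.toFinset.card := Finset.card_image_le
          _ ≤ Multiset.card (yPoly W x).roots := Multiset.toFinset_card_le _
          _ ≤ (yPoly W x).natDegree := Polynomial.card_roots' _
          _ = 2 := natDegree_yPoly W x
    _ = Q.roots.toFinset.card * 2 := by rw [Finset.sum_const, smul_eq_mul]
    _ ≤ Q.natDegree * 2 := by
        refine Nat.mul_le_mul_right 2 ?_
        calc _ ≤ Multiset.card Q.roots := Multiset.toFinset_card_le _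
          _ ≤ Q.natDegree := Polynomial.card_roots' _

theorem coords_mem_cand {Q : F[X]} (hQ : Q ≠ 0) {S : Set W.Point}
    (hroot : ∀ (x y : F) (h : W.Nonsingular x y), (Point.some x y h : W.Point) ∈ S → Q.IsRoot x)
    (P : W.Point) (hP : P ∈ S) : coords P ∈ insert none ((cand W Q).image some) := by
  rcases P with _ | ⟨x, y, h⟩
  · simp [coords]
  · have h3 := hroot x y h hP
    simp only [coords, Finset.mem_insert, reduceCtorEq, Finset.mem_image, Option.some.injEq,
      exists_eq_right, false_or, cand, Finset.mem_biUnion, Multiset.mem_toFinset]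
    refine ⟨x, ?_, y, ?_, rfl⟩
    · rw [mem_roots hQ]
      exact h3
    · rw [mem_roots (yPoly_ne_zero W x)]
      exact (equation_iff_yPoly W x y).mp h.1

/-- A set of points whose affine members have `x`-coordinate among the roots of a nonzero
polynomial `Q` is finite, of cardinality at most `2 * deg Q + 1`. -/
theorem finite_and_card_le_of_roots {Q : F[X]} (hQ : Q ≠ 0) (S : Set W.Point)
    (hroot : ∀ (x y : F) (h : W.Nonsingular x y), (Point.some x y h : W.Point) ∈ S → Q.IsRoot x) :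
    Finite S ∧ Nat.card S ≤ Q.natDegree * 2 + 1 := by
  classical
  let g : S → ↥(insert none ((cand W Q).image some)) :=
    fun P => ⟨coords P.1, coords_mem_cand W hQ hroot P.1 P.2⟩
  have hg : Function.Injective g := by
    intro P R h
    apply Subtype.ext
    apply coords_injective
    exact congrArg Subtype.val h
  refine ⟨Finite.of_injective g hg, ?_⟩
  calc Nat.card S
      ≤ Nat.card ↥(insert none ((cand W Q).image some)) := Nat.card_le_card_of_injective g hg
    _ = (insert none ((cand W Q).image some)).card := Nat.card_eq_finsetCard _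
    _ ≤ ((cand W Q).image some).card + 1 := Finset.card_insert_le _ _
    _ ≤ (cand W Q).card + 1 := Nat.add_le_add_right Finset.card_image_le 1
    _ ≤ Q.natDegree * 2 + 1 := Nat.add_le_add_right (card_cand_le W Q) 1

theorem five_zsmul_eq {A : Type*} [AddCommGroup A] (a : A) :
    (5 : ℤ) • a = ((a + a) + (a + a)) + a := by
  rw [show (5 : ℤ) = 1 + 1 + 1 + 1 + 1 by norm_num]
  simp only [add_zsmul, one_zsmul]
  abel

/-- The `x`-coordinate of a nonzero `5`-torsion point is a root of `ψ₃ * ψ₅`. -/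
theorem psi3_mul_psi5_eq_zero_of_five_zsmul {x y : F} (h : W.Nonsingular x y)
    (h5 : (5 : ℤ) • (Point.some x y h : W.Point) = 0) :
    psi3 W x * (pre4 W x * Psi2 W x ^ 2 - psi3 W x ^ 3) = 0 := by
  set P : W.Point := Point.some x y h with hPdef
  have hP0 : P ≠ 0 := Point.some_ne_zero _
  have hxP : xCoord W P = x := rfl
  have h5' : ((P + P) + (P + P)) + P = 0 := by
    rw [← five_zsmul_eq]; exact h5
  have h2P0 : P + P ≠ 0 := by
    intro h0
    rw [h0, add_zero, zero_add] at h5'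
    exact hP0 h5'
  have h4P0 : (P + P) + (P + P) ≠ 0 := by
    intro h0
    rw [h0, zero_add] at h5'
    exact hP0 h5'
  obtain ⟨hd1, hx2P⟩ := xCoord_add_self W hP0 h2P0
  obtain ⟨hd2, hx4P⟩ := xCoord_add_self W h2P0 h4P0
  have h4 : (P + P) + (P + P) = -P := eq_neg_of_add_eq_zero_left h5'
  rw [h4, xCoord_neg, hx2P, hxP] at hx4P
  rw [hx2P, hxP] at hd2
  rw [hxP] at hd1
  -- now pure algebra
  have hΨ : Psi2 W x ≠ 0 := hd1
  have hΨ2 : Psi2 W (Phi2 W x / Psi2 W x) ≠ 0 := hd2
  have hcyc : x * Psi2 W (Phi2 W x / Psi2 W x) = Phi2 W (Phi2 W x / Psi2 W x) := by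
    have : x = Phi2 W (Phi2 W x / Psi2 W x) / Psi2 W (Phi2 W x / Psi2 W x) := hx4P
    rw [eq_div_iff hΨ2] at this
    exact this
  have hI1 := Psi2_dup W x
  have hI2 := Phi2_dup W x
  have e1 : Psi2 W (Phi2 W x / Psi2 W x) * Psi2 W x ^ 3
      = 4 * Phi2 W x ^ 3 + W.b₂ * Phi2 W x ^ 2 * Psi2 W x
        + 2 * W.b₄ * Phi2 W x * Psi2 W x ^ 2 + W.b₆ * Psi2 W x ^ 3 := by
    conv_lhs => rw [Psi2]
    field_simp
  have e2 : Phi2 W (Phi2 W x / Psi2 W x) * Psi2 W x ^ 4
      = Phi2 W x ^ 4 - W.b₄ * Phi2 W x ^ 2 * Psi2 W x ^ 2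
        - 2 * W.b₆ * Phi2 W x * Psi2 W x ^ 3 - W.b₈ * Psi2 W x ^ 4 := by
    conv_lhs => rw [Phi2]
    field_simp
  linear_combination (Psi2 W x ^ 4) * hcyc - (x * Psi2 W x) * e1 + e2 - (x * Psi2 W x) * hI1
    + hI2

/-- The polynomial `Ψ₃ * preΨ' 5` of degree `16`. -/
noncomputable def psiPoly : F[X] := W.Ψ₃ * W.preΨ' 5

theorem psiPoly_ne_zero (h3 : (3 : F) ≠ 0) (h5 : (5 : F) ≠ 0) : psiPoly W ≠ 0 := by
  have h5' : ((5 : ℕ) : F) ≠ 0 := by exact_mod_cast h5
  exact mul_ne_zero (W.Ψ₃_ne_zero h3) (W.preΨ'_ne_zero h5')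

theorem natDegree_psiPoly_le (h3 : (3 : F) ≠ 0) (h5 : (5 : F) ≠ 0) :
    (psiPoly W).natDegree ≤ 16 := by
  have h5' : ((5 : ℕ) : F) ≠ 0 := by exact_mod_cast h5
  calc (psiPoly W).natDegree ≤ W.Ψ₃.natDegree + (W.preΨ' 5).natDegree := natDegree_mul_le
    _ = 4 + 12 := by rw [W.natDegree_Ψ₃ h3, W.natDegree_preΨ' h5']; norm_num
    _ = 16 := by norm_num

theorem eval_psiPoly (x : F) :
    (psiPoly W).eval x = psi3 W x * (pre4 W x * Psi2 W x ^ 2 - psi3 W x ^ 3) := by
  rw [psiPoly, eval_mul, preΨ'_five]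
  simp [eval_Ψ₃_eq, eval_Ψ₂Sq_eq, eval_preΨ₄_eq]

theorem finite_and_card_torsion_five_le (h3 : (3 : F) ≠ 0) (h5 : (5 : F) ≠ 0) :
    Finite (Submodule.torsionBy ℤ W.Point (5 : ℤ)) ∧
      Nat.card (Submodule.torsionBy ℤ W.Point (5 : ℤ)) ≤ 33 := by
  have key := finite_and_card_le_of_roots W (psiPoly_ne_zero W h3 h5)
    (Submodule.torsionBy ℤ W.Point (5 : ℤ) : Set W.Point) (by
      intro x y h hmem
      rw [IsRoot, eval_psiPoly]
      exact psi3_mul_psi5_eq_zero_of_five_zsmul W h
        ((Submodule.mem_torsionBy_iff _ _).mp hmem))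
  refine ⟨key.1, key.2.trans ?_⟩
  have := natDegree_psiPoly_le W h3 h5
  omega

end Generic

section Concrete

/-- `E[5]` over `ℚ̄` is finite. -/
theorem finite_torsion_five (E : Affine ℚ) :
    Finite (Submodule.torsionBy ℤ (E⁄(AlgebraicClosure ℚ)).Point ((5 : ℕ) : ℤ)) :=
  (finite_and_card_torsion_five_le (E⁄(AlgebraicClosure ℚ)) (by norm_num) (by norm_num)).1

/-- `E[5]` over `ℚ̄` has fewer than `5 ^ 3` elements. -/
theorem card_torsion_five_lt (E : Affine ℚ) :
    Nat.card (Submodule.torsionBy ℤ (E⁄(AlgebraicClosure ℚ)).Point ((5 : ℕ) : ℤ)) < 5 ^ 3 :=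
  lt_of_le_of_lt
    (finite_and_card_torsion_five_le (E⁄(AlgebraicClosure ℚ)) (by norm_num) (by norm_num)).2
    (by norm_num)

end Concrete

end Fermat.Agent.S51.FiveCard
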