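import Mathlib
import Fermat.Statements.S51
import Fermat.Agent.S51.Basic
import Fermat.Agent.S51.FiveAlg

/-!
Existence of a nonzero `5`-torsion point on an elliptic curve over an algebraically closed field
(from a genuine `2`-cycle of the duplication map on `x`-coordinates), and nontriviality of
`E[5]` over `ℚ̄`.
-/

set_option autoImplicit false

namespace Fermat.Agent.S51.FiveExists

open WeierstrassCurve WeierstrassCurve.Affine

section Generic

variable {F : Type*} [Field F] [DecidableEq F]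

theorem four_add_eq {A : Type*} [AddCommGroup A] (a : A) :
    (5 : ℤ) • a = ((a + a) + (a + a)) + a := by
  rw [show (5 : ℤ) = 1 + 1 + 1 + 1 + 1 by norm_num]
  simp only [add_zsmul, one_zsmul]
  abel

/-- A genuine `2`-cycle `x1 ↦ x2 ↦ x1` of the duplication map gives a nonzero `5`-torsion point
above `x1`. -/
theorem five_zsmul_eq_zero_of_cycle (W : Affine F) {x1 x2 y1 : F}
    (hns : W.Nonsingular x1 y1) (hne : x1 ≠ x2)
    (h1 : x2 * Psi2 W x1 = Phi2 W x1) (h2 : x1 * Psi2 W x2 = Phi2 W x2)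
    (hP1 : Psi2 W x1 ≠ 0) (hP2 : Psi2 W x2 ≠ 0) :
    (5 : ℤ) • (Point.some x1 y1 hns : W.Point) = 0 := by
  set P : W.Point := Point.some x1 y1 hns with hPdef
  have hP0 : P ≠ 0 := Point.some_ne_zero _
  have hxP : xCoord W P = x1 := rfl
  have h2P0 : P + P ≠ 0 := by
    intro h
    apply hP1
    have := (add_self_eq_zero_iff_dupDen W hP0).mp h
    rw [hxP] at this
    exact this
  obtain ⟨-, hx2P⟩ := xCoord_add_self W hP0 h2P0
  have hx2 : xCoord W (P + P) = x2 := by
    rw [hx2P, hxP]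
    show Phi2 W x1 / Psi2 W x1 = x2
    rw [← h1]
    field_simp
  have h4P0 : (P + P) + (P + P) ≠ 0 := by
    intro h
    apply hP2
    have := (add_self_eq_zero_iff_dupDen W h2P0).mp h
    rw [hx2] at this
    exact this
  obtain ⟨-, hx4P⟩ := xCoord_add_self W h2P0 h4P0
  have hx4 : xCoord W ((P + P) + (P + P)) = x1 := by
    rw [hx4P, hx2]
    show Phi2 W x2 / Psi2 W x2 = x1
    rw [← h2]
    field_simp
  rcases eq_or_eq_neg_of_xCoord_eq W hP0 h4P0 (hxP.trans hx4.symm) with h | h
  · exfalso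
    have h3 : P + P = -P := by
      have h' : (P + P) + (P + P) - P = 0 := by rw [h, sub_self]
      have : (P + P) + P = 0 := by rw [← h']; abel
      exact eq_neg_of_add_eq_zero_left this
    apply hne
    rw [← hx2, h3, xCoord_neg, hxP]
  · rw [four_add_eq, h, neg_add_cancel]

/-- Over an algebraically closed field of characteristic not `2` or `5`, an elliptic curve has a
nonzero `5`-torsion point. -/
theorem exists_five_torsion [IsAlgClosed F] (W : Affine F) (hΔ : W.Δ ≠ 0) (h2 : (2 : F) ≠ 0)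
    (h5 : (5 : F) ≠ 0) : ∃ P : W.Point, P ≠ 0 ∧ (5 : ℤ) • P = 0 := by
  obtain ⟨x1, x2, hne, h1, h2', hP1, hP2⟩ := exists_two_cycle W hΔ h5
  obtain ⟨y1, hy1⟩ := exists_equation W h2 x1
  have hns : W.Nonsingular x1 y1 := (equation_iff_nonsingular_of_Δ_ne_zero hΔ).mp hy1
  exact ⟨Point.some x1 y1 hns, Point.some_ne_zero _,
    five_zsmul_eq_zero_of_cycle W hns hne h1 h2' hP1 hP2⟩

end Generic

section Concrete

/-- `E[5]` is nontrivial over `ℚ̄`. -/
theorem nontrivial_torsion_five (E : Affine ℚ) (hΔ : E.Δ ≠ 0) :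
    Nontrivial (Submodule.torsionBy ℤ (E⁄(AlgebraicClosure ℚ)).Point ((5 : ℕ) : ℤ)) := by
  have hΔ' := baseChange_Δ_ne_zero E hΔ
  obtain ⟨P, hP0, hP5⟩ := exists_five_torsion (E⁄(AlgebraicClosure ℚ)) hΔ' (by norm_num)
    (by norm_num)
  refine ⟨⟨⟨P, (Submodule.mem_torsionBy_iff _ _).mpr hP5⟩, 0, ?_⟩⟩
  intro h
  exact hP0 (congrArg Subtype.val h)

end Concrete

end Fermat.Agent.S51.FiveExists
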