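import Mathlib
import Fermat.Statements.S51
import Fermat.Agent.S51.Basic
import Fermat.Agent.S51.FiveBridge
import Fermat.Agent.S51.FiveExists
import Fermat.Agent.S51.FiveCard

/-!
A Galois-stable line in `E[5]` gives a rational kernel polynomial `X^2 - s1 X + s2`, whose roots
form a genuine 2-cycle of the duplication map on x-coordinates.
-/

set_option autoImplicit false

namespace Fermat.Agent.S51.FiveStable

open WeierstrassCurve WeierstrassCurve.Affine WeierstrassCurve.Affine.Point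
open Fermat.Agent.S51

local notation "Qb" => AlgebraicClosure ℚ

instance fact_prime_five : Fact (Nat.Prime 5) := ⟨by norm_num⟩

section Group

variable {A : Type*} [AddCommGroup A]

lemma grp_q_ne_zero {p : A} (h5 : ((p + p) + (p + p)) + p = 0) (hp : p ≠ 0) : p + p ≠ 0 := by
  intro h
  apply hp
  rw [h, add_zero, zero_add] at h5
  exact h5

lemma grp_qq_eq {p : A} (h5 : ((p + p) + (p + p)) + p = 0) : (p + p) + (p + p) = -p :=
  eq_neg_of_add_eq_zero_left h5

lemma grp_qq_ne_zero {p : A} (h5 : ((p + p) + (p + p)) + p = 0) (hp : p ≠ 0) :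
    (p + p) + (p + p) ≠ 0 := by
  rw [grp_qq_eq h5]
  exact neg_ne_zero.mpr hp

lemma grp_q_ne_p {p : A} (hp : p ≠ 0) : p + p ≠ p := by
  intro h
  apply hp
  have : p + p = p + 0 := by rw [add_zero]; exact h
  exact add_left_cancel this

lemma grp_q_ne_neg_p {p : A} (h5 : ((p + p) + (p + p)) + p = 0) (hp : p ≠ 0) : p + p ≠ -p := by
  intro h
  apply hp
  have h4 := grp_qq_eq h5
  rw [h] at h4
  -- -p + -p = -p  ⟹  -p = 0
  have : -p + -p = -p + 0 := by rw [add_zero]; exact h4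
  have h0 : -p = 0 := add_left_cancel this
  exact neg_eq_zero.mp h0

end Group

variable (E : Affine ℚ)

lemma coe_zmod_smul (P : Submodule.torsionBy ℤ (E⁄Qb).Point ((5 : ℕ) : ℤ)) (c : ZMod 5) :
    ((c • P : Submodule.torsionBy ℤ (E⁄Qb).Point ((5 : ℕ) : ℤ)) : (E⁄Qb).Point)
      = c.val • (P : (E⁄Qb).Point) := by
  have h1 : c • P = c.val • P := by
    conv_lhs => rw [← ZMod.natCast_zmod_val c]
    exact Nat.cast_smul_eq_nsmul (ZMod 5) c.val P
  rw [h1]
  rfl

/-- A Galois-stable proper nonzero submodule of `E[5]` produces a genuine 2-cycle of the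
duplication map with rational elementary symmetric functions. -/
theorem exists_cycle_of_stable (hΔ : E.Δ ≠ 0)
    (N : Submodule (ZMod 5) (Submodule.torsionBy ℤ (E⁄Qb).Point ((5 : ℕ) : ℤ)))
    (hN : IsGaloisStable ℚ N) (hbot : N ≠ ⊥) (htop : N ≠ ⊤) :
    ∃ x1 x2 : Qb, x1 ≠ x2 ∧
      x2 * dupDen (E⁄Qb) x1 = dupNum (E⁄Qb) x1 ∧ x1 * dupDen (E⁄Qb) x2 = dupNum (E⁄Qb) x2 ∧
      dupDen (E⁄Qb) x1 ≠ 0 ∧ dupDen (E⁄Qb) x2 ≠ 0 ∧
      (∃ s1 : ℚ, algebraMap ℚ Qb s1 = x1 + x2) ∧ (∃ s2 : ℚ, algebraMap ℚ Qb s2 = x1 * x2) := by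
  classical
  have hfin : Finite (Submodule.torsionBy ℤ (E⁄Qb).Point ((5 : ℕ) : ℤ)) :=
    FiveCard.finite_torsion_five E
  have hcard := FiveCard.card_torsion_five_lt E
  obtain ⟨P, hPN, hP0⟩ := Submodule.exists_mem_ne_zero_of_ne_bot hbot
  have hline := exists_smul_eq_of_mem_of_card_lt hcard N hbot htop hPN hP0
  -- the underlying point
  obtain ⟨p, hp⟩ : ∃ p : (E⁄Qb).Point, p = (P : (E⁄Qb).Point) := ⟨_, rfl⟩
  have hp0 : p ≠ 0 := by
    intro h
    apply hP0
    apply Subtype.ext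
    rw [← hp, h]
    rfl
  have h5z : ((5 : ℕ) : ℤ) • p = 0 := by
    rw [hp]; exact (Submodule.mem_torsionBy_iff _ _).mp P.2
  have h5 : ((p + p) + (p + p)) + p = 0 := by
    rw [← FiveCard.five_zsmul_eq]; exact_mod_cast h5z
  have hq0 : p + p ≠ 0 := grp_q_ne_zero h5 hp0
  have hqq : (p + p) + (p + p) = -p := grp_qq_eq h5
  have hqq0 : (p + p) + (p + p) ≠ 0 := grp_qq_ne_zero h5 hp0
  obtain ⟨hd1, hx2⟩ := xCoord_add_self (E⁄Qb) hp0 hq0
  obtain ⟨hd2, hx4⟩ := xCoord_add_self (E⁄Qb) hq0 hqq0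
  rw [hqq, xCoord_neg] at hx4
  have hne : xCoord (E⁄Qb) p ≠ xCoord (E⁄Qb) (p + p) := by
    intro h
    rcases eq_or_eq_neg_of_xCoord_eq (E⁄Qb) hp0 hq0 h with h' | h'
    · exact grp_q_ne_p hp0 h'
    · exact grp_q_ne_neg_p h5 hp0 h'
  -- Galois action on the two abscissae
  have hgal : ∀ σ : Qb ≃ₐ[ℚ] Qb,
      (σ (xCoord (E⁄Qb) p) = xCoord (E⁄Qb) p ∧ σ (xCoord (E⁄Qb) (p + p)) = xCoord (E⁄Qb) (p + p)) ∨
      (σ (xCoord (E⁄Qb) p) = xCoord (E⁄Qb) (p + p) ∧ σ (xCoord (E⁄Qb) (p + p)) = xCoord (E⁄Qb) p) := by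
    intro σ
    have hσP : σ • P ∈ N := hN σ P hPN
    obtain ⟨c, hc⟩ := hline (σ • P) hσP
    have hc' : σ • p = c.val • p := by
      have := congrArg (Subtype.val : _ → (E⁄Qb).Point) hc
      rw [coe_zmod_smul] at this
      rw [hp]
      exact this
    have hσq : σ • (p + p) = σ • p + σ • p := smul_add σ p p
    have hx1 : xCoord (E⁄Qb) (σ • p) = σ (xCoord (E⁄Qb) p) := xCoord_smul E σ p hp0
    have hxq : xCoord (E⁄Qb) (σ • (p + p)) = σ (xCoord (E⁄Qb) (p + p)) :=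
      xCoord_smul E σ (p + p) hq0
    obtain ⟨n, hn⟩ : ∃ n : ℕ, n = c.val := ⟨_, rfl⟩
    have hn5 : n < 5 := hn ▸ ZMod.val_lt c
    rw [← hn] at hc'
    interval_cases n
    · -- σ • p = 0: impossible
      exfalso
      rw [zero_nsmul] at hc'
      exact hp0 ((smul_point_eq_zero_iff E σ p).mp hc')
    · -- σ • p = p
      left
      rw [one_nsmul] at hc'
      rw [hc'] at hσq hx1
      rw [hσq] at hxq
      exact ⟨hx1.symm, hxq.symm⟩
    · -- σ • p = p + p
      right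
      rw [two_nsmul] at hc'
      rw [hc'] at hσq hx1
      rw [hσq, hqq, xCoord_neg] at hxq
      exact ⟨hx1.symm, hxq.symm⟩
    · -- σ • p = 3 p = -(p + p)
      right
      have h3 : (3 : ℕ) • p = -(p + p) := by
        have : (3 : ℕ) • p + (p + p) = 0 := by
          rw [← h5]; simp only [succ_nsmul, zero_nsmul]; abel
        exact eq_neg_of_add_eq_zero_left this
      rw [h3] at hc'
      rw [hc'] at hσq hx1
      rw [xCoord_neg] at hx1
      have : -(p + p) + -(p + p) = p := by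
        rw [← neg_add, hqq, neg_neg]
      rw [hσq, this] at hxq
      exact ⟨hx1.symm, hxq.symm⟩
    · -- σ • p = 4 p = -p
      left
      have h4 : (4 : ℕ) • p = -p := by
        rw [← hqq]; simp only [succ_nsmul, zero_nsmul]; abel
      rw [h4] at hc'
      rw [hc'] at hσq hx1
      rw [xCoord_neg] at hx1
      have : -p + -p = -(p + p) := by rw [neg_add]
      rw [hσq, this, xCoord_neg] at hxq
      exact ⟨hx1.symm, hxq.symm⟩
  refine ⟨xCoord (E⁄Qb) p, xCoord (E⁄Qb) (p + p), hne, ?_, ?_, hd1, hd2, ?_, ?_⟩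
  · rw [hx2]; field_simp
  · rw [hx4]; field_simp
  · apply mem_range_of_fixed
    intro σ
    rw [map_add]
    rcases hgal σ with ⟨h1, h2⟩ | ⟨h1, h2⟩
    · rw [h1, h2]
    · rw [h1, h2, add_comm]
  · apply mem_range_of_fixed
    intro σ
    rw [map_mul]
    rcases hgal σ with ⟨h1, h2⟩ | ⟨h1, h2⟩
    · rw [h1, h2]
    · rw [h1, h2, mul_comm]

end Fermat.Agent.S51.FiveStable
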