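import Mathlib.AlgebraicGeometry.EllipticCurve.Weierstrass
import Mathlib.Tactic

/-!
Shared definitions for the S51 development (x-coordinate torsion calculus).
All polynomials are written in the b-invariants of a Weierstrass curve.
-/

set_option autoImplicit false

namespace Fermat.Agent.S51

variable {F : Type*} [CommRing F]

/-- The 3-division polynomial, evaluated at `x`. -/
def psi3 (W : WeierstrassCurve F) (x : F) : F :=
  3 * x ^ 4 + W.b₂ * x ^ 3 + 3 * W.b₄ * x ^ 2 + 3 * W.b₆ * x + W.b₈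

/-- The square of the 2-division polynomial, as a polynomial in `x`. -/
def Psi2 (W : WeierstrassCurve F) (x : F) : F :=
  4 * x ^ 3 + W.b₂ * x ^ 2 + 2 * W.b₄ * x + W.b₆

/-- The numerator of the x-coordinate duplication map. -/
def Phi2 (W : WeierstrassCurve F) (x : F) : F :=
  x ^ 4 - W.b₄ * x ^ 2 - 2 * W.b₆ * x - W.b₈

/-- First kernel-polynomial relation for a 2-cycle `{x1, x2}` of the duplication map,
in terms of `s1 = x1 + x2`, `s2 = x1 * x2`. -/
def r1 (W : WeierstrassCurve F) (s1 s2 : F) : F :=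
  -s1 ^ 3 + 6 * s1 * s2 + W.b₂ * s2 + W.b₄ * s1 + W.b₆

/-- Second kernel-polynomial relation for a 2-cycle `{x1, x2}` of the duplication map. -/
def r2 (W : WeierstrassCurve F) (s1 s2 : F) : F :=
  -s1 ^ 4 + 8 * s1 ^ 2 * s2 - 10 * s2 ^ 2 + W.b₂ * s1 * s2 + W.b₄ * s1 ^ 2 + 2 * W.b₄ * s2
    + 3 * W.b₆ * s1 + 2 * W.b₈

lemma psi3_eq (W : WeierstrassCurve F) (x : F) : psi3 W x = x * Psi2 W x - Phi2 W x := by
  simp only [psi3, Psi2, Phi2]; ring

/-- `h1 - h2 = (x1 - x2) * r1`. -/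
lemma cycle_sub (W : WeierstrassCurve F) (x1 x2 : F) :
    (x2 * Psi2 W x1 - Phi2 W x1) - (x1 * Psi2 W x2 - Phi2 W x2)
      = (x1 - x2) * r1 W (x1 + x2) (x1 * x2) := by
  simp only [r1, Psi2, Phi2]; ring

/-- `h1 + h2 = r2`. -/
lemma cycle_add (W : WeierstrassCurve F) (x1 x2 : F) :
    (x2 * Psi2 W x1 - Phi2 W x1) + (x1 * Psi2 W x2 - Phi2 W x2)
      = r2 W (x1 + x2) (x1 * x2) := by
  simp only [r2, Psi2, Phi2]; ring

/-- A 2-cycle of the duplication map with `x1 ≠ x2` satisfies both kernel relations. -/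
lemma r1_r2_of_cycle [IsDomain F] (W : WeierstrassCurve F) {x1 x2 : F} (hne : x1 ≠ x2)
    (h1 : x2 * Psi2 W x1 = Phi2 W x1) (h2 : x1 * Psi2 W x2 = Phi2 W x2) :
    r1 W (x1 + x2) (x1 * x2) = 0 ∧ r2 W (x1 + x2) (x1 * x2) = 0 := by
  constructor
  · have h := cycle_sub W x1 x2
    rw [h1, h2, sub_self, sub_self, sub_self] at h
    rcases mul_eq_zero.mp h.symm with h | h
    · exact absurd (sub_eq_zero.mp h) hne
    · exact h
  · have h := cycle_add W x1 x2
    rw [h1, h2, sub_self, sub_self, add_zero] at h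
    exact h.symm

end Fermat.Agent.S51
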