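import Mathlib
import Fermat.Statements.S51
import Fermat.Agent.S51.Basic
import Fermat.Agent.S51.FiveBridge
import Fermat.Agent.S51.FiveExists
import Fermat.Agent.S51.FiveCard

/-!
The `5`-torsion piece of S51: a Galois-stable line in `E[5]` gives a genuine `2`-cycle
`x1 ↦ x2 ↦ x1` of the duplication map on `x`-coordinates whose elementary symmetric functions
are rational, hence a rational "kernel polynomial" `X^2 - s1 X + s2`.
-/

set_option autoImplicit false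

namespace Fermat.Agent.S51.Five

open WeierstrassCurve WeierstrassCurve.Affine WeierstrassCurve.Affine.Point

local notation "Qb" => AlgebraicClosure ℚ

section Group

variable {A : Type*} [AddCommGroup A]

theorem five_zsmul_eq' (a : A) : (5 : ℤ) • a = ((a + a) + (a + a)) + a := by
  rw [show (5 : ℤ) = 1 + 1 + 1 + 1 + 1 by norm_num]
  simp only [add_zsmul, one_zsmul]
  abel

end Group

section Stable

variable (E : Affine ℚ)

/-- A Galois-stable proper nonzero submodule of `E[5]` produces a rational kernel polynomial. -/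
theorem exists_kernel_poly_of_stable
    (N : Submodule (ZMod 5) (Submodule.torsionBy ℤ (E⁄Qb).Point ((5 : ℕ) : ℤ)))
    (hN : IsGaloisStable ℚ N) (hbot : N ≠ ⊥) (htop : N ≠ ⊤) :
    ∃ s1 s2 : ℚ, r1 E s1 s2 = 0 ∧ r2 E s1 s2 = 0 ∧ s1 ^ 2 - 4 * s2 ≠ 0 ∧
      ∀ x : ℚ, psi3 E x = 0 → x ^ 2 - s1 * x + s2 ≠ 0 := by
  classical
  have h5c : ∀ c : ZMod 5, c = 0 ∨ c = 1 ∨ c = 2 ∨ c = 3 ∨ c = 4 := by decide
  have : Fact (Nat.Prime 5) := ⟨by norm_num⟩
  have hfin : Finite (Submodule.torsionBy ℤ (E⁄Qb).Point ((5 : ℕ) : ℤ)) :=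
    FiveCard.finite_torsion_five E
  have hcard : Nat.card (Submodule.torsionBy ℤ (E⁄Qb).Point ((5 : ℕ) : ℤ)) < 5 ^ 3 :=
    FiveCard.card_torsion_five_lt E
  obtain ⟨P, hPN, hP0⟩ := Submodule.exists_mem_ne_zero_of_ne_bot hbot
  have hline := exists_smul_eq_of_mem_of_card_lt hcard N hbot htop hPN hP0
  -- the underlying point
  set p : (E⁄Qb).Point := (P : (E⁄Qb).Point) with hp
  have hp0 : p ≠ 0 := fun h => hP0 (Subtype.ext h)
  have h5p : (5 : ℤ) • p = 0 := (Submodule.mem_torsionBy_iff _ _).mp P.2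
  have h5p' : ((p + p) + (p + p)) + p = 0 := by rw [← five_zsmul_eq']; exact h5p
  have h2p0 : p + p ≠ 0 := by
    intro h0
    rw [h0, add_zero, zero_add] at h5p'
    exact hp0 h5p'
  have h4p0 : (p + p) + (p + p) ≠ 0 := by
    intro h0
    rw [h0, zero_add] at h5p'
    exact hp0 h5p'
  have h4p : (p + p) + (p + p) = -p := eq_neg_of_add_eq_zero_left h5p'
  have h3p : (p + p) + p = -(p + p) := by
    apply eq_neg_of_add_eq_zero_left
    rw [← h5p']; abel
  obtain ⟨hd1, hx2⟩ := xCoord_add_self (E⁄Qb) hp0 h2p0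
  obtain ⟨hd2, hx4⟩ := xCoord_add_self (E⁄Qb) h2p0 h4p0
  rw [h4p, xCoord_neg] at hx4
  set x1 : Qb := xCoord (E⁄Qb) p with hx1def
  set x2 : Qb := xCoord (E⁄Qb) (p + p) with hx2def
  have hne : x1 ≠ x2 := by
    intro h
    rcases eq_or_eq_neg_of_xCoord_eq (E⁄Qb) hp0 h2p0 h with h' | h'
    · -- p + p = p
      exact hp0 (add_eq_left.mp h')
    · -- p + p = -p
      apply h2p0
      have e3 : (p + p) + p = 0 := by rw [h']; exact neg_add_cancel p
      have : p + p = ((p + p) + (p + p) + p) - ((p + p) + p) := by abel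
      rw [this, h5p', e3, sub_zero]
  have h1 : x2 * Psi2 (E.map (algebraMap ℚ Qb)) x1 = Phi2 (E.map (algebraMap ℚ Qb)) x1 := by
    have : x2 = dupNum (E⁄Qb) x1 / dupDen (E⁄Qb) x1 := hx2
    rw [eq_div_iff hd1] at this
    exact this
  have h2 : x1 * Psi2 (E.map (algebraMap ℚ Qb)) x2 = Phi2 (E.map (algebraMap ℚ Qb)) x2 := by
    have : x1 = dupNum (E⁄Qb) x2 / dupDen (E⁄Qb) x2 := hx4
    rw [eq_div_iff hd2] at this
    exact this
  have hP1 : Psi2 (E.map (algebraMap ℚ Qb)) x1 ≠ 0 := hd1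
  have hP2 : Psi2 (E.map (algebraMap ℚ Qb)) x2 ≠ 0 := hd2
  -- every nonzero element of `N` has `x`-coordinate `x1` or `x2`
  have hxN : ∀ Q ∈ N, (Q : (E⁄Qb).Point) ≠ 0 →
      xCoord (E⁄Qb) (Q : (E⁄Qb).Point) = x1 ∨ xCoord (E⁄Qb) (Q : (E⁄Qb).Point) = x2 := by
    intro Q hQ hQ0
    obtain ⟨c, hc⟩ := hline Q hQ
    have hnat : ∀ (n : ℕ) (c : ZMod 5), (n : ZMod 5) = c →
        ((c • P : Submodule.torsionBy ℤ (E⁄Qb).Point ((5 : ℕ) : ℤ)) : (E⁄Qb).Point) = n • p := by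
      intro n c hnc
      rw [← hnc, Nat.cast_smul_eq_nsmul (ZMod 5) n P]
      rfl
    rcases h5c c with rfl | rfl | rfl | rfl | rfl
    · exfalso
      apply hQ0
      rw [hc, zero_smul]
      rfl
    · left
      rw [hc, one_smul]
    · right
      have := hnat 2 2 Nat.cast_ofNat
      rw [hc, this, two_nsmul]
    · right
      have := hnat 3 3 Nat.cast_ofNat
      rw [hc, this, show (3 : ℕ) • p = (p + p) + p by rw [succ_nsmul, two_nsmul], h3p, xCoord_neg]
    · left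
      have := hnat 4 4 Nat.cast_ofNat
      rw [hc, this, show (4 : ℕ) • p = (p + p) + (p + p) by
        rw [show (4 : ℕ) = 2 + 2 by norm_num, add_nsmul, two_nsmul], h4p, xCoord_neg]
  -- Galois action on `x1`, `x2`
  have hPP : P + P ∈ N := N.add_mem hPN hPN
  have hσ : ∀ σ : Qb ≃ₐ[ℚ] Qb, (σ x1 = x1 ∨ σ x1 = x2) ∧ (σ x2 = x1 ∨ σ x2 = x2) := by
    intro σ
    constructor
    · have hmem : σ • P ∈ N := hN σ P hPN
      have h0 : ((σ • P : Submodule.torsionBy ℤ (E⁄Qb).Point ((5 : ℕ) : ℤ)) : (E⁄Qb).Point) ≠ 0 := by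
        rw [coe_smul_torsion]
        exact fun h => hp0 ((smul_point_eq_zero_iff E σ _).mp h)
      have := hxN _ hmem h0
      rw [coe_smul_torsion, xCoord_smul E σ _ hp0] at this
      exact this
    · have hmem : σ • (P + P) ∈ N := hN σ (P + P) hPP
      have hcoe : ((P + P : Submodule.torsionBy ℤ (E⁄Qb).Point ((5 : ℕ) : ℤ)) : (E⁄Qb).Point)
          = p + p := rfl
      have h0 : ((σ • (P + P) : Submodule.torsionBy ℤ (E⁄Qb).Point ((5 : ℕ) : ℤ)) :
          (E⁄Qb).Point) ≠ 0 := by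
        rw [coe_smul_torsion, hcoe]
        exact fun h => h2p0 ((smul_point_eq_zero_iff E σ _).mp h)
      have := hxN _ hmem h0
      rw [coe_smul_torsion, hcoe, xCoord_smul E σ _ h2p0] at this
      exact this
  have hσ' : ∀ σ : Qb ≃ₐ[ℚ] Qb, (σ x1 = x1 ∧ σ x2 = x2) ∨ (σ x1 = x2 ∧ σ x2 = x1) := by
    intro σ
    have hinj : σ x1 ≠ σ x2 := fun h => hne (σ.injective h)
    rcases hσ σ with ⟨ha | ha, hb | hb⟩
    · exact absurd (ha.trans hb.symm) hinj
    · exact Or.inl ⟨ha, hb⟩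
    · exact Or.inr ⟨ha, hb⟩
    · exact absurd (ha.trans hb.symm) hinj
  obtain ⟨s1, hs1⟩ := mem_range_of_fixed (x1 + x2) (by
    intro σ
    rw [map_add]
    rcases hσ' σ with ⟨ha, hb⟩ | ⟨ha, hb⟩
    · rw [ha, hb]
    · rw [ha, hb, add_comm])
  obtain ⟨s2, hs2⟩ := mem_range_of_fixed (x1 * x2) (by
    intro σ
    rw [map_mul]
    rcases hσ' σ with ⟨ha, hb⟩ | ⟨ha, hb⟩
    · rw [ha, hb]
    · rw [ha, hb, mul_comm])
  exact ⟨s1, s2, kernel_poly_of_cycle E x1 x2 hne h1 h2 hP1 hP2 s1 s2 hs1 hs2⟩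

end Stable

/-- Main export of the `5`-torsion analysis: if the mod-`5` representation is not irreducible,
then there is a rational kernel polynomial `X^2 - s1 X + s2` of a cyclic subgroup of order `5`. -/
theorem exists_kernel_poly (W : WeierstrassCurve ℤ) (hΔ : W.Δ ≠ 0)
    (h : ¬ W.ModRepIsIrreducible 5) :
    ∃ s1 s2 : ℚ, r1 (W.map (Int.castRingHom ℚ)) s1 s2 = 0 ∧
      r2 (W.map (Int.castRingHom ℚ)) s1 s2 = 0 ∧ s1 ^ 2 - 4 * s2 ≠ 0 ∧
      ∀ x : ℚ, psi3 (W.map (Int.castRingHom ℚ)) x = 0 → x ^ 2 - s1 * x + s2 ≠ 0 := by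
  have hΔ' : (W.map (Int.castRingHom ℚ)).toAffine.Δ ≠ 0 := by
    show (W.map (Int.castRingHom ℚ)).Δ ≠ 0
    rw [WeierstrassCurve.map_Δ, eq_intCast]
    exact_mod_cast hΔ
  have hnt := FiveExists.nontrivial_torsion_five (W.map (Int.castRingHom ℚ)).toAffine hΔ'
  unfold WeierstrassCurve.ModRepIsIrreducible
    WeierstrassCurve.Affine.Point.GaloisRepIsIrreducible at h
  push Not at h
  obtain ⟨N, hN, hbot, htop⟩ := h hnt
  exact exists_kernel_poly_of_stable _ N hN hbot htop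

end Fermat.Agent.S51.Five
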