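/-
S51, piece X015Model (helper21).  Pure algebra over ℚ, no elliptic-curve API.

The plane curve  `(t+27)(t+3)^3 s = (s^2+10s+5)^3 t`  is the fibre product model
`j_3(t) = j_5(s)` of `X_0(15)`.  With the degree-2 unit `w` we have the relation
`w^3 s^2 + (w^4+9w^3+9w-1) s + 125 w = 0`, whose discriminant in `s` is
`(w^2+4w-1)^2 (w^2-w-1)(w^2+11w-1)`; the quartic `Z^2 = (w^2-w-1)(w^2+11w-1)` is
birational to `y^2 = x(x+9)(x-16)` (the curve 15a1).  All identities below were found by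
exact q-expansion linear algebra and are checked here by `ring`.
-/
import Mathlib

namespace Fermat.Agent.S51

/-- `5` is not a rational square. -/
theorem x015_sq_ne_five (q : ℚ) : q ^ 2 ≠ 5 := by
  intro h
  have h5 : Irrational (Real.sqrt ((5 : ℕ) : ℝ)) := Nat.Prime.irrational_sqrt (by norm_num)
  have hq : Real.sqrt ((5 : ℕ) : ℝ) = ((|q| : ℚ) : ℝ) := by
    rw [Real.sqrt_eq_iff_mul_self_eq (by positivity) (by positivity)]
    have h' : ((q : ℝ)) ^ 2 = 5 := by exact_mod_cast h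
    push_cast
    rw [abs_mul_abs_self]
    nlinarith [h']
  exact h5.ne_rat _ hq

theorem x015_p1_ne (s : ℚ) : s ^ 2 + 10 * s + 5 ≠ 0 := by
  intro h
  exact x015_sq_ne_five ((s + 5) / 2) (by linear_combination h / 4)

theorem x015_p2_ne (s : ℚ) : s ^ 2 + 4 * s - 1 ≠ 0 := by
  intro h
  exact x015_sq_ne_five (s + 2) (by linear_combination h)

set_option maxRecDepth 100000 in
set_option maxHeartbeats 4000000 in
/-- The key certificate: `p^4 * R(s, N/p) = F(t,s) * G(t,s)`. -/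
theorem x015_key_identity (t s : ℚ) :
    (s*(s+3)*t^3 + 33*s*(s+3)*t^2 + (s^4+20*s^3+281*s^2+613*s+25)*t - s*(s^6+33*s^5+405*s^4+2230*s^3+5175*s^2+3582*s+146))^3*((s^2+10*s+5)^2*(s^2+4*s-1))*s^2
    + ((s*(s+3)*t^3 + 33*s*(s+3)*t^2 + (s^4+20*s^3+281*s^2+613*s+25)*t - s*(s^6+33*s^5+405*s^4+2230*s^3+5175*s^2+3582*s+146))^4 + 9*(s*(s+3)*t^3 + 33*s*(s+3)*t^2 + (s^4+20*s^3+281*s^2+613*s+25)*t - s*(s^6+33*s^5+405*s^4+2230*s^3+5175*s^2+3582*s+146))^3*((s^2+10*s+5)^2*(s^2+4*s-1)) + 9*(s*(s+3)*t^3 + 33*s*(s+3)*t^2 + (s^4+20*s^3+281*s^2+613*s+25)*t - s*(s^6+33*s^5+405*s^4+2230*s^3+5175*s^2+3582*s+146))*((s^2+10*s+5)^2*(s^2+4*s-1))^3 - ((s^2+10*s+5)^2*(s^2+4*s-1))^4)*s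
    + 125*(s*(s+3)*t^3 + 33*s*(s+3)*t^2 + (s^4+20*s^3+281*s^2+613*s+25)*t - s*(s^6+33*s^5+405*s^4+2230*s^3+5175*s^2+3582*s+146))*((s^2+10*s+5)^2*(s^2+4*s-1))^3
    = (s*(t+27)*(t+3)^3 - t*(s^2+10*s+5)^3) * (t^8*s^8 + 12*t^8*s^7 + 54*t^8*s^6 + 108*t^8*s^5 + 81*t^8*s^4 + 96*t^7*s^8 + 1152*t^7*s^7 + 5184*t^7*s^6 + 10368*t^7*s^5 + 7776*t^7*s^4 + 4*t^6*s^10 + 116*t^6*s^9 + 4760*t^6*s^8 + 48532*t^6*s^7 + 206308*t^6*s^6 + 400716*t^6*s^5 + 296352*t^6*s^4 + 2700*t^6*s^3 - 2*t^5*s^13 - 84*t^5*s^12 - 1458*t^5*s^11 - 13328*t^5*s^10 - 66660*t^5*s^9 - 101256*t^5*s^8 + 677612*t^5*s^7 + 3885072*t^5*s^6 + 7752294*t^5*s^5 + 5687388*t^5*s^4 + 174150*t^5*s^3 - 129*t^4*s^13 - 5412*t^4*s^12 - 93765*t^4*s^11 - 865782*t^4*s^10 - 4576350*t^4*s^9 - 13188558*t^4*s^8 - 14421558*t^4*s^7 + 20715060*t^4*s^6 + 72259095*t^4*s^5 + 57526350*t^4*s^4 + 3870675*t^4*s^3 + 33750*t^4*s^2 - 5*t^3*s^15 - 295*t^3*s^14 - 10174*t^3*s^13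 - 219610*t^3*s^12 - 2895183*t^3*s^11 - 23406469*t^3*s^10 - 116448660*t^3*s^9 - 348362620*t^3*s^8 - 575340467*t^3*s^7 - 376211233*t^3*s^6 + 170333234*t^3*s^5 + 283057398*t^3*s^4 + 34331175*t^3*s^3 + 1198125*t^3*s^2 + t^2*s^18 + 72*t^2*s^17 + 2304*t^2*s^16 + 43019*t^2*s^15 + 516409*t^2*s^14 + 4107696*t^2*s^13 + 21012062*t^2*s^12 + 57642539*t^2*s^11 - 17864955*t^2*s^10 - 802866008*t^2*s^9 - 3097980652*t^2*s^8 - 5825051619*t^2*s^7 - 5438771813*t^2*s^6 - 1769243276*t^2*s^5 + 331245318*t^2*s^4 + 105898125*t^2*s^3 + 10108750*t^2*s^2 + 187500*t^2*s + 33*t*s^18 + 2373*t*s^17 + 75804*t*s^16 + 1416525*t*s^15 + 17160651*t*s^14 + 141090672*t*s^13 + 799970850*t*s^12 + 3105332025*t*s^11 + 7956683499*t*s^10 + 12175120650*t*s^9 + 7413507432*t*s^8 - 7049799777*t*s^7 - 15239887371*t*s^6 - 8939928192*t*s^5 - 1597694214*t*s^4 - 65926725*t*s^3 + 22132500*t*s^2 + 2390625*t*s + s^20 + 89*s^19 + 3758*s^18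 + 98832*s^17 + 1784673*s^16 + 23082897*s^15 + 217759011*s^14 + 1506336741*s^13 + 7615594356*s^12 + 27839822704*s^11 + 72213673751*s^10 + 129043012358*s^9 + 151785366015*s^8 + 109235961909*s^7 + 42040798131*s^6 + 5700079737*s^5 - 900927636*s^4 - 380255475*s^3 - 203125*s^2 + 9625000*s + 390625) := by
  ring

theorem x015_div_aux (N p s : ℚ) (hp : p ≠ 0)
    (key : N^3*p*s^2 + (N^4 + 9*N^3*p + 9*N*p^3 - p^4)*s + 125*N*p^3 = 0) :
    (N/p)^3*s^2 + ((N/p)^4+9*(N/p)^3+9*(N/p)-1)*s + 125*(N/p) = 0 := by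
  have h : (N/p)^3*s^2 + ((N/p)^4+9*(N/p)^3+9*(N/p)-1)*s + 125*(N/p)
      = (N^3*p*s^2 + (N^4 + 9*N^3*p + 9*N*p^3 - p^4)*s + 125*N*p^3) / p^4 := by
    field_simp
  rw [h, key, zero_div]

/-- Every rational point of the plane model `j_3(t) = j_5(s)` gives a rational `w` on the
`(s,w)`-model of `X_0(15)`. -/
theorem x015_exists_w (t s : ℚ) (h : (t+27)*(t+3)^3*s = (s^2+10*s+5)^3*t) :
    ∃ w : ℚ, w^3*s^2 + (w^4+9*w^3+9*w-1)*s + 125*w = 0 := by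
  have hp : ((s^2+10*s+5)^2*(s^2+4*s-1)) ≠ 0 :=
    mul_ne_zero (pow_ne_zero 2 (x015_p1_ne s)) (x015_p2_ne s)
  have key := x015_key_identity t s
  have hF : s*(t+27)*(t+3)^3 - t*(s^2+10*s+5)^3 = 0 := by linear_combination h
  rw [hF, zero_mul] at key
  exact ⟨(s*(s+3)*t^3 + 33*s*(s+3)*t^2 + (s^4+20*s^3+281*s^2+613*s+25)*t - s*(s^6+33*s^5+405*s^4+2230*s^3+5175*s^2+3582*s+146)) / ((s^2+10*s+5)^2*(s^2+4*s-1)), x015_div_aux _ _ s hp key⟩

/-- From the `(s,w)`-model to the quartic model `Z^2 = (w^2-w-1)(w^2+11w-1)`. -/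
theorem x015_exists_Z (s w : ℚ) (hR : w^3*s^2 + (w^4+9*w^3+9*w-1)*s + 125*w = 0) :
    ∃ Z : ℚ, Z^2 = (w^2-w-1)*(w^2+11*w-1) := by
  have hd : w^2+4*w-1 ≠ 0 := x015_p2_ne w
  refine ⟨(2*w^3*s + (w^4+9*w^3+9*w-1)) / (w^2+4*w-1), ?_⟩
  rw [div_pow, div_eq_iff (pow_ne_zero 2 hd)]
  linear_combination (4*w^3) * hR

/-- From the quartic model to the cubic `y^2 = x(x+9)(x-16)` (the curve 15a1). -/
theorem x015_cubic (w Z : ℚ) (hZ : Z^2 = (w^2-w-1)*(w^2+11*w-1)) :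
    (4*(Z + w^2 + 5*w - 19)*w + 10*(Z + w^2 + 5*w - 19) + 180)^2
      = (2*(Z + w^2 + 5*w - 1)) * (2*(Z + w^2 + 5*w - 1) + 9) * (2*(Z + w^2 + 5*w - 1) - 16) := by
  linear_combination (-8*w^2 - 40*w - 8*Z + 152) * hZ

/-- The `w`-coordinates of the points of the quartic lying over the five finite `x`-values of
the rational points of `y^2 = x(x+9)(x-16)`. -/
theorem x015_w_of_x (w Z : ℚ) (hZ : Z^2 = (w^2-w-1)*(w^2+11*w-1))
    (hx : 2*(Z + w^2 + 5*w - 1) = 0 ∨ 2*(Z + w^2 + 5*w - 1) = -9 ∨ 2*(Z + w^2 + 5*w - 1) = 16 ∨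
      2*(Z + w^2 + 5*w - 1) = -4 ∨ 2*(Z + w^2 + 5*w - 1) = 36) :
    w = 0 ∨ w = 2 ∨ w = -1/2 := by
  rcases hx with hx | hx | hx | hx | hx
  · -- x = 0
    have hZ' : Z = 1 - w^2 - 5*w := by linarith
    subst hZ'
    have h0 : 36 * w^2 = 0 := by linear_combination hZ
    left
    have : w^2 = 0 := by linarith
    exact pow_eq_zero_iff (two_ne_zero) |>.mp this
  · -- x = -9
    have hZ' : Z = -9/2 + 1 - w^2 - 5*w := by linarith
    subst hZ'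
    have h0 : 45 * (w + 1/2)^2 = 0 := by linear_combination hZ
    right; right
    have : (w + 1/2)^2 = 0 := by linarith
    have := pow_eq_zero_iff (two_ne_zero) |>.mp this
    linarith
  · -- x = 16
    have hZ' : Z = 8 + 1 - w^2 - 5*w := by linarith
    subst hZ'
    have h0 : 20 * (w - 2)^2 = 0 := by linear_combination hZ
    right; left
    have : (w - 2)^2 = 0 := by linarith
    have := pow_eq_zero_iff (two_ne_zero) |>.mp this
    linarith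
  · -- x = -4
    have hZ' : Z = -2 + 1 - w^2 - 5*w := by linarith
    subst hZ'
    have h0 : w * (2*w + 1) = 0 := by linear_combination hZ / 20
    rcases mul_eq_zero.mp h0 with h1 | h1
    · left; exact h1
    · right; right; linarith
  · -- x = 36
    have hZ' : Z = 18 + 1 - w^2 - 5*w := by linarith
    subst hZ'
    have h0 : 180 * (w - 2) = 0 := by linear_combination (-1) * hZ
    right; left; linarith

/-- Main classification: the rational points of the plane model `j_3(t) = j_5(s)` of `X_0(15)`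
with `s ≠ 0` have `s ∈ {-10, -25/8, -25/2, -40}`, given the determination of the rational
points of `y^2 = x(x+9)(x-16)`. -/
theorem x015_s_mem (t s : ℚ) (hs : s ≠ 0)
    (h : (t+27)*(t+3)^3*s = (s^2+10*s+5)^3*t)
    (hdesc : ∀ x y : ℚ, y^2 = x*(x+9)*(x-16) → x = 0 ∨ x = -9 ∨ x = 16 ∨ x = -4 ∨ x = 36) :
    s = -10 ∨ s = -25/8 ∨ s = -25/2 ∨ s = -40 := by
  obtain ⟨w, hR⟩ := x015_exists_w t s h
  obtain ⟨Z, hZ⟩ := x015_exists_Z s w hR
  have hxy := x015_cubic w Z hZ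
  have hx := hdesc _ _ hxy
  rcases x015_w_of_x w Z hZ hx with hw | hw | hw
  · -- w = 0 forces s = 0
    subst hw
    exfalso; apply hs; linear_combination -hR
  · -- w = 2
    subst hw
    have h0 : (8*s + 25) * (s + 10) = 0 := by linear_combination hR
    rcases mul_eq_zero.mp h0 with h1 | h1
    · right; left; linarith
    · left; linarith
  · -- w = -1/2
    subst hw
    have h0 : (2*s + 25) * (s + 40) = 0 := by linear_combination (-16) * hR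
    rcases mul_eq_zero.mp h0 with h1 | h1
    · right; right; left; linarith
    · right; right; right; linarith

/-- The `j`-invariants of the non-cuspidal rational points of `X_0(15)`. -/
theorem j_mem_of_params (t s : ℚ) (ht : t ≠ 0) (hs : s ≠ 0)
    (h : (t+27)*(t+3)^3*s = (s^2+10*s+5)^3*t)
    (hdesc : ∀ x y : ℚ, y^2 = x*(x+9)*(x-16) → x = 0 ∨ x = -9 ∨ x = 16 ∨ x = -4 ∨ x = 36) :
    (t+27)*(t+3)^3/t = -25/2 ∨ (t+27)*(t+3)^3/t = -349938025/8 ∨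
      (t+27)*(t+3)^3/t = -121945/32 ∨ (t+27)*(t+3)^3/t = 46969655/32768 := by
  have hj : (t+27)*(t+3)^3/t = (s^2+10*s+5)^3/s := by
    rw [div_eq_div_iff ht hs]; exact h
  rw [hj]
  rcases x015_s_mem t s hs h hdesc with rfl | rfl | rfl | rfl
  · left; norm_num
  · right; right; right; norm_num
  · right; right; left; norm_num
  · right; left; norm_num

end Fermat.Agent.S51
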